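import Mathlib
import Fermat.Prelude.Def_ModularCurve_X0ModL

/-!
# Laurent `q`-expansions of functions on the upper half plane
-/

set_option autoImplicit false

noncomputable section

open UpperHalfPlane hiding I
open Complex HahnSeries ModularCurve
open scoped Real MatrixGroups

namespace Fermat.Agent.Igusa

local notation "𝕢" => Function.Periodic.qParam

/-- `F : ℍ → ℂ` is given on all of `ℍ` by the convergent Laurent `q`-expansion `f`. -/
def HasLExp (F : ℍ → ℂ) (f : LaurentSeries ℂ) : Prop :=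
  ∀ τ : ℍ, HasSum (fun n : ℤ => f.coeff n * (𝕢 1 (τ : ℂ)) ^ n) (F τ)

theorem qParam_ne_zero (τ : ℍ) : 𝕢 1 (τ : ℂ) ≠ 0 := Function.Periodic.qParam_ne_zero _

namespace HasLExp

variable {F G : ℍ → ℂ} {f g : LaurentSeries ℂ}

theorem congr (hF : HasLExp F f) (h : ∀ τ, F τ = G τ) : HasLExp G f := fun τ => h τ ▸ hF τ

theorem congr_right (hF : HasLExp F f) (h : f = g) : HasLExp F g := h ▸ hF

theorem add (hF : HasLExp F f) (hG : HasLExp G g) : HasLExp (fun τ => F τ + G τ) (f + g) := by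
  intro τ
  have := (hF τ).add (hG τ)
  simpa only [HahnSeries.coeff_add, add_mul] using this

theorem neg (hF : HasLExp F f) : HasLExp (fun τ => - F τ) (-f) := by
  intro τ
  have := (hF τ).neg
  simpa only [HahnSeries.coeff_neg, neg_mul] using this

theorem sub (hF : HasLExp F f) (hG : HasLExp G g) : HasLExp (fun τ => F τ - G τ) (f - g) := by
  intro τ
  have := (hF τ).sub (hG τ)
  simpa only [HahnSeries.coeff_sub, sub_mul] using this

theorem single (k : ℤ) (c : ℂ) :
    HasLExp (fun τ => c * (𝕢 1 (τ : ℂ)) ^ k) (HahnSeries.single k c) := by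
  intro τ
  convert hasSum_single k ?_ using 1
  · simp
  · intro n hn
    simp [HahnSeries.coeff_single_of_ne hn]

theorem const (c : ℂ) : HasLExp (fun _ => c) (HahnSeries.C c) := by
  have := single 0 c
  simpa using this

theorem zero : HasLExp (fun _ => 0) 0 := by
  intro τ
  simp

theorem one : HasLExp (fun _ => 1) 1 := by
  simpa using const 1

/-- The reindexing `(n, i) ↦ (i, n - i)`. -/
def cauchyEquiv : ℤ × ℤ ≃ ℤ × ℤ where
  toFun x := (x.2, x.1 - x.2)
  invFun x := (x.1 + x.2, x.1)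
  left_inv x := by ext <;> simp
  right_inv x := by ext <;> simp

theorem hasSum_cauchy {u v : ℤ → ℂ} {a b : ℂ} (hu : HasSum u a) (hv : HasSum v b) {w : ℤ → ℂ}
    (hw : ∀ n, HasSum (fun i => u i * v (n - i)) (w n)) : HasSum w (a * b) := by
  have hf' : Summable (fun n : ℤ => ‖u n‖) := hu.summable.norm
  have hg' : Summable (fun n : ℤ => ‖v n‖) := hv.summable.norm
  have hfg : Summable (fun x : ℤ × ℤ => u x.1 * v x.2) :=
    summable_mul_of_summable_norm hf' hg'
  have h1 : HasSum (fun x : ℤ × ℤ => u x.1 * v x.2) (a * b) := HasSum.mul hu hv hfg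
  have h2 := cauchyEquiv.hasSum_iff.mpr h1
  exact HasSum.prod_fiberwise h2 hw

theorem hasSum_coeff_mul (f g : LaurentSeries ℂ) {z : ℂ} (hz0 : z ≠ 0) (n : ℤ) :
    HasSum (fun c : ℤ => f.coeff c * z ^ c * (g.coeff (n - c) * z ^ (n - c)))
      ((f * g).coeff n * z ^ n) := by
  have hs : ∀ c : ℤ, c ∉ (Finset.antidiagonal f.isPWO_support g.isPWO_support n).image Prod.fst →
      f.coeff c * z ^ c * (g.coeff (n - c) * z ^ (n - c)) = 0 := by
    intro c hc
    by_contra hne
    apply hc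
    rw [Finset.mem_image]
    refine ⟨(c, n - c), ?_, rfl⟩
    rw [Finset.mem_antidiagonal]
    refine ⟨?_, ?_, by simp⟩
    · rw [HahnSeries.mem_support]
      intro h0
      exact hne (by rw [h0]; ring)
    · rw [HahnSeries.mem_support]
      intro h0
      exact hne (by rw [h0]; ring)
  have h3 : HasSum (fun c : ℤ => f.coeff c * z ^ c * (g.coeff (n - c) * z ^ (n - c)))
    (∑ c ∈ (Finset.antidiagonal f.isPWO_support
      g.isPWO_support n).image Prod.fst, f.coeff c * z ^ c * (g.coeff (n - c) * z ^ (n - c))) :=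
    hasSum_sum_of_ne_finset_zero hs
  have h4 : (f * g).coeff n * z ^ n = ∑ c ∈ (Finset.antidiagonal f.isPWO_support
      g.isPWO_support n).image Prod.fst, f.coeff c * z ^ c * (g.coeff (n - c) * z ^ (n - c)) := by
    rw [Finset.sum_image, HahnSeries.coeff_mul, Finset.sum_mul]
    · refine Finset.sum_congr rfl fun ij hij => ?_
      obtain ⟨-, -, hsum⟩ := Finset.mem_antidiagonal.mp hij
      have h4 : n - ij.1 = ij.2 := by rw [← hsum]; ring
      rw [h4, ← hsum, zpow_add₀ hz0]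
      ring
    · intro a ha b hb hab
      obtain ⟨-, -, h1⟩ := Finset.mem_antidiagonal.mp ha
      obtain ⟨-, -, h2⟩ := Finset.mem_antidiagonal.mp hb
      have hab' : a.1 = b.1 := hab
      ext
      · exact hab'
      · have : a.1 + a.2 = b.1 + b.2 := by rw [h1, h2]
        omega
  rw [h4]
  exact h3

theorem hasSum_mul_aux {f g : LaurentSeries ℂ} {z a b : ℂ} (hz0 : z ≠ 0)
    (hf : HasSum (fun n : ℤ => f.coeff n * z ^ n) a)
    (hg : HasSum (fun n : ℤ => g.coeff n * z ^ n) b) :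
    HasSum (fun n : ℤ => (f * g).coeff n * z ^ n) (a * b) :=
  hasSum_cauchy hf hg fun n => hasSum_coeff_mul f g hz0 n

theorem mul (hF : HasLExp F f) (hG : HasLExp G g) : HasLExp (fun τ => F τ * G τ) (f * g) :=
  fun τ => hasSum_mul_aux (qParam_ne_zero τ) (hF τ) (hG τ)

theorem smul (c : ℂ) (hF : HasLExp F f) : HasLExp (fun τ => c * F τ) (HahnSeries.C c * f) :=
  (const c).mul hF

theorem pow (hF : HasLExp F f) (k : ℕ) : HasLExp (fun τ => F τ ^ k) (f ^ k) := by
  induction k with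
  | zero => simpa using one
  | succ k ih => simpa only [pow_succ] using ih.mul hF

theorem sum {ι : Type*} (s : Finset ι) {F : ι → ℍ → ℂ} {f : ι → LaurentSeries ℂ}
    (h : ∀ i ∈ s, HasLExp (F i) (f i)) : HasLExp (fun τ => ∑ i ∈ s, F i τ) (∑ i ∈ s, f i) := by
  classical
  induction s using Finset.induction_on with
  | empty => simpa using zero
  | insert a s ha ih =>
    simp only [Finset.sum_insert ha]
    exact (h a (Finset.mem_insert_self _ _)).add
      (ih fun i hi => h i (Finset.mem_insert_of_mem hi))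

theorem ofPowerSeries_iff {F : ℍ → ℂ} {p : PowerSeries ℂ} :
    HasLExp F (HahnSeries.ofPowerSeries ℤ ℂ p) ↔
      ∀ τ : ℍ, HasSum (fun n : ℕ => p.coeff n • (𝕢 1 (τ : ℂ)) ^ n) (F τ) := by
  unfold HasLExp
  refine forall_congr' fun τ => ?_
  rw [← (Nat.cast_injective (R := ℤ)).hasSum_iff]
  · simp [Function.comp_def]
  · intro n hn
    have : n < 0 := by
      by_contra h
      push Not at h
      exact hn ⟨n.toNat, by simp [h]⟩
    rw [ModularCurve.ofPowerSeries_coeff_of_neg _ this, zero_mul]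

/-- Uniqueness of the Laurent expansion. -/
theorem eq_zero (h : HasLExp (fun _ => 0) f) : f = 0 := by
  by_contra hf
  set m := f.order with hm
  have key : ∀ τ : ℍ, HasSum (fun n : ℕ => (fun k : ℕ => f.coeff (m + k)) n • (𝕢 1 (τ : ℂ)) ^ n)
      ((0 : ModularForm 𝒮ℒ 0) τ) := by
    intro τ
    have h1 := (h τ).mul_left ((𝕢 1 (τ : ℂ)) ^ (-m))
    rw [mul_zero] at h1
    have h2 : HasSum (fun n : ℤ => (𝕢 1 (τ : ℂ)) ^ (-m) *
        (f.coeff (n + m) * (𝕢 1 (τ : ℂ)) ^ (n + m))) 0 :=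
      (Equiv.addRight m).hasSum_iff.mpr h1
    have h3 : HasSum ((fun n : ℤ => (𝕢 1 (τ : ℂ)) ^ (-m) *
        (f.coeff (n + m) * (𝕢 1 (τ : ℂ)) ^ (n + m))) ∘ ((↑) : ℕ → ℤ)) 0 := by
      rw [(Nat.cast_injective (R := ℤ)).hasSum_iff]
      · exact h2
      · intro n hn
        have hn0 : n < 0 := by
          by_contra hh
          push Not at hh
          exact hn ⟨n.toNat, by simp [hh]⟩
        rw [HahnSeries.coeff_eq_zero_of_lt_order (by omega)]
        ring
    have h0 : ((0 : ModularForm 𝒮ℒ 0) τ) = 0 := rfl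
    rw [h0]
    convert h3 using 1
    ext n
    simp only [Function.comp_apply, smul_eq_mul]
    rw [add_comm (n : ℤ) m, zpow_add₀ (qParam_ne_zero τ), zpow_neg, zpow_natCast]
    field_simp [qParam_ne_zero τ]
  have h4 := ModularFormClass.qExpansion_coeff_unique (Γ := 𝒮ℒ) (k := 0) one_pos
    one_mem_strictPeriods_SL key 0
  have h5 : qExpansion 1 ((0 : ModularForm 𝒮ℒ 0) : ℍ → ℂ) = 0 := by
    simpa using qExpansion_zero 1
  rw [h5] at h4
  simp only [Nat.cast_zero, add_zero, map_zero] at h4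
  exact (HahnSeries.coeff_order_eq_zero.not.mpr hf) (by simpa [hm] using h4)

theorem unique (hf : HasLExp F f) (hg : HasLExp F g) : f = g := by
  have := hf.sub hg
  simp only [sub_self] at this
  exact sub_eq_zero.mp this.eq_zero

theorem comp_nat_mul (hF : HasLExp F f) (p : ℕ) [NeZero p] {F' : ℍ → ℂ}
    (hF' : ∀ τ τ' : ℍ, (τ' : ℂ) = p * τ → F' τ = F τ') : HasLExp F' (qExpand ℂ p f) := by
  intro τ
  have hp : (0 : ℝ) < p := by exact_mod_cast Nat.pos_of_ne_zero (NeZero.ne p)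
  let τ' : ℍ := ⟨(p : ℂ) * τ, by simpa using mul_pos hp τ.im_pos⟩
  have hτ' : (τ' : ℂ) = p * τ := rfl
  rw [hF' τ τ' hτ']
  have h1 := hF τ'
  have hq : 𝕢 1 (τ' : ℂ) = (𝕢 1 (τ : ℂ)) ^ (p : ℤ) := by
    rw [hτ', zpow_natCast]
    simp only [Function.Periodic.qParam]
    rw [← Complex.exp_nat_mul]
    congr 1
    ring
  have hinj : Function.Injective (fun k : ℤ => (p : ℤ) * k) :=
    mul_right_injective₀ (by exact_mod_cast NeZero.ne p)
  rw [← hinj.hasSum_iff]
  · simp only [Function.comp_def, qExpand_coeff_mul]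
    convert h1 using 1
    ext n
    rw [hq, zpow_mul]
  · intro n hn
    rw [qExpand_coeff_of_not_dvd, zero_mul]
    rintro ⟨k, rfl⟩
    exact hn ⟨k, rfl⟩

end HasLExp

/-- The `U_p`-operator on Laurent series: `(U_p f)_m = f_{pm}`. -/
def Up {R : Type*} [CommRing R] (p : ℕ) [NeZero p] (f : LaurentSeries R) : LaurentSeries R :=
  HahnSeries.ofSuppBddBelow (fun m : ℤ => f.coeff ((p : ℤ) * m)) (by
    refine ⟨min f.order 0, fun m hm => ?_⟩
    have hm' : f.coeff ((p : ℤ) * m) ≠ 0 := hm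
    have h1 := HahnSeries.order_le_of_coeff_ne_zero hm'
    have hp : (1 : ℤ) ≤ p := by
      have := Nat.pos_of_ne_zero (NeZero.ne p)
      exact_mod_cast this
    by_contra hlt
    push Not at hlt
    have h2 : m < f.order := lt_of_lt_of_le hlt (min_le_left _ _)
    have h3 : m < 0 := lt_of_lt_of_le hlt (min_le_right _ _)
    nlinarith)

@[simp]
theorem Up_coeff {R : Type*} [CommRing R] (p : ℕ) [NeZero p] (f : LaurentSeries R) (m : ℤ) :
    (Up p f).coeff m = f.coeff ((p : ℤ) * m) := rfl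

/-- Sum over `p`-th roots of unity. -/
theorem sum_exp_zpow (p : ℕ) [NeZero p] (n : ℤ) :
    ∑ b ∈ Finset.range p, (Complex.exp (2 * π * I * (b : ℂ) / p)) ^ n =
      if (p : ℤ) ∣ n then (p : ℂ) else 0 := by
  have hp : (p : ℂ) ≠ 0 := by exact_mod_cast NeZero.ne p
  have hζ : IsPrimitiveRoot (Complex.exp (2 * π * I / p)) p :=
    Complex.isPrimitiveRoot_exp p (NeZero.ne p)
  have h1 : ∀ b ∈ Finset.range p, (Complex.exp (2 * π * I * (b : ℂ) / p)) ^ n =
      ((Complex.exp (2 * π * I / p)) ^ n) ^ b := by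
    intro b _
    rw [← zpow_natCast, ← zpow_mul, mul_comm n, zpow_mul, zpow_natCast, ← Complex.exp_nat_mul]
    congr 2
    ring
  rw [Finset.sum_congr rfl h1]
  split_ifs with hdvd
  · have : (Complex.exp (2 * π * I / p)) ^ n = 1 := (hζ.zpow_eq_one_iff_dvd n).mpr hdvd
    simp [this]
  · have hne : (Complex.exp (2 * π * I / p)) ^ n ≠ 1 :=
      fun h => hdvd ((hζ.zpow_eq_one_iff_dvd n).mp h)
    rw [geom_sum_eq hne]
    have : ((Complex.exp (2 * π * I / p)) ^ n) ^ p = 1 := by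
      rw [← zpow_natCast, ← zpow_mul, mul_comm n, zpow_mul, zpow_natCast, hζ.pow_eq_one, one_zpow]
    rw [this, sub_self, zero_div]

theorem HasLExp.sum_div {F : ℍ → ℂ} {f : LaurentSeries ℂ} (hF : HasLExp F f) (p : ℕ) [NeZero p]
    {F' : ℕ → ℍ → ℂ} (hF' : ∀ (b : ℕ) (τ τ' : ℍ), (τ' : ℂ) = (τ + b) / p → F' b τ = F τ') :
    HasLExp (fun τ => ∑ b ∈ Finset.range p, F' b τ) (HahnSeries.C (p : ℂ) * Up p f) := by
  intro τ
  have hp0 : (p : ℂ) ≠ 0 := by exact_mod_cast NeZero.ne p
  have hp : (0 : ℝ) < p := by exact_mod_cast Nat.pos_of_ne_zero (NeZero.ne p)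
  let τb : ℕ → ℍ := fun b => ⟨((τ : ℂ) + b) / p, by
    have : (((τ : ℂ) + b) / p).im = τ.im / p := by
      rw [Complex.div_natCast_im]
      simp
    rw [this]
    exact div_pos τ.im_pos hp⟩
  have hτb : ∀ b, (τb b : ℂ) = (τ + b) / p := fun b => rfl
  set w := Complex.exp (2 * π * I * τ / p) with hw
  have hw0 : w ≠ 0 := Complex.exp_ne_zero _
  have hqb : ∀ b, 𝕢 1 (τb b : ℂ) = Complex.exp (2 * π * I * (b : ℂ) / p) * w := by
    intro b
    rw [hτb, hw, ← Complex.exp_add]
    simp only [Function.Periodic.qParam]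
    congr 1
    field_simp
    push_cast
    ring
  have hqw : 𝕢 1 (τ : ℂ) = w ^ (p : ℤ) := by
    rw [zpow_natCast, hw, ← Complex.exp_nat_mul]
    simp only [Function.Periodic.qParam]
    congr 1
    push_cast
    field_simp
  have h1 : HasSum (fun n : ℤ => ∑ b ∈ Finset.range p, f.coeff n * (𝕢 1 (τb b : ℂ)) ^ n)
      (∑ b ∈ Finset.range p, F' b τ) := by
    refine hasSum_sum fun b _ => ?_
    rw [hF' b τ (τb b) (hτb b)]
    exact hF (τb b)
  have h2 : ∀ n : ℤ, ∑ b ∈ Finset.range p, f.coeff n * (𝕢 1 (τb b : ℂ)) ^ n =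
      if (p : ℤ) ∣ n then (p : ℂ) * (f.coeff n * w ^ n) else 0 := by
    intro n
    have : ∀ b ∈ Finset.range p, f.coeff n * (𝕢 1 (τb b : ℂ)) ^ n =
        (f.coeff n * w ^ n) * (Complex.exp (2 * π * I * (b : ℂ) / p)) ^ n := by
      intro b _
      rw [hqb, mul_zpow]
      ring
    rw [Finset.sum_congr rfl this, ← Finset.mul_sum, sum_exp_zpow]
    split_ifs <;> ring
  simp_rw [h2] at h1
  have hinj : Function.Injective (fun k : ℤ => (p : ℤ) * k) :=
    mul_right_injective₀ (by exact_mod_cast NeZero.ne p)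
  rw [← hinj.hasSum_iff] at h1
  · convert h1 using 1
    ext m
    simp only [Function.comp_apply, HahnSeries.C_mul_eq_smul, HahnSeries.coeff_smul, Up_coeff,
      smul_eq_mul, dvd_mul_right, if_true]
    rw [hqw, ← zpow_mul]
    ring
  · intro n hn
    rw [if_neg]
    rintro ⟨k, rfl⟩
    exact hn ⟨k, rfl⟩

end Fermat.Agent.Igusa
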