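import Mathlib
import Fermat.Prelude.Def_ModularCurve_X0ModL
import Fermat.Agent.Igusa.LExp
import Fermat.Agent.S28_Series
import Fermat.Agent.JLevelOne.Basic

/-!
# The Laurent expansions of `Δ`, `1/Δ`, `E₄` and `j`
-/

set_option autoImplicit false

noncomputable section

open UpperHalfPlane hiding I
open Complex HahnSeries ModularCurve ModularForm
open scoped Real MatrixGroups Topology

namespace Fermat.Agent.Igusa

local notation "𝕢" => Function.Periodic.qParam

open Fermat.Agent.S28aux Fermat.Agent.JLevelOne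

/-- The infinite product `∏ (1 - z^{n+1})` as a function on `ℂ`. -/
def etaFun (z : ℂ) : ℂ := ∏' n : ℕ, (1 - z ^ (n + 1))

theorem iteratedDeriv_polynomial (k : ℕ) (p : Polynomial ℂ) :
    iteratedDeriv k (fun z => p.eval z) = fun z => (Polynomial.derivative^[k] p).eval z := by
  induction k with
  | zero => simp
  | succ k ih =>
    rw [iteratedDeriv_succ, ih, Function.iterate_succ_apply']
    ext z
    simp

theorem tendsto_iteratedDeriv_eta (k : ℕ) :
    TendstoLocallyUniformlyOn
      (fun (s : Finset ℕ) => iteratedDeriv k (fun z : ℂ => ∏ n ∈ s, (1 - z ^ (n + 1))))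
      (iteratedDeriv k etaFun) Filter.atTop (Metric.ball (0 : ℂ) 1) := by
  induction k with
  | zero =>
    simp only [iteratedDeriv_zero]
    exact multipliableLocallyUniformlyOn_one_sub_pow.hasProdLocallyUniformlyOn
  | succ k ih =>
    simp only [iteratedDeriv_succ]
    refine ih.deriv (Filter.Eventually.of_forall fun s => ?_) Metric.isOpen_ball
    have h : (fun z : ℂ => ∏ n ∈ s, (1 - z ^ (n + 1))) =
        fun z => (∏ n ∈ s, (1 - Polynomial.X ^ (n + 1) : Polynomial ℂ)).eval z := by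
      ext z
      simp [Polynomial.eval_prod]
    rw [h, iteratedDeriv_polynomial]
    exact (Polynomial.differentiable _).differentiableOn

theorem etaProd_eq : etaProd = PowerSeries.pentagonalSeries ℤ := by
  rw [etaProd]
  exact PowerSeries.WithPiTopology.tprod_one_sub_X_pow ℤ

theorem iteratedDeriv_etaFun (k : ℕ) :
    iteratedDeriv k etaFun 0 = (k.factorial : ℂ) * ((etaProd.coeff k : ℤ) : ℂ) := by
  have h1 := (tendsto_iteratedDeriv_eta k).tendsto_at (Metric.mem_ball_self one_pos)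
  have h2 : ∀ᶠ s : Finset ℕ in Filter.atTop,
      iteratedDeriv k (fun z : ℂ => ∏ n ∈ s, (1 - z ^ (n + 1))) 0 =
        (k.factorial : ℂ) * ((etaProd.coeff k : ℤ) : ℂ) := by
    rw [etaProd_eq]
    filter_upwards [PowerSeries.coeff_prod_one_sub_X_pow_eventually_eq ℤ k] with s hs
    have h : (fun z : ℂ => ∏ n ∈ s, (1 - z ^ (n + 1))) =
        fun z => ((∏ n ∈ s, (1 - Polynomial.X ^ (n + 1) : Polynomial ℤ)).map
          (Int.castRingHom ℂ)).eval z := by
      ext z
      simp [Polynomial.map_prod, Polynomial.eval_prod]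
    rw [h, iteratedDeriv_polynomial, ← hs]
    have h3 : (∏ n ∈ s, (1 - PowerSeries.X ^ (n + 1) : PowerSeries ℤ)) =
        ((∏ n ∈ s, (1 - Polynomial.X ^ (n + 1) : Polynomial ℤ) : Polynomial ℤ) :
          PowerSeries ℤ) := by
      rw [← Polynomial.coeToPowerSeries.ringHom_apply, map_prod]
      refine Finset.prod_congr rfl fun n _ => ?_
      simp
    rw [h3, Polynomial.coeff_coe]
    simp only
    rw [← Polynomial.coeff_zero_eq_eval_zero, Polynomial.coeff_iterate_derivative]
    simp [Nat.descFactorial_self]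
  exact tendsto_nhds_unique h1 (tendsto_nhds_of_eventually_eq h2)

theorem hasSum_etaProd {z : ℂ} (hz : ‖z‖ < 1) :
    HasSum (fun n : ℕ => ((etaProd.coeff n : ℤ) : ℂ) * z ^ n) (etaFun z) := by
  have hd : DifferentiableOn ℂ etaFun (Metric.ball (0 : ℂ) 1) := differentiableOn_tprod_one_sub_pow
  have h := Complex.hasSum_taylorSeries_on_ball hd (z := z) (by simpa using hz)
  have h' : (fun n : ℕ => ((etaProd.coeff n : ℤ) : ℂ) * z ^ n) =
      fun n : ℕ => (n.factorial : ℂ)⁻¹ • (z - 0) ^ n • iteratedDeriv n etaFun 0 := by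
    funext n
    rw [iteratedDeriv_etaFun]
    have : (n.factorial : ℂ) ≠ 0 := by exact_mod_cast n.factorial_ne_zero
    simp only [sub_zero, smul_eq_mul]
    field_simp
  rw [h']
  exact h

theorem hasLExp_etaFun : HasLExp (fun τ => etaFun (𝕢 1 (τ : ℂ)))
    (HahnSeries.ofPowerSeries ℤ ℂ (etaProd.map (Int.castRingHom ℂ))) := by
  rw [HasLExp.ofPowerSeries_iff]
  intro τ
  have := hasSum_etaProd (z := 𝕢 1 (τ : ℂ)) (Function.Periodic.norm_qParam_lt_one one_pos τ.im_pos)
  simpa using this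

theorem discriminant_eq_etaFun (τ : ℍ) :
    discriminant τ = 𝕢 1 (τ : ℂ) * etaFun (𝕢 1 (τ : ℂ)) ^ 24 := by
  rw [discriminant_eq_q_prod, etaFun]
  congr 1
  have := (multipliableLocallyUniformlyOn_eta.multipliable τ.2).tprod_pow 24
  rw [this]

theorem hasLExp_discriminant : HasLExp discriminant (deltaC ℂ) := by
  have h1 := (HasLExp.single 1 1).mul (hasLExp_etaFun.pow 24)
  refine (h1.congr fun τ => ?_).congr_right ?_
  · rw [discriminant_eq_etaFun]
    simp
  · rw [deltaC, dedekindEtaUnit, map_pow, map_pow]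

theorem HasLExp_of_form {k : ℤ} (f : ModularForm 𝒮ℒ k) :
    HasLExp f (HahnSeries.ofPowerSeries ℤ ℂ (qExpansion 1 f)) := by
  rw [HasLExp.ofPowerSeries_iff]
  intro τ
  exact ModularForm.hasSum_qExpansion f one_pos one_mem_strictPeriods_SL τ

theorem qExpansion_E4 : qExpansion 1 (E₄ : ModularForm 𝒮ℒ 4) =
    eisenstein4.map (Int.castRingHom ℂ) := by
  ext n
  rw [PowerSeries.coeff_map]
  rw [EisensteinSeries.E_qExpansion_coeff (k := 4) (by norm_num) ⟨2, rfl⟩]
  simp only [eisenstein4, PowerSeries.coeff_mk]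
  split_ifs with h
  · simp
  · rw [show bernoulli 4 = -1 / 30 by decide +kernel]
    simp [ArithmeticFunction.sigma_apply]
    norm_num

theorem hasLExp_E4 : HasLExp (E₄ : ModularForm 𝒮ℒ 4)
    (HahnSeries.ofPowerSeries ℤ ℂ (eisenstein4.map (Int.castRingHom ℂ))) := by
  rw [← qExpansion_E4]
  exact HasLExp_of_form _

theorem etaFun_ne_zero {z : ℂ} (hz : ‖z‖ < 1) : etaFun z ≠ 0 := by
  have h := tprod_one_add_ne_zero_of_summable (f := fun n : ℕ => -z ^ (n + 1)) ?_ ?_
  · simpa [etaFun, sub_eq_add_neg] using h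
  · intro n h0
    have h1 : z ^ (n + 1) = 1 := by linear_combination -h0
    have h2 : ‖z‖ ^ (n + 1) = 1 := by rw [← norm_pow, h1, norm_one]
    have h3 : ‖z‖ ^ (n + 1) < 1 := pow_lt_one₀ (norm_nonneg _) hz (Nat.succ_ne_zero n)
    linarith
  · simp only [norm_neg, norm_pow]
    exact (summable_nat_add_iff 1).mpr (summable_geometric_of_lt_one (norm_nonneg _) hz)

theorem hasLExp_discriminant_inv : HasLExp (fun τ => (discriminant τ)⁻¹) (deltaInvC ℂ) := by
  have hd : DifferentiableOn ℂ (fun z => (etaFun z ^ 24)⁻¹) (Metric.ball (0 : ℂ) 1) := by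
    have h1 : DifferentiableOn ℂ etaFun (Metric.ball (0 : ℂ) 1) := differentiableOn_tprod_one_sub_pow
    exact (h1.fun_pow 24).fun_inv fun z hz => pow_ne_zero _ (etaFun_ne_zero (by simpa using hz))
  set c : ℕ → ℂ := fun n => (n.factorial : ℂ)⁻¹ *
    iteratedDeriv n (fun z => (etaFun z ^ 24)⁻¹) 0 with hc
  have h1 : HasLExp (fun τ => (etaFun (𝕢 1 (τ : ℂ)) ^ 24)⁻¹)
      (HahnSeries.ofPowerSeries ℤ ℂ (PowerSeries.mk c)) := by
    rw [HasLExp.ofPowerSeries_iff]
    intro τ
    have h := Complex.hasSum_taylorSeries_on_ball hd (z := 𝕢 1 (τ : ℂ))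
      (by simpa using Function.Periodic.norm_qParam_lt_one one_pos τ.im_pos)
    have h' : (fun n : ℕ => (PowerSeries.mk c).coeff n • (𝕢 1 (τ : ℂ)) ^ n) =
        fun n : ℕ => (n.factorial : ℂ)⁻¹ • ((𝕢 1 (τ : ℂ)) - 0) ^ n •
          iteratedDeriv n (fun z => (etaFun z ^ 24)⁻¹) 0 := by
      funext n
      simp only [PowerSeries.coeff_mk, hc, sub_zero, smul_eq_mul]
      ring
    rw [h']
    exact h
  have h2 := (HasLExp.single (-1) 1).mul h1
  have h3 : HasLExp (fun τ => (discriminant τ)⁻¹)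
      (HahnSeries.single (-1 : ℤ) (1 : ℂ) * HahnSeries.ofPowerSeries ℤ ℂ (PowerSeries.mk c)) := by
    refine h2.congr fun τ => ?_
    rw [discriminant_eq_etaFun, mul_inv, one_mul, zpow_neg_one]
  refine h3.congr_right ?_
  have h4 : HasLExp (fun _ => 1) (deltaC ℂ * (HahnSeries.single (-1 : ℤ) (1 : ℂ) *
      HahnSeries.ofPowerSeries ℤ ℂ (PowerSeries.mk c))) :=
    (hasLExp_discriminant.mul h3).congr fun τ => mul_inv_cancel₀ (discriminant_ne_zero τ)
  have h5 := h4.unique HasLExp.one
  rw [deltaInvC_eq]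
  exact eq_inv_of_mul_eq_one_right h5

theorem jqModC_eq (R : Type*) [CommRing R] : jqModC R =
    HahnSeries.ofPowerSeries ℤ R (eisenstein4.map (Int.castRingHom R)) ^ 3 * deltaInvC R := by
  rw [jqModC, jNum, deltaInvC, map_mul, map_mul, map_pow, map_pow]
  ring

theorem hasLExp_jFun : HasLExp jFun (jqModC ℂ) := by
  rw [jqModC_eq]
  exact ((hasLExp_E4.pow 3).mul hasLExp_discriminant_inv).congr fun τ => by
    rw [jFun, div_eq_mul_inv]

end Fermat.Agent.Igusa
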