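import Mathlib

/-!
# From power sums to a monic polynomial
-/

set_option autoImplicit false

noncomputable section

open Polynomial

namespace Fermat.Agent.Igusa

variable {σ : Type*} [Fintype σ] {X : Type*} (J : X → ℂ) (g : σ → X → ℂ)

theorem exists_esymm_of_psum
    (hp : ∀ k : ℕ, 0 < k → ∃ Q : ℂ[X], ∀ τ, ∑ i, g i τ ^ k = Q.eval (J τ)) (k : ℕ) :
    ∃ Q : ℂ[X], ∀ τ, MvPolynomial.aeval (fun i => g i τ) (MvPolynomial.esymm σ ℂ k) =
      Q.eval (J τ) := by
  classical
  induction k using Nat.strong_induction_on with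
  | _ k ih =>
  rcases Nat.eq_zero_or_pos k with rfl | hk
  · exact ⟨1, fun τ => by simp⟩
  · choose! Qe hQe using ih
    choose! Qp hQp using hp
    have hk0 : (k : ℂ) ≠ 0 := by exact_mod_cast hk.ne'
    refine ⟨C ((k : ℂ)⁻¹) * ((-1) ^ (k + 1) *
      ∑ a ∈ Finset.HasAntidiagonal.antidiagonal k with a.1 < k, (-1) ^ a.1 * Qe a.1 * Qp a.2), fun τ => ?_⟩
    have h := congrArg (MvPolynomial.aeval (fun i => g i τ)) (MvPolynomial.mul_esymm_eq_sum σ ℂ k)
    simp only [map_mul, map_natCast, map_pow, map_neg, map_one, map_sum] at h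
    rw [eval_mul, eval_C, eq_comm, inv_mul_eq_iff_eq_mul₀ hk0, h]
    simp only [eval_mul, eval_pow, eval_neg, eval_one, eval_finsetSum]
    congr 1
    refine Finset.sum_congr rfl fun a ha => ?_
    rw [Finset.mem_filter, Finset.HasAntidiagonal.mem_antidiagonal] at ha
    rw [hQe a.1 ha.2, ← hQp a.2 (by omega)]
    simp [MvPolynomial.psum]

theorem exists_monic_of_psum
    (hp : ∀ k : ℕ, 0 < k → ∃ Q : ℂ[X], ∀ τ, ∑ i, g i τ ^ k = Q.eval (J τ)) :
    ∃ Ψ : Polynomial ℂ[X], Ψ.Monic ∧ Ψ.natDegree = Fintype.card σ ∧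
      ∀ i τ, (Ψ.map (evalRingHom (J τ))).eval (g i τ) = 0 := by
  classical
  choose Q hQ using exists_esymm_of_psum J g hp
  set n := Fintype.card σ with hn
  set L : Polynomial ℂ[X] := ∑ j ∈ Finset.range n, C ((-1) ^ (j + 1) * Q (j + 1)) *
    Polynomial.X ^ (n - (j + 1)) with hL
  have hdeg : L.degree < n := by
    rw [hL]
    refine (degree_sum_le _ _).trans_lt ((Finset.sup_lt_iff (WithBot.bot_lt_coe n)).mpr ?_)
    intro j hj
    refine (degree_C_mul_X_pow_le _ _).trans_lt ?_
    have := Finset.mem_range.mp hj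
    exact WithBot.coe_lt_coe.mpr (by omega : n - (j + 1) < n)
  have hmonic : (Polynomial.X ^ n + L).Monic := monic_X_pow_add hdeg
  refine ⟨Polynomial.X ^ n + L, hmonic, ?_, fun i τ => ?_⟩
  · rw [natDegree_eq_of_degree_eq (degree_add_eq_left_of_degree_lt (by rwa [degree_X_pow])),
      natDegree_X_pow]
  · have h1 := Multiset.prod_X_sub_X_eq_sum_esymm
      ((Finset.univ : Finset σ).val.map (fun i => g i τ))
    have h2 : (Polynomial.X ^ n + L).map (evalRingHom (J τ)) =
        (((Finset.univ : Finset σ).val.map (fun i => g i τ)).map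
          (fun t => Polynomial.X - C t)).prod := by
      rw [h1, Multiset.card_map, Finset.card_val, Finset.card_univ, ← hn, Finset.sum_range_succ',
        hL, Polynomial.map_add, Polynomial.map_sum, add_comm]
      congr 1
      · refine Finset.sum_congr rfl fun j _ => ?_
        rw [← MvPolynomial.aeval_esymm_eq_multiset_esymm σ ℂ, hQ]
        simp [mul_assoc]
      · rw [← MvPolynomial.aeval_esymm_eq_multiset_esymm σ ℂ]
        simp
    rw [h2, Multiset.map_map, eval_multiset_prod, Multiset.prod_eq_zero]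
    rw [Multiset.mem_map]
    refine ⟨Polynomial.X - C (g i τ), ?_, by simp⟩
    rw [Multiset.mem_map]
    exact ⟨i, Finset.mem_val.mpr (Finset.mem_univ i), rfl⟩

end Fermat.Agent.Igusa
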