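import Mathlib
import Fermat.Prelude.Def_ModularForm_HeckeOperator
import Fermat.Prelude.Thm_ModularForm_heckeT_slash_eq_self_of_mem_Gamma0
import Fermat.Prelude.Thm_ModularForm_isBoundedAtImInfty_heckeT
import Fermat.Prelude.Thm_ModularForm_mdifferentiable_heckeT
import Fermat.Agent.Igusa.DeltaQ
import Fermat.Agent.Igusa.PSum

/-!
# The conjugates of the modular unit `Δ(pτ)/Δ(τ)`
-/

set_option autoImplicit false

noncomputable section

open UpperHalfPlane hiding I
open Complex HahnSeries ModularCurve ModularForm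
open scoped Real MatrixGroups Topology Polynomial

namespace Fermat.Agent.Igusa

local notation "𝕢" => Function.Periodic.qParam

open Fermat.Agent.S28aux Fermat.Agent.JLevelOne

/-- The `p+1` conjugates of `p^12 Δ(pτ)/Δ(τ)`. -/
def unitFun (p : ℕ) : Option (Fin p) → ℍ → ℂ
  | none => fun τ => (p : ℂ) ^ 12 * discriminant (heckeDiagMatrix p • τ) / discriminant τ
  | some b => fun τ => discriminant (heckeMatrix p b • τ) / discriminant τ

theorem sum_unitFun_pow (p : ℕ) [hp : Fact p.Prime] (k : ℕ) (τ : ℍ) :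
    ∑ i, unitFun p i τ ^ k = (p : ℂ) * heckeT (12 * k) p (fun τ => discriminant τ ^ k) τ /
      discriminant τ ^ k := by
  have hp0 : (p : ℂ) ≠ 0 := by exact_mod_cast hp.out.ne_zero
  rw [Fintype.sum_option, heckeT_apply _ hp.out.ne_zero]
  simp only [unitFun]
  rw [Fin.sum_univ_eq_sum_range
    (fun b => (discriminant (heckeMatrix p b • τ) / discriminant τ) ^ k) p]
  simp only [div_pow, mul_pow]
  rw [← Finset.sum_div, ← add_div]
  congr 1
  rw [mul_add, ← mul_assoc, mul_inv_cancel₀ hp0, one_mul, add_comm, ← mul_assoc]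
  congr 2
  rw [← zpow_one_add₀ hp0, ← pow_mul]
  rw [show (1 : ℤ) + (12 * (k : ℤ) - 1) = ((12 * k : ℕ) : ℤ) by push_cast; ring, zpow_natCast]

theorem slash_discriminant_pow (k : ℕ) (γ : SL(2, ℤ)) :
    (fun τ : ℍ => discriminant τ ^ k) ∣[(12 * k : ℤ)] γ = fun τ => discriminant τ ^ k := by
  have := slash_zero_of_inv (f := fun _ => 1) (fun _ _ => rfl) k γ
  simpa using this

theorem slash_heckeT_discriminant_pow (p : ℕ) [hp : Fact p.Prime] (k : ℕ) (γ : SL(2, ℤ)) :
    (heckeT (12 * k) p (fun τ : ℍ => discriminant τ ^ k)) ∣[(12 * k : ℤ)] γ =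
      heckeT (12 * k) p (fun τ : ℍ => discriminant τ ^ k) := by
  have h := heckeT_slash_eq_self_of_mem_Gamma0 (N := 1) (12 * k) hp.out
    (by simpa using hp.out.one_lt.ne') (f := fun τ : ℍ => discriminant τ ^ k) ?_
    (γ : GL (Fin 2) ℝ) ?_
  · exact h
  · rintro _ ⟨γ', -, rfl⟩
    exact slash_discriminant_pow k γ'
  · refine ⟨γ, ?_, rfl⟩
    simp only [CongruenceSubgroup.Gamma0_mem, SetLike.mem_coe]
    exact Subsingleton.elim _ _

theorem isBounded_discriminant_pow (k : ℕ) :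
    IsBoundedAtImInfty (fun τ : ℍ => discriminant τ ^ k) := by
  have h : IsBoundedAtImInfty (discriminant : ℍ → ℂ) :=
    (ModularFormClass.bdd_at_infty CuspForm.discriminant)
  induction k with
  | zero =>
    simp only [pow_zero]
    exact Filter.const_boundedAtFilter _ _
  | succ k ih =>
    simp only [pow_succ]
    exact ih.mul h

theorem psum_unitFun (p : ℕ) [hp : Fact p.Prime] (k : ℕ) :
    ∃ Q : ℂ[X], ∀ τ, ∑ i, unitFun p i τ ^ k = Q.eval (jFun τ) := by
  set F : ℍ → ℂ := heckeT (12 * k) p (fun τ : ℍ => discriminant τ ^ k) with hF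
  have hsum : ∀ τ, ∑ i, unitFun p i τ ^ k = (p : ℂ) * F τ / discriminant τ ^ k := fun τ =>
    sum_unitFun_pow p k τ
  have hmd : MDifferentiable (modelWithCornersSelf ℂ ℂ) (modelWithCornersSelf ℂ ℂ)
      (fun τ : ℍ => discriminant τ ^ k) := mdiff_discriminant.pow k
  have hFmd : MDifferentiable (modelWithCornersSelf ℂ ℂ) (modelWithCornersSelf ℂ ℂ) F :=
    mdifferentiable_heckeT hmd (12 * k) p
  have hbdd : IsBoundedAtImInfty (fun τ : ℍ => discriminant τ ^ k) := isBounded_discriminant_pow k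
  have hFb : IsBoundedAtImInfty F := isBoundedAtImInfty_heckeT hbdd (12 * k) p
  have g1 : MDifferentiable (modelWithCornersSelf ℂ ℂ) (modelWithCornersSelf ℂ ℂ)
      (fun τ => (p : ℂ) * F τ / discriminant τ ^ k) :=
    (mdifferentiable_const.mul hFmd).div (mdiff_discriminant.pow k)
      (fun τ => pow_ne_zero _ (discriminant_ne_zero τ))
  have g2 : ∀ (γ : SL(2, ℤ)) (τ : ℍ), (p : ℂ) * F (γ • τ) / discriminant (γ • τ) ^ k =
      (p : ℂ) * F τ / discriminant τ ^ k := by
    intro γ τ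
    have h1 := congrFun (slash_heckeT_discriminant_pow p k γ) τ
    rw [ModularForm.SL_slash_apply] at h1
    have hd : denom γ τ ≠ 0 := denom_ne_zero _ _
    rw [discriminant_smul, mul_pow, ← zpow_natCast (denom γ τ ^ (12 : ℤ)), ← zpow_mul]
    have h2 : F (γ • τ) = denom γ τ ^ ((12 : ℤ) * (k : ℤ)) * F τ := by
      have h1' : F (γ • τ) * denom γ τ ^ (-((12 : ℤ) * (k : ℤ))) = F τ := h1
      rw [← h1', mul_left_comm, ← zpow_add₀ hd, add_neg_cancel, zpow_zero, mul_one]
    rw [h2]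
    have h3 : denom γ τ ^ ((12 : ℤ) * (k : ℤ)) ≠ 0 := zpow_ne_zero _ hd
    have h4 := discriminant_ne_zero τ
    field_simp
  have g3 : IsBoundedAtImInfty (fun τ => (p : ℂ) * F τ / discriminant τ ^ k *
      discriminant τ ^ k) := by
    have : (fun τ => (p : ℂ) * F τ / discriminant τ ^ k * discriminant τ ^ k) =
        fun τ => (p : ℂ) * F τ := by
      funext τ
      rw [div_mul_cancel₀ _ (pow_ne_zero _ (discriminant_ne_zero τ))]
    rw [this]
    exact (Filter.const_boundedAtFilter _ _).mul hFb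
  obtain ⟨Q, -, hQ⟩ := exists_polynomial_of_invariant k
    (fun τ => (p : ℂ) * F τ / discriminant τ ^ k) g1 g2 g3
  exact ⟨Q, fun τ => by rw [hsum, hQ]⟩

theorem exists_unitPoly (p : ℕ) [hp : Fact p.Prime] :
    ∃ Ψ : Polynomial ℂ[X], Ψ.Monic ∧ Ψ.natDegree = p + 1 ∧
      ∀ i τ, (Ψ.map (Polynomial.evalRingHom (jFun τ))).eval (unitFun p i τ) = 0 := by
  obtain ⟨Ψ, h1, h2, h3⟩ := exists_monic_of_psum jFun (unitFun p) fun k _ => psum_unitFun p k
  refine ⟨Ψ, h1, ?_, h3⟩
  rw [h2]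
  simp

end Fermat.Agent.Igusa
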