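import Mathlib
import Fermat.Agent.Igusa.UnitFun

/-!
# The modular unit polynomial (A1)
-/

set_option autoImplicit false

noncomputable section

open UpperHalfPlane hiding I
open Complex HahnSeries ModularCurve ModularForm
open scoped Real MatrixGroups Topology Polynomial

namespace Fermat.Agent.Igusa

local notation "𝕢" => Function.Periodic.qParam

open Fermat.Agent.S28aux Fermat.Agent.JLevelOne

theorem HasLExp.eval {F : ℍ → ℂ} {f : LaurentSeries ℂ} (hF : HasLExp F f) (P : ℂ[X]) :
    HasLExp (fun τ => P.eval (F τ)) (P.eval₂ (HahnSeries.C : ℂ →+* LaurentSeries ℂ) f) := by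
  induction P using Polynomial.induction_on' with
  | add p q hp hq =>
    simp only [Polynomial.eval_add, Polynomial.eval₂_add]
    exact hp.add hq
  | monomial n a =>
    simp only [Polynomial.eval_monomial, Polynomial.eval₂_monomial]
    exact (HasLExp.const a).mul (hF.pow n)

theorem HasLExp.eval₂ {F G : ℍ → ℂ} {f g : LaurentSeries ℂ} (hF : HasLExp F f) (hG : HasLExp G g)
    (Ψ : Polynomial ℂ[X]) :
    HasLExp (fun τ => (Ψ.map (Polynomial.evalRingHom (F τ))).eval (G τ))
      (Ψ.eval₂ (Polynomial.eval₂RingHom (HahnSeries.C : ℂ →+* LaurentSeries ℂ) f) g) := by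
  induction Ψ using Polynomial.induction_on' with
  | add p q hp hq =>
    simp only [Polynomial.map_add, Polynomial.eval_add, Polynomial.eval₂_add]
    exact hp.add hq
  | monomial n a =>
    simp only [Polynomial.map_monomial, Polynomial.eval_monomial, Polynomial.eval₂_monomial,
      Polynomial.coe_evalRingHom, Polynomial.coe_eval₂RingHom]
    exact (hF.eval a).mul (hG.pow n)

section Charpoly

variable {R : Type*} [CommRing R] (p : ℕ) [NeZero p]

theorem sum_single_mul_qExpand_Up (y : LaurentSeries R) :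
    ∑ i : Fin p, HahnSeries.single ((i : ℕ) : ℤ) (1 : R) *
      qExpand R p (Up p (HahnSeries.single (-((i : ℕ) : ℤ)) (1 : R) * y)) = y := by
  have hp : (0 : ℤ) < p := by exact_mod_cast Nat.pos_of_ne_zero (NeZero.ne p)
  ext n
  rw [HahnSeries.coeff_sum]
  have h1 : ∀ i : Fin p, (HahnSeries.single ((i : ℕ) : ℤ) (1 : R) *
      qExpand R p (Up p (HahnSeries.single (-((i : ℕ) : ℤ)) (1 : R) * y))).coeff n =
      if (p : ℤ) ∣ n - (i : ℕ) then y.coeff n else 0 := by
    intro i
    rw [HahnSeries.coeff_single_mul, one_mul]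
    split_ifs with h
    · obtain ⟨c, hc⟩ := h
      rw [hc, qExpand_coeff_mul, Up_coeff, HahnSeries.coeff_single_mul, one_mul, ← hc]
      congr 1
      ring
    · exact qExpand_coeff_of_not_dvd p _ h
  simp only [h1]
  have hlt : (n % p).toNat < p := by
    have := Int.emod_lt_of_pos n hp
    have := Int.emod_nonneg n hp.ne'
    omega
  rw [Finset.sum_eq_single_of_mem (⟨(n % p).toNat, hlt⟩ : Fin p) (Finset.mem_univ _)]
  · rw [if_pos]
    have := Int.emod_nonneg n hp.ne'
    simp only [Int.toNat_of_nonneg this]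
    exact Int.dvd_self_sub_emod
  · intro i _ hi
    rw [if_neg]
    intro hdvd
    apply hi
    ext
    simp only
    have h2 : n % p = (i : ℕ) := by
      have h3 : (n - (i : ℕ)) % p = 0 := Int.emod_eq_zero_of_dvd hdvd
      have h4 : ((i : ℕ) : ℤ) < p := by exact_mod_cast i.2
      have h5 := Int.emod_emod_of_dvd n (dvd_refl (p : ℤ))
      have h6 : n % p = ((i : ℕ) : ℤ) % p := Int.emod_eq_emod_iff_emod_sub_eq_zero.mpr h3
      rw [h6, Int.emod_eq_of_lt (by positivity) h4]
    rw [h2]
    simp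

/-- The matrix of multiplication by `x` on `R((q))` over `R((q^p))`. -/
def decMat (x : LaurentSeries R) : Matrix (Fin p) (Fin p) (LaurentSeries R) := fun i j =>
  Up p (HahnSeries.single (-((i : ℕ) : ℤ)) (1 : R) * (HahnSeries.single ((j : ℕ) : ℤ) (1 : R) * x))

theorem eval_charpoly_decMat [IsDomain R] (x : LaurentSeries R) :
    ((decMat p x).charpoly.map (qExpand R p)).eval x = 0 := by
  rw [← Matrix.charpoly_map, Matrix.eval_charpoly, ← Matrix.exists_vecMul_eq_zero_iff]
  refine ⟨fun i => HahnSeries.single ((i : ℕ) : ℤ) (1 : R), ?_, ?_⟩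
  · intro h
    have hp : 0 < p := Nat.pos_of_ne_zero (NeZero.ne p)
    have := congrFun h ⟨0, hp⟩
    simp at this
  · rw [Matrix.vecMul_sub, sub_eq_zero]
    funext j
    rw [Matrix.vecMul, Matrix.vecMul]
    simp only [dotProduct, Matrix.map_apply, decMat, sum_single_mul_qExpand_Up]
    rw [Finset.sum_eq_single_of_mem j (Finset.mem_univ _)]
    · simp
    · intro i _ hi
      simp [hi]

end Charpoly

theorem coeff_eval₂_jq {R : Type*} [CommRing R] (Q : R[X]) {n : ℕ} (hn : Q.natDegree ≤ n) :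
    (Q.eval₂ (HahnSeries.C : R →+* LaurentSeries R) (jqModC R)).coeff (-(n : ℤ)) = Q.coeff n := by
  rw [Polynomial.eval₂_eq_sum_range' _ (Nat.lt_succ_of_le hn), HahnSeries.coeff_sum,
    Finset.sum_eq_single_of_mem n (Finset.self_mem_range_succ n)]
  · rw [HahnSeries.C_mul_eq_smul, HahnSeries.coeff_smul, coeff_jqModC_pow_self]
    simp
  · intro i hi hin
    rw [HahnSeries.C_mul_eq_smul, HahnSeries.coeff_smul, coeff_jqModC_pow_of_lt R]
    · simp
    · have := Finset.mem_range.mp hi
      omega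

theorem exists_int_of_eval₂_jq (n : ℕ) : ∀ (Q : ℂ[X]), Q.natDegree ≤ n →
    (∃ z : LaurentSeries ℤ, coeffMap (Int.castRingHom ℂ) z =
      Q.eval₂ (HahnSeries.C : ℂ →+* LaurentSeries ℂ) (jqModC ℂ)) →
    ∃ Q' : ℤ[X], Q'.map (Int.castRingHom ℂ) = Q := by
  induction n with
  | zero =>
    rintro Q hn ⟨z, hz⟩
    have h1 : ((z.coeff (-((0 : ℕ) : ℤ)) : ℤ) : ℂ) = Q.coeff 0 := by
      rw [← coeff_eval₂_jq Q hn, ← hz]
      rfl
    refine ⟨Polynomial.C (z.coeff (-((0 : ℕ) : ℤ))), ?_⟩
    rw [Polynomial.map_C, Polynomial.eq_C_of_natDegree_le_zero hn, ← h1]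
    rfl
  | succ n ih =>
    rintro Q hn ⟨z, hz⟩
    have h1 : ((z.coeff (-((n + 1 : ℕ) : ℤ)) : ℤ) : ℂ) = Q.coeff (n + 1) := by
      rw [← coeff_eval₂_jq Q hn, ← hz]
      rfl
    set a : ℤ := z.coeff (-((n + 1 : ℕ) : ℤ)) with ha
    have hlt : (Q - Polynomial.C (a : ℂ) * Polynomial.X ^ (n + 1)).natDegree ≤ n := by
      rw [Polynomial.natDegree_le_iff_coeff_eq_zero]
      intro m hm
      rw [Polynomial.coeff_sub, Polynomial.coeff_C_mul_X_pow]
      split_ifs with h
      · rw [h, h1, sub_self]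
      · rw [sub_zero]
        exact Polynomial.coeff_eq_zero_of_natDegree_lt (by omega)
    have h2 : ∃ z' : LaurentSeries ℤ, coeffMap (Int.castRingHom ℂ) z' =
        (Q - Polynomial.C (a : ℂ) * Polynomial.X ^ (n + 1)).eval₂
          (HahnSeries.C : ℂ →+* LaurentSeries ℂ) (jqModC ℂ) := by
      refine ⟨z - Polynomial.eval₂ (HahnSeries.C : ℤ →+* LaurentSeries ℤ)
        (jqModC ℤ) (Polynomial.C a * Polynomial.X ^ (n + 1)), ?_⟩
      rw [map_sub, hz]
      simp only [Polynomial.eval₂_sub, Polynomial.eval₂_mul, Polynomial.eval₂_C,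
        Polynomial.eval₂_X_pow, map_mul, map_pow, coeffMap_jqModC]
      congr 2
      rw [HahnSeries.C_apply, HahnSeries.C_apply, coeffMap_single]
      rfl
    obtain ⟨Q1, hQ1⟩ := ih _ hlt h2
    refine ⟨Q1 + Polynomial.C a * Polynomial.X ^ (n + 1), ?_⟩
    rw [Polynomial.map_add, hQ1]
    simp

theorem order_unit (p : ℕ) [NeZero p] (K : Type*) [Field K] :
    (deltaC K * qExpand K p (deltaInvC K)).order = 1 - p := by
  rw [HahnSeries.order_mul (deltaC_ne_zero K) (qExpand_ne_zero p (by
    rw [deltaInvC_eq]; exact inv_ne_zero (deltaC_ne_zero K))), order_qExpand, order_deltaC,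
    order_deltaInvC]
  ring

/-- A nonzero polynomial over `K((q^p))` of degree `< p` does not vanish at an element whose
order is prime to `p`. -/
theorem eq_zero_of_eval_eq_zero (p : ℕ) [hp : Fact p.Prime] {K : Type*} [Field K]
    (D : Polynomial (LaurentSeries K)) (hD : D.natDegree < p) {x : LaurentSeries K} (hx : x ≠ 0)
    (hxo : ¬ (p : ℤ) ∣ x.order) (h : (D.map (qExpand K p)).eval x = 0) : D = 0 := by
  classical
  by_contra hne
  have hpp : Prime (p : ℤ) := Nat.prime_iff_prime_int.mp hp.out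
  rw [Polynomial.eval_map, Polynomial.eval₂_eq_sum_range] at h
  set s : Finset ℕ := (Finset.range (D.natDegree + 1)).filter (fun i => D.coeff i ≠ 0) with hs
  have h1 : ∑ i ∈ s, qExpand K p (D.coeff i) * x ^ i = 0 := by
    rw [← h, hs, Finset.sum_filter]
    refine Finset.sum_congr rfl fun i _ => ?_
    split_ifs with h
    · rfl
    · push Not at h
      rw [h, map_zero, zero_mul]
  have hne' : ∀ i ∈ s, qExpand K p (D.coeff i) * x ^ i ≠ 0 := by
    intro i hi
    rw [hs, Finset.mem_filter] at hi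
    exact mul_ne_zero (qExpand_ne_zero p hi.2) (pow_ne_zero _ hx)
  refine sum_ne_zero_of_order s _ ⟨D.natDegree, ?_⟩ hne' ?_ h1
  · rw [hs, Finset.mem_filter]
    exact ⟨Finset.self_mem_range_succ _, by simpa using hne⟩
  · intro i hi j hj hij
    have hi' := hi
    have hj' := hj
    rw [hs, Finset.mem_filter, Finset.mem_range] at hi' hj'
    rw [HahnSeries.order_mul (qExpand_ne_zero p hi'.2) (pow_ne_zero _ hx),
      HahnSeries.order_mul (qExpand_ne_zero p hj'.2) (pow_ne_zero _ hx),
      HahnSeries.order_pow, HahnSeries.order_pow, order_qExpand, order_qExpand] at hij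
    simp only [nsmul_eq_mul] at hij
    have h2 : (p : ℤ) ∣ ((i : ℤ) - j) * x.order :=
      ⟨(D.coeff j).order - (D.coeff i).order, by linarith⟩
    have h3 : (p : ℤ) ∣ (i : ℤ) - j := (hpp.dvd_or_dvd h2).resolve_right hxo
    obtain ⟨c, hc⟩ := h3
    have h4 : c = 0 := by
      have hp0 : (0 : ℤ) < p := by exact_mod_cast hp.out.pos
      by_contra hc0
      rcases lt_or_gt_of_ne hc0 with hc1 | hc1
      · have : (p : ℤ) * c ≤ -p := by nlinarith
        omega
      · have : (p : ℤ) ≤ p * c := by nlinarith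
        omega
    rw [h4, mul_zero] at hc
    omega

theorem coeffMap_injective {R S : Type*} [CommRing R] [CommRing S] {f : R →+* S}
    (hf : Function.Injective f) : Function.Injective (coeffMap f) := by
  intro a b hab
  ext n
  apply hf
  have := congrArg (fun z : LaurentSeries S => z.coeff n) hab
  simpa using this

section Assembly

variable (p : ℕ) [hp : Fact p.Prime]

theorem hasLExp_disc_comp : HasLExp (fun τ => discriminant (heckeDiagMatrix p • τ))
    (qExpand ℂ p (deltaC ℂ)) := by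
  refine hasLExp_discriminant.comp_nat_mul p fun τ τ' h => ?_
  congr 1
  ext
  rw [coe_heckeDiagMatrix_smul hp.out.ne_zero, h]

theorem hasLExp_disc_inv_comp : HasLExp (fun τ => (discriminant (heckeDiagMatrix p • τ))⁻¹)
    (qExpand ℂ p (deltaInvC ℂ)) := by
  refine hasLExp_discriminant_inv.comp_nat_mul p fun τ τ' h => ?_
  congr 2
  ext
  rw [coe_heckeDiagMatrix_smul hp.out.ne_zero, h]

theorem hasLExp_jFun_comp : HasLExp (fun τ => jFun (heckeDiagMatrix p • τ))
    (qExpand ℂ p (jqModC ℂ)) := by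
  refine hasLExp_jFun.comp_nat_mul p fun τ τ' h => ?_
  congr 1
  ext
  rw [coe_heckeDiagMatrix_smul hp.out.ne_zero, h]

theorem hasLExp_unitFun_none : HasLExp (unitFun p none)
    ((p : LaurentSeries ℂ) ^ 12 * (qExpand ℂ p (deltaC ℂ) * deltaInvC ℂ)) := by
  have h := (HasLExp.const ((p : ℂ) ^ 12)).mul
    ((hasLExp_disc_comp p).mul hasLExp_discriminant_inv)
  refine (h.congr fun τ => ?_).congr_right ?_
  · simp only [unitFun]
    rw [div_eq_mul_inv]
    ring
  · rw [map_pow, map_natCast]

theorem hasLExp_unitFun_zero : HasLExp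
    (fun τ => unitFun p (some ⟨0, hp.out.pos⟩) (heckeDiagMatrix p • τ))
    (deltaC ℂ * qExpand ℂ p (deltaInvC ℂ)) := by
  have hp0 : (p : ℂ) ≠ 0 := by exact_mod_cast hp.out.ne_zero
  have h := hasLExp_discriminant.mul (hasLExp_disc_inv_comp p)
  refine h.congr fun τ => ?_
  simp only [unitFun]
  rw [div_eq_mul_inv]
  congr 2
  ext
  rw [coe_heckeMatrix_smul hp.out.ne_zero, coe_heckeDiagMatrix_smul hp.out.ne_zero]
  push_cast
  field_simp
  ring

theorem modUnitPoly [NeZero p] : ModUnitPoly p := by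
  obtain ⟨Ψ, hmon, hdeg, hroot⟩ := exists_unitPoly p
  set φ : ℂ[X] →+* LaurentSeries ℂ :=
    Polynomial.eval₂RingHom (HahnSeries.C : ℂ →+* LaurentSeries ℂ) (jqModC ℂ) with hφ
  set cm : LaurentSeries ℤ →+* LaurentSeries ℂ := coeffMap (Int.castRingHom ℂ) with hcm
  have hcminj : Function.Injective cm := coeffMap_injective Int.cast_injective
  set y0 : LaurentSeries ℂ := (p : LaurentSeries ℂ) ^ 12 * (qExpand ℂ p (deltaC ℂ) * deltaInvC ℂ)
    with hy0
  set yZ : LaurentSeries ℤ := (p : LaurentSeries ℤ) ^ 12 * (qExpand ℤ p (deltaC ℤ) * deltaInvC ℤ)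
    with hyZ
  set x : LaurentSeries ℂ := deltaC ℂ * qExpand ℂ p (deltaInvC ℂ) with hx
  set xZ : LaurentSeries ℤ := deltaC ℤ * qExpand ℤ p (deltaInvC ℤ) with hxZ
  have hcy : cm yZ = y0 := by
    rw [hyZ, hy0, map_mul, map_mul, map_pow, map_natCast, hcm, coeffMap_qExpand, coeffMap_deltaC,
      coeffMap_deltaInvC]
  have hcx : cm xZ = x := by
    rw [hxZ, hx, map_mul, hcm, coeffMap_qExpand, coeffMap_deltaC, coeffMap_deltaInvC]
  have hxo : ¬ (p : ℤ) ∣ x.order := by
    rw [hx, order_unit]
    intro h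
    have h1 : (p : ℤ) ∣ 1 := by
      have := dvd_add h (dvd_refl (p : ℤ))
      simpa using this
    have := hp.out.one_lt
    have h2 := Int.le_of_dvd one_pos h1
    omega
  have hx0 : x ≠ 0 := by
    intro h
    rw [h] at hxo
    simp at hxo
  set Ψ0 : Polynomial (LaurentSeries ℂ) := Ψ.map φ with hΨ0
  -- the root `y0`
  have hr1 : Ψ0.eval y0 = 0 := by
    have h1 := hasLExp_jFun.eval₂ (hasLExp_unitFun_none p) Ψ
    have h2 : HasLExp (fun _ => 0) (Ψ.eval₂ φ y0) := h1.congr fun τ => hroot none τ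
    rw [hΨ0, Polynomial.eval_map]
    exact h2.eq_zero
  -- the root `x`
  have hφ' : (qExpand ℂ p).comp φ = Polynomial.eval₂RingHom (HahnSeries.C : ℂ →+* LaurentSeries ℂ)
      (qExpand ℂ p (jqModC ℂ)) := by
    refine Polynomial.ringHom_ext' ?_ ?_
    · ext c : 1
      simp [hφ]
    · simp [hφ]
  have hr2 : (Ψ0.map (qExpand ℂ p)).eval x = 0 := by
    have h1 := (hasLExp_jFun_comp p).eval₂ (hasLExp_unitFun_zero p) Ψ
    have h2 : HasLExp (fun _ => 0) (Ψ.eval₂ (Polynomial.eval₂RingHom
      (HahnSeries.C : ℂ →+* LaurentSeries ℂ) (qExpand ℂ p (jqModC ℂ))) x) :=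
      h1.congr fun τ => hroot _ _
    rw [hΨ0, Polynomial.map_map, hφ', Polynomial.eval_map]
    exact h2.eq_zero
  -- the characteristic polynomial
  set H0 : Polynomial (LaurentSeries ℤ) := (decMat p xZ).charpoly with hH0
  have hH0m : H0.Monic := Matrix.charpoly_monic _
  have hH0d : H0.natDegree = p := by
    rw [hH0, Matrix.charpoly_natDegree_eq_dim, Fintype.card_fin]
  have hr3 : ((H0.map cm).map (qExpand ℂ p)).eval x = 0 := by
    have h1 := congrArg cm (eval_charpoly_decMat p xZ)
    rw [map_zero, ← hH0] at h1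
    rw [← Polynomial.eval₂_at_apply, ← Polynomial.eval_map, Polynomial.map_map, hcx] at h1
    rw [Polynomial.map_map]
    convert h1 using 3
    ext z : 1
    simp only [RingHom.comp_apply, hcm, coeffMap_qExpand]
  -- comparison
  have key : Ψ0 = (Polynomial.X - Polynomial.C y0) * H0.map cm := by
    have hΨ0m : Ψ0.Monic := hmon.map φ
    have hΨ0d : Ψ0.natDegree = p + 1 := by rw [hΨ0, hmon.natDegree_map, hdeg]
    have hHm : (H0.map cm).Monic := hH0m.map cm
    have hHd : (H0.map cm).natDegree = p := by rw [hH0m.natDegree_map, hH0d]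
    have hPm : ((Polynomial.X - Polynomial.C y0) * H0.map cm).Monic :=
      (Polynomial.monic_X_sub_C y0).mul hHm
    have hPd : ((Polynomial.X - Polynomial.C y0) * H0.map cm).natDegree = p + 1 := by
      rw [(Polynomial.monic_X_sub_C y0).natDegree_mul hHm, Polynomial.natDegree_X_sub_C, hHd]
      ring
    set D := Ψ0 - (Polynomial.X - Polynomial.C y0) * H0.map cm with hD
    have hDdeg : D.degree < (p + 1 : ℕ) := by
      have h1 : Ψ0.degree = ((Polynomial.X - Polynomial.C y0) * H0.map cm).degree := by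
        rw [Polynomial.degree_eq_natDegree hΨ0m.ne_zero, Polynomial.degree_eq_natDegree hPm.ne_zero,
          hΨ0d, hPd]
      have h2 := Polynomial.degree_sub_lt_left h1 hΨ0m.ne_zero (by rw [hΨ0m, hPm])
      rwa [Polynomial.degree_eq_natDegree hΨ0m.ne_zero, hΨ0d] at h2
    have hDy : D.IsRoot y0 := by
      rw [Polynomial.IsRoot, hD, Polynomial.eval_sub, hr1, Polynomial.eval_mul]
      simp
    obtain ⟨D1, hD1⟩ := Polynomial.dvd_iff_isRoot.mpr hDy
    have hD10 : D1 = 0 := by
      by_contra hne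
      have hDne : D ≠ 0 := by
        rw [hD1]
        exact mul_ne_zero (Polynomial.X_sub_C_ne_zero y0) hne
      have h1 : D1.natDegree < p := by
        have h2 : D.natDegree = 1 + D1.natDegree := by
          rw [hD1, Polynomial.natDegree_mul (Polynomial.X_sub_C_ne_zero y0) hne,
            Polynomial.natDegree_X_sub_C]
        have h3 : D.natDegree < p + 1 := (Polynomial.natDegree_lt_iff_degree_lt hDne).mpr hDdeg
        omega
      refine hne (eq_zero_of_eval_eq_zero p D1 h1 hx0 hxo ?_)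
      have h4 : (D.map (qExpand ℂ p)).eval x = 0 := by
        rw [hD, Polynomial.map_sub, Polynomial.map_mul, Polynomial.eval_sub, Polynomial.eval_mul,
          hr2, hr3]
        simp
      rw [hD1, Polynomial.map_mul, Polynomial.eval_mul] at h4
      rcases mul_eq_zero.mp h4 with h5 | h5
      · exfalso
        simp only [Polynomial.map_sub, Polynomial.map_X, Polynomial.map_C, Polynomial.eval_sub,
          Polynomial.eval_X, Polynomial.eval_C] at h5
        rw [sub_eq_zero] at h5
        apply hxo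
        rw [h5, order_qExpand]
        exact dvd_mul_right _ _
      · exact h5
    rw [← sub_eq_zero, ← hD, hD1, hD10, mul_zero]
  -- integrality of the coefficients
  have hlift : Ψ ∈ Polynomial.lifts (Polynomial.mapRingHom (Int.castRingHom ℂ)) := by
    rw [Polynomial.lifts_iff_coeff_lifts]
    intro k
    have h1 : φ (Ψ.coeff k) = cm (((Polynomial.X - Polynomial.C yZ) * H0).coeff k) := by
      have h2 := congrArg (fun P => Polynomial.coeff P k) key
      simp only [hΨ0, Polynomial.coeff_map] at h2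
      rw [h2, ← Polynomial.coeff_map]
      simp [hcy]
    obtain ⟨Q', hQ'⟩ := exists_int_of_eval₂_jq _ (Ψ.coeff k) le_rfl ⟨_, h1.symm⟩
    exact ⟨Q', by simpa using hQ'⟩
  obtain ⟨H, hHΨ, hHdeg, hHmon⟩ := Polynomial.lifts_and_natDegree_eq_and_monic hlift hmon
  refine ⟨H, hHmon, by rw [hHdeg, hdeg], ?_, ?_⟩
  · apply hcminj
    rw [map_zero, Polynomial.hom_eval₂, ← hyZ, hcy]
    have h1 : cm.comp (Polynomial.eval₂RingHom (Int.castRingHom (LaurentSeries ℤ)) (jqModC ℤ)) =
        φ.comp (Polynomial.mapRingHom (Int.castRingHom ℂ)) := by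
      refine Polynomial.ringHom_ext' (RingHom.ext_int _ _) ?_
      simp [hφ, hcm, coeffMap_jqModC]
    rw [h1, ← Polynomial.eval₂_map, hHΨ, ← Polynomial.eval_map]
    exact hr1
  · apply hcminj
    rw [map_zero, Polynomial.hom_eval₂, ← hxZ, hcx]
    have h1 : cm.comp (Polynomial.eval₂RingHom (Int.castRingHom (LaurentSeries ℤ))
        (qExpand ℤ p (jqModC ℤ))) =
        ((qExpand ℂ p).comp φ).comp (Polynomial.mapRingHom (Int.castRingHom ℂ)) := by
      refine Polynomial.ringHom_ext' (RingHom.ext_int _ _) ?_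
      simp [hφ, hcm, coeffMap_jqModC, coeffMap_qExpand]
    rw [h1, ← Polynomial.eval₂_map, hHΨ, ← Polynomial.eval_map, ← Polynomial.map_map]
    exact hr2

end Assembly

end Fermat.Agent.Igusa
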