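import Mathlib
import Fermat.Agent.Igusa.UnitPoly

/-!
# The Fricke involution (A3)
-/

set_option autoImplicit false

noncomputable section

open UpperHalfPlane hiding I
open Complex HahnSeries ModularCurve ModularForm
open scoped Real MatrixGroups Topology Polynomial

namespace Fermat.Agent.Igusa

local notation "𝕢" => Function.Periodic.qParam

open Fermat.Agent.S28aux Fermat.Agent.JLevelOne

/-- `τ ↦ dτ`. -/
def mulN (d : ℕ) [NeZero d] (τ : ℍ) : ℍ :=
  ⟨(d : ℂ) * τ, by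
    have hd : (0 : ℝ) < d := by exact_mod_cast Nat.pos_of_ne_zero (NeZero.ne d)
    simpa using mul_pos hd τ.im_pos⟩

@[simp] theorem coe_mulN (d : ℕ) [NeZero d] (τ : ℍ) : (mulN d τ : ℂ) = d * τ := rfl

/-- `τ ↦ -1/(Nτ)`. -/
def frickeW (N : ℕ) [NeZero N] (τ : ℍ) : ℍ := ModularGroup.S • mulN N τ

theorem coe_S_smul (τ : ℍ) : ((ModularGroup.S • τ : ℍ) : ℂ) = -1 / τ := by
  rw [UpperHalfPlane.modular_S_smul]
  change (-(τ : ℂ))⁻¹ = _
  rw [inv_neg, neg_div, one_div]

theorem coe_frickeW (N : ℕ) [NeZero N] (τ : ℍ) : (frickeW N τ : ℂ) = -1 / (N * τ) := by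
  rw [frickeW, coe_S_smul, coe_mulN]

theorem frickeW_frickeW (N : ℕ) [NeZero N] (τ : ℍ) : frickeW N (frickeW N τ) = τ := by
  ext
  have hN : (N : ℂ) ≠ 0 := by exact_mod_cast NeZero.ne N
  have := τ.ne_zero
  rw [coe_frickeW, coe_frickeW]
  field_simp

theorem mulN_frickeW {N d d' : ℕ} [NeZero N] [NeZero d] [NeZero d'] (h : d * d' = N) (τ : ℍ) :
    mulN d (frickeW N τ) = ModularGroup.S • mulN d' τ := by
  ext
  have hd : (d : ℂ) ≠ 0 := by exact_mod_cast NeZero.ne d
  have hd' : (d' : ℂ) ≠ 0 := by exact_mod_cast NeZero.ne d'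
  have := τ.ne_zero
  rw [coe_mulN, coe_frickeW, coe_S_smul, coe_mulN, ← h]
  push_cast
  field_simp

theorem HasLExp.comp_mulN {F : ℍ → ℂ} {f : LaurentSeries ℂ} (hF : HasLExp F f) (d : ℕ) [NeZero d] :
    HasLExp (fun τ => F (mulN d τ)) (qExpand ℂ d f) := by
  refine hF.comp_nat_mul d fun τ τ' h => ?_
  congr 1
  ext
  rw [coe_mulN, h]

/-- `x` and `x'` are the expansions of `F/G` and of its transform under the Fricke involution. -/
def Rel (N : ℕ) [NeZero N] (x x' : LaurentSeries ℂ) : Prop :=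
  ∃ (F G : ℍ → ℂ) (f g f' g' : LaurentSeries ℂ), HasLExp F f ∧ HasLExp G g ∧
    HasLExp (fun τ => F (frickeW N τ)) f' ∧ HasLExp (fun τ => G (frickeW N τ)) g' ∧
    g ≠ 0 ∧ g' ≠ 0 ∧ x * g = f ∧ x' * g' = f'

theorem HasLExp.eq_zero_fun {F : ℍ → ℂ} (h : HasLExp F 0) (τ : ℍ) : F τ = 0 := by
  have := h τ
  simp only [HahnSeries.coeff_zero, zero_mul] at this
  exact this.unique hasSum_zero

theorem HasLExp.ne_zero_of_comp {F : ℍ → ℂ} {f f' : LaurentSeries ℂ} {N : ℕ} [NeZero N]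
    (hF : HasLExp F f) (hF' : HasLExp (fun τ => F (frickeW N τ)) f') (h : f ≠ 0) : f' ≠ 0 := by
  rintro rfl
  apply h
  refine HasLExp.eq_zero (hF.congr fun τ => ?_)
  have := hF'.eq_zero_fun (frickeW N τ)
  rwa [frickeW_frickeW] at this

namespace Rel

variable {N : ℕ} [NeZero N] {x x' y y' : LaurentSeries ℂ}

theorem symm (h : Rel N x x') : Rel N x' x := by
  obtain ⟨F, G, f, g, f', g', hF, hG, hF', hG', hg, hg', h1, h2⟩ := h
  refine ⟨fun τ => F (frickeW N τ), fun τ => G (frickeW N τ), f', g', f, g, hF', hG', ?_, ?_,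
    hg', hg, h2, h1⟩
  · simpa only [frickeW_frickeW] using hF
  · simpa only [frickeW_frickeW] using hG

theorem of_fun {F : ℍ → ℂ} (hF : HasLExp F x) (hF' : HasLExp (fun τ => F (frickeW N τ)) x') :
    Rel N x x' :=
  ⟨F, fun _ => 1, x, 1, x', 1, hF, HasLExp.one, hF', HasLExp.one, one_ne_zero, one_ne_zero,
    mul_one _, mul_one _⟩

theorem const (c : ℂ) : Rel N (HahnSeries.C c) (HahnSeries.C c) :=
  of_fun (HasLExp.const c) (HasLExp.const c)

theorem add (hx : Rel N x x') (hy : Rel N y y') : Rel N (x + y) (x' + y') := by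
  obtain ⟨F, G, f, g, f', g', hF, hG, hF', hG', hg, hg', h1, h2⟩ := hx
  obtain ⟨A, B, a, b, a', b', hA, hB, hA', hB', hb, hb', h3, h4⟩ := hy
  refine ⟨_, _, _, _, _, _, (hF.mul hB).add (hA.mul hG), hG.mul hB, (hF'.mul hB').add (hA'.mul hG'),
    hG'.mul hB', mul_ne_zero hg hb, mul_ne_zero hg' hb', ?_, ?_⟩
  · rw [← h1, ← h3]; ring
  · rw [← h2, ← h4]; ring

theorem mul (hx : Rel N x x') (hy : Rel N y y') : Rel N (x * y) (x' * y') := by
  obtain ⟨F, G, f, g, f', g', hF, hG, hF', hG', hg, hg', h1, h2⟩ := hx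
  obtain ⟨A, B, a, b, a', b', hA, hB, hA', hB', hb, hb', h3, h4⟩ := hy
  refine ⟨_, _, _, _, _, _, hF.mul hA, hG.mul hB, hF'.mul hA', hG'.mul hB',
    mul_ne_zero hg hb, mul_ne_zero hg' hb', ?_, ?_⟩
  · rw [← h1, ← h3]; ring
  · rw [← h2, ← h4]; ring

theorem eq_zero (hx : Rel N 0 x') : x' = 0 := by
  obtain ⟨F, G, f, g, f', g', hF, hG, hF', hG', hg, hg', h1, h2⟩ := hx
  rw [zero_mul] at h1
  subst h1
  have h3 : HasLExp (fun _ => 0) f' := hF'.congr fun τ => hF.eq_zero_fun _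
  rw [h3.eq_zero] at h2
  exact (mul_eq_zero.mp h2).resolve_right hg'

theorem inv (hx : Rel N x x') : Rel N x⁻¹ x'⁻¹ := by
  by_cases h0 : x = 0
  · subst h0
    rw [hx.eq_zero, inv_zero]
    simpa using const (N := N) 0
  · obtain ⟨F, G, f, g, f', g', hF, hG, hF', hG', hg, hg', h1, h2⟩ := hx
    have hf : f ≠ 0 := h1 ▸ mul_ne_zero h0 hg
    have hf' : f' ≠ 0 := hF.ne_zero_of_comp hF' hf
    have h0' : x' ≠ 0 := by
      rintro rfl
      rw [zero_mul] at h2
      exact hf' h2.symm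
    refine ⟨_, _, _, _, _, _, hG, hF, hG', hF', hf, hf', ?_, ?_⟩
    · rw [← h1, ← mul_assoc, inv_mul_cancel₀ h0, one_mul]
    · rw [← h2, ← mul_assoc, inv_mul_cancel₀ h0', one_mul]

theorem unique {x'' : LaurentSeries ℂ} (h : Rel N x x') (h' : Rel N x x'') : x' = x'' := by
  have h1 : Rel N (x + HahnSeries.C (-1) * x) (x' + HahnSeries.C (-1) * x'') :=
    h.add ((const (-1)).mul h')
  have h2 : x + HahnSeries.C (-1) * x = 0 := by
    rw [map_neg, map_one]; ring
  rw [h2] at h1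
  have h3 := h1.eq_zero
  rw [map_neg, map_one] at h3
  linear_combination h3

end Rel

theorem discriminant_S_smul (τ : ℍ) :
    discriminant (ModularGroup.S • τ) = (τ : ℂ) ^ 12 * discriminant τ := by
  rw [discriminant_smul, ModularGroup.denom_S]
  norm_cast

theorem rel_jq {N d d' : ℕ} [NeZero N] [NeZero d] [NeZero d'] (h : d * d' = N) :
    Rel N (qExpand ℂ d (jqModC ℂ)) (qExpand ℂ d' (jqModC ℂ)) := by
  refine Rel.of_fun (hasLExp_jFun.comp_mulN d) ?_
  refine (hasLExp_jFun.comp_mulN d').congr fun τ => ?_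
  rw [mulN_frickeW h, jFun_smul]

theorem rel_delta {N d d' : ℕ} [NeZero N] [NeZero d] [NeZero d'] (h : d * d' = N) :
    Rel N (qExpand ℂ d (deltaC ℂ) * qExpand ℂ N (deltaInvC ℂ))
      (HahnSeries.C ((d' : ℂ) ^ 12) * (qExpand ℂ d' (deltaC ℂ) * deltaInvC ℂ)) := by
  have h1 : HasLExp (fun τ => (discriminant (mulN N τ))⁻¹) (qExpand ℂ N (deltaInvC ℂ)) :=
    hasLExp_discriminant_inv.comp_mulN N
  refine Rel.of_fun ((hasLExp_discriminant.comp_mulN d).mul h1) ?_
  refine ((HasLExp.const ((d' : ℂ) ^ 12)).mul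
    ((hasLExp_discriminant.comp_mulN d').mul hasLExp_discriminant_inv)).congr fun τ => ?_
  rw [mulN_frickeW h, mulN_frickeW (d := N) (d' := 1) (mul_one N), discriminant_S_smul,
    discriminant_S_smul]
  have h2 : mulN 1 τ = τ := by ext; simp
  rw [h2, coe_mulN]
  have h3 := discriminant_ne_zero τ
  have h4 := τ.ne_zero
  field_simp

/-- The Fricke involution of `E_N`, with its analytic characterisation. -/
theorem exists_fricke (N : ℕ) [NeZero N] : ∃ w : EField N ≃ₐ[ℚ] EField N, (∀ x, w (w x) = x) ∧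
    ∀ x : EField N, Rel N (coeffMap (algebraMap ℚ ℂ) (x : LaurentSeries ℚ))
      (coeffMap (algebraMap ℚ ℂ) (w x : LaurentSeries ℚ)) := by
  set ι : LaurentSeries ℚ →+* LaurentSeries ℂ := coeffMap (algebraMap ℚ ℂ) with hι
  have hιinj : Function.Injective ι := coeffMap_injective (algebraMap ℚ ℂ).injective
  have hιj : ∀ (d : ℕ) [NeZero d], ι (qExpand ℚ d (jqModC ℚ)) = qExpand ℂ d (jqModC ℂ) :=
    fun d _ => by rw [hι, coeffMap_qExpand, coeffMap_jqModC]
  have hιδ : ∀ (d : ℕ) [NeZero d], ι (qExpand ℚ d (deltaC ℚ)) = qExpand ℂ d (deltaC ℂ) :=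
    fun d _ => by rw [hι, coeffMap_qExpand, coeffMap_deltaC]
  have hιδ' : ∀ (d : ℕ) [NeZero d], ι (qExpand ℚ d (deltaInvC ℚ)) = qExpand ℂ d (deltaInvC ℂ) :=
    fun d _ => by rw [hι, coeffMap_qExpand, coeffMap_deltaInvC]
  have hιc : ∀ c : ℚ, ι (algebraMap ℚ (LaurentSeries ℚ) c) = HahnSeries.C (c : ℂ) := by
    intro c
    rw [hι, algebraMap_apply_eq_single, coeffMap_single, HahnSeries.C_apply]
    rfl
  -- every element of `EField N` has a partner
  have hex : ∀ x ∈ EField N, ∃ x' ∈ EField N, Rel N (ι x) (ι x') := by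
    intro x hx
    rw [EField] at hx
    induction hx using IntermediateField.adjoin_induction with
    | mem x hx =>
      obtain ⟨d, hne, hd, hx⟩ := hx
      obtain ⟨d', hd'⟩ := hd
      have : NeZero d' := ⟨fun h => NeZero.ne N (by rw [hd', h, mul_zero])⟩
      have hd'N : d' ∣ N := ⟨d, by rw [hd', mul_comm]⟩
      rcases hx with rfl | rfl
      · refine ⟨qExpand ℚ d' (jqModC ℚ), qExpand_jq_mem_EField N d' hd'N, ?_⟩
        rw [hιj, hιj]
        exact rel_jq hd'.symm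
      · refine ⟨algebraMap ℚ (LaurentSeries ℚ) ((d' : ℚ) ^ 12) *
          (qExpand ℚ d' (deltaC ℚ) * deltaInvC ℚ), ?_, ?_⟩
        · refine mul_mem (IntermediateField.algebraMap_mem _ _) ?_
          have h1 := deltaRatio_mem_EField N d' hd'N
          have h2 := deltaRatio_mem_EField N 1 (one_dvd N)
          rw [qExpand_one_apply] at h2
          have h3 : qExpand ℚ d' (deltaC ℚ) * deltaInvC ℚ =
              (qExpand ℚ d' (deltaC ℚ) * qExpand ℚ N (deltaInvC ℚ)) *
              (deltaC ℚ * qExpand ℚ N (deltaInvC ℚ))⁻¹ := by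
            have h4 : qExpand ℚ N (deltaInvC ℚ) ≠ 0 := qExpand_ne_zero N (by
              rw [deltaInvC_eq]; exact inv_ne_zero (deltaC_ne_zero ℚ))
            have h5 := deltaC_ne_zero ℚ
            generalize qExpand ℚ N (deltaInvC ℚ) = B at h4 ⊢
            rw [deltaInvC_eq]
            field_simp
          rw [h3]
          exact mul_mem h1 (inv_mem h2)
        · rw [map_mul ι, map_mul ι, map_mul ι, hιc, hιδ, hιδ', hιδ]
          have h6 : ι (deltaInvC ℚ) = deltaInvC ℂ := coeffMap_deltaInvC _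
          rw [h6]
          have := rel_delta (N := N) (d := d) (d' := d') hd'.symm
          push_cast at this ⊢
          exact this
    | algebraMap c =>
      refine ⟨_, IntermediateField.algebraMap_mem _ c, ?_⟩
      rw [hιc]
      exact Rel.const _
    | add x y hx hy ihx ihy =>
      obtain ⟨x', hx', h1⟩ := ihx
      obtain ⟨y', hy', h2⟩ := ihy
      exact ⟨x' + y', add_mem hx' hy', by rw [map_add, map_add]; exact h1.add h2⟩
    | inv x hx ihx =>
      obtain ⟨x', hx', h1⟩ := ihx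
      exact ⟨x'⁻¹, inv_mem hx', by rw [map_inv₀, map_inv₀]; exact h1.inv⟩
    | mul x y hx hy ihx ihy =>
      obtain ⟨x', hx', h1⟩ := ihx
      obtain ⟨y', hy', h2⟩ := ihy
      exact ⟨x' * y', mul_mem hx' hy', by rw [map_mul, map_mul]; exact h1.mul h2⟩
  have hex' : ∀ x : EField N, ∃ x' : EField N, Rel N (ι x) (ι x') := fun x => by
    obtain ⟨x', hx', h⟩ := hex x x.2
    exact ⟨⟨x', hx'⟩, h⟩
  choose w hw using hex'
  have huniq : ∀ (x : EField N) (y : EField N), Rel N (ι x) (ι y) → w x = y := by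
    intro x y h
    apply Subtype.ext
    exact hιinj ((hw x).unique h)
  have hww : ∀ x, w (w x) = x := fun x => huniq _ _ (hw x).symm
  refine ⟨{ toFun := w
            invFun := w
            left_inv := hww
            right_inv := hww
            map_mul' := fun x y => huniq _ _ ?_
            map_add' := fun x y => huniq _ _ ?_
            commutes' := fun c => huniq _ _ ?_ }, hww, hw⟩
  · have := (hw x).mul (hw y)
    simpa using this
  · have := (hw x).add (hw y)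
    simpa using this
  · have h1 : ((algebraMap ℚ (EField N) c : EField N) : LaurentSeries ℚ) =
        algebraMap ℚ (LaurentSeries ℚ) c :=
      RingHom.congr_fun (Subsingleton.elim (((EField N).val : EField N →+* LaurentSeries ℚ).comp
        (algebraMap ℚ (EField N))) (algebraMap ℚ (LaurentSeries ℚ))) c
    rw [h1, hιc]
    exact Rel.const _

/-- characterisation of the value of the Fricke involution. -/
theorem fricke_eq {N : ℕ} [NeZero N] (w : EField N ≃ₐ[ℚ] EField N)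
    (hw : ∀ x : EField N, Rel N (coeffMap (algebraMap ℚ ℂ) (x : LaurentSeries ℚ))
      (coeffMap (algebraMap ℚ ℂ) (w x : LaurentSeries ℚ))) (x : EField N) (y : LaurentSeries ℚ)
    (h : Rel N (coeffMap (algebraMap ℚ ℂ) (x : LaurentSeries ℚ)) (coeffMap (algebraMap ℚ ℂ) y)) :
    (w x : LaurentSeries ℚ) = y :=
  coeffMap_injective (algebraMap ℚ ℂ).injective ((hw x).unique h)

/-- `w(j(q^d)) = j(q^{N/d})`. -/
theorem fricke_jq {N : ℕ} [NeZero N] (w : EField N ≃ₐ[ℚ] EField N)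
    (hw : ∀ x : EField N, Rel N (coeffMap (algebraMap ℚ ℂ) (x : LaurentSeries ℚ))
      (coeffMap (algebraMap ℚ ℂ) (w x : LaurentSeries ℚ))) (d d' : ℕ) [NeZero d] [NeZero d']
    (h : d * d' = N) (hmem : qExpand ℚ d (jqModC ℚ) ∈ EField N) :
    (w ⟨_, hmem⟩ : LaurentSeries ℚ) = qExpand ℚ d' (jqModC ℚ) := by
  apply fricke_eq w hw
  rw [coeffMap_qExpand, coeffMap_jqModC, coeffMap_qExpand, coeffMap_jqModC]
  exact rel_jq h

/-- `w(Δ(q^d)/Δ(q^N)) = (N/d)^{12} Δ(q^{N/d})/Δ(q)`. -/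
theorem fricke_delta {N : ℕ} [NeZero N] (w : EField N ≃ₐ[ℚ] EField N)
    (hw : ∀ x : EField N, Rel N (coeffMap (algebraMap ℚ ℂ) (x : LaurentSeries ℚ))
      (coeffMap (algebraMap ℚ ℂ) (w x : LaurentSeries ℚ))) (d d' : ℕ) [NeZero d] [NeZero d']
    (h : d * d' = N)
    (hmem : qExpand ℚ d (deltaC ℚ) * qExpand ℚ N (deltaInvC ℚ) ∈ EField N) :
    (w ⟨_, hmem⟩ : LaurentSeries ℚ) =
      HahnSeries.C ((d' : ℚ) ^ 12) * (qExpand ℚ d' (deltaC ℚ) * deltaInvC ℚ) := by
  apply fricke_eq w hw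
  rw [map_mul, map_mul, map_mul, coeffMap_qExpand, coeffMap_deltaC, coeffMap_qExpand,
    coeffMap_deltaInvC, coeffMap_qExpand, coeffMap_deltaC]
  have h1 : coeffMap (algebraMap ℚ ℂ) (HahnSeries.C ((d' : ℚ) ^ 12)) =
      HahnSeries.C ((d' : ℂ) ^ 12) := by
    rw [HahnSeries.C_apply, coeffMap_single, HahnSeries.C_apply]
    simp
  rw [h1]
  exact rel_delta h

theorem existsAtkinLehner (N : ℕ) [NeZero N] : ExistsAtkinLehner N := by
  obtain ⟨w, hww, hw⟩ := exists_fricke N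
  refine ⟨w, hww, ?_⟩
  apply fricke_eq w hw
  have h2 := rel_jq (N := N) (d := 1) (d' := N) (one_mul N)
  rw [qExpand_one_apply] at h2
  rw [coeffMap_jqModC, coeffMap_qExpand, coeffMap_jqModC]
  exact h2

end Fermat.Agent.Igusa
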