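import Mathlib
import Fermat.Prelude.Def_ModularCurve_X0

/-!
# The product formula for the Dedekind `ψ` function
-/

set_option autoImplicit false

namespace Fermat.Agent.Igusa

open ModularCurve

theorem toFinset_normalizedFactors (N : ℕ) :
    (UniqueFactorizationMonoid.normalizedFactors N).toFinset = N.primeFactors := by
  ext p
  rw [Multiset.mem_toFinset, Nat.mem_primeFactors]
  constructor
  · intro h
    have h0 : N ≠ 0 := by
      rintro rfl
      simp at h
    exact ⟨(UniqueFactorizationMonoid.prime_of_normalized_factor p h).nat_prime,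
      UniqueFactorizationMonoid.dvd_of_mem_normalizedFactors h, h0⟩
  · rintro ⟨h1, h2, h3⟩
    rw [UniqueFactorizationMonoid.mem_normalizedFactors_iff h3]
    exact ⟨h1.prime, h2⟩

theorem dedekindPsi_eq (N : ℕ) (hN : N ≠ 0) :
    dedekindPsi N = (∏ p ∈ N.primeFactors, (p + 1)) * (N / ∏ p ∈ N.primeFactors, p) := by
  classical
  rw [dedekindPsi, Nat.sum_divisors_filter_squarefree hN, toFinset_normalizedFactors]
  have h1 : ∏ p ∈ N.primeFactors, (p + 1) = ∏ p ∈ N.primeFactors, (1 + p) :=
    Finset.prod_congr rfl fun p _ => add_comm _ _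
  rw [h1, Finset.prod_add, Finset.sum_mul]
  refine Finset.sum_congr rfl fun t ht => ?_
  have ht' := Finset.mem_powerset.mp ht
  have ht0 : 0 < ∏ p ∈ t, p := Finset.prod_pos fun p hp => (Nat.prime_of_mem_primeFactors (ht' hp)).pos
  rw [Finset.prod_const_one, one_mul]
  have h2 : (Finset.val t).prod = ∏ p ∈ t, p := by rw [Finset.prod]; simp
  rw [h2]
  apply Nat.div_eq_of_eq_mul_left ht0
  have h3 : (∏ p ∈ N.primeFactors \ t, p) * ∏ p ∈ t, p = ∏ p ∈ N.primeFactors, p :=
    Finset.prod_sdiff ht'
  calc N = (N / ∏ p ∈ N.primeFactors, p) * ∏ p ∈ N.primeFactors, p :=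
        (Nat.div_mul_cancel (Nat.prod_primeFactors_dvd N)).symm
    _ = _ := by rw [← h3]; ring

end Fermat.Agent.Igusa
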