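import Mathlib
import Fermat.Agent.Igusa.Fricke
import Fermat.Agent.IntStruct.EN

/-!
# The degeneracy maps `F(τ) ↦ F(dτ)` from level one to level `Γ₀(N)`
-/

set_option autoImplicit false

noncomputable section

open UpperHalfPlane hiding I
open Complex HahnSeries ModularCurve ModularForm CongruenceSubgroup Matrix.SpecialLinearGroup
open scoped Real MatrixGroups Topology Polynomial

namespace Fermat.Agent.Igusa

local notation "𝕢" => Function.Periodic.qParam

open Fermat.Agent.S28aux Fermat.Agent.JLevelOne Fermat.Agent.IntStruct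

theorem form_slash_mul {k : ℤ} (F : ModularForm 𝒮ℒ k) (γ' : SL(2, ℤ)) (g : GL (Fin 2) ℝ) :
    (⇑F ∣[k] (mapGL ℝ γ' * g)) = ⇑F ∣[k] g := by
  rw [SlashAction.slash_mul]
  congr 1
  exact SlashInvariantFormClass.slash_action_eq F (mapGL ℝ γ') ⟨γ', rfl⟩

theorem isBoundedAtImInfty_slash_upperTriangular {k : ℤ} (F : ModularForm 𝒮ℒ k) (A D : ℕ) (B : ℤ)
    (hAD : (A : ℝ) * D ≠ 0) :
    IsBoundedAtImInfty (⇑F ∣[k] upperTriangularGL A B D hAD) := by
  have hdet : ((upperTriangularGL A B D hAD).det : ℝ) = (A * D : ℕ) := by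
    rw [Matrix.GeneralLinearGroup.val_det_apply, val_upperTriangularGL, Matrix.det_fin_two_of]
    push_cast
    ring
  have hpos : 0 < ((upperTriangularGL A B D hAD).det : ℝ) := by
    rw [hdet]
    push_cast
    exact lt_of_le_of_ne (by positivity) (Ne.symm hAD)
  have hfun : (⇑F ∣[k] upperTriangularGL A B D hAD) = fun τ =>
      F (upperTriangularGL A B D hAD • τ) * (((A * D : ℕ) : ℂ) ^ (k - 1) * (D : ℂ) ^ (-k)) := by
    funext τ
    rw [ModularForm.slash_apply, UpperHalfPlane.σ, if_pos hpos, hdet]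
    have hden : UpperHalfPlane.denom (upperTriangularGL A B D hAD) τ = D := by
      simp [UpperHalfPlane.denom]
    rw [hden]
    simp only [ContinuousAlgEquiv.refl_apply, Nat.abs_cast, Complex.ofReal_natCast, mul_assoc]
  rw [hfun]
  have h10 : (upperTriangularGL A B D hAD) 1 0 = 0 := by simp
  have hb : IsBoundedAtImInfty ⇑F := ModularFormClass.bdd_at_infty F
  have h1 : (fun τ => F (upperTriangularGL A B D hAD • τ)) =O[atImInfty] (1 : ℍ → ℝ) :=
    hb.comp_tendsto (tendsto_smul_atImInfty h10)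
  exact (h1.mul (Asymptotics.isBigO_const_one ℝ _ _)).congr_right fun x => by simp

/-- `F|diag(d,1)` as a modular form on `Γ₀(N)` for `d ∣ N`. -/
def degen (N : ℕ) [NeZero N] {d : ℕ} [NeZero d] (hd : d ∣ N) {k : ℤ} (F : ModularForm 𝒮ℒ k) :
    ModularForm (Gamma0 N) k where
  toFun := ⇑F ∣[k] heckeDiagMatrix d
  slash_action_eq' := by
    rintro _ ⟨γ, hγ, rfl⟩
    have hdvd : (N : ℤ) ∣ γ 1 0 := (ZMod.intCast_zmod_eq_zero_iff_dvd _ _).1 (Gamma0_mem.1 hγ)
    have hdvd' : (d : ℤ) ∣ γ 1 0 := (Int.natCast_dvd_natCast.mpr hd).trans hdvd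
    obtain ⟨e, he⟩ := hdvd'
    obtain ⟨γ'', -, h2⟩ := P2MW.S_ModularForm_heckeT_slash_eq_self_of_mem_Gamma0.ModularForm.HeckeSlashInvariance.heckeDiagMatrix_mul_of_eq' (NeZero.ne d) γ e he
    change (⇑F ∣[k] heckeDiagMatrix d) ∣[k] (mapGL ℝ γ) = _
    rw [← SlashAction.slash_mul, h2, form_slash_mul]
  holo' := F.holo'.slash k _
  bdd_at_cusps' {c} hc := by
    rw [Subgroup.IsArithmetic.isCusp_iff_isCusp_SL2Z] at hc
    rw [OnePoint.isBoundedAt_iff_forall_SL2Z hc]
    intro γ _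
    obtain ⟨A, D, B, γ', hAD, hN, hA, h⟩ := diag_mul_decomp d γ
    rw [SL_slash, ← SlashAction.slash_mul]
    have h' : heckeDiagMatrix d * (γ : GL (Fin 2) ℝ) =
      mapGL ℝ γ' * upperTriangularGL A B D hAD := h
    rw [h', form_slash_mul]
    exact isBoundedAtImInfty_slash_upperTriangular F A D B hAD

theorem degen_apply (N : ℕ) [NeZero N] {d : ℕ} [NeZero d] (hd : d ∣ N) {k : ℤ}
    (F : ModularForm 𝒮ℒ k) (τ : ℍ) : degen N hd F τ = (d : ℂ) ^ (k - 1) * F (mulN d τ) := by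
  change (⇑F ∣[k] heckeDiagMatrix d) τ = _
  rw [slash_heckeDiagMatrix_apply k (NeZero.ne d)]
  congr 2
  ext
  rw [coe_heckeDiagMatrix_smul (NeZero.ne d), coe_mulN]

/-- The `q`-expansion of `F(dτ)`. -/
theorem hasLExp_degen (N : ℕ) [NeZero N] {d : ℕ} [NeZero d] (hd : d ∣ N) {k : ℤ}
    (F : ModularForm 𝒮ℒ k) {f : LaurentSeries ℂ} (hf : HasLExp F f) :
    HasLExp (((d : ℂ) ^ (k - 1))⁻¹ • degen N hd F : ModularForm (Gamma0 N) k) (qExpand ℂ d f) := by
  refine (hf.comp_mulN d).congr fun τ => ?_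
  rw [_root_.smul_apply, degen_apply, smul_eq_mul, ← mul_assoc, inv_mul_cancel₀, one_mul]
  exact zpow_ne_zero _ (by exact_mod_cast NeZero.ne d)

end Fermat.Agent.Igusa
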