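import Mathlib
import Fermat.Agent.Igusa.Degen
import Fermat.Agent.P1Count.Index
import Fermat.Prelude.Thm_ModularForm_sturm_bound_Gamma0
import Fermat.Prelude.Thm_CongruenceSubgroup_one_mem_strictPeriods_Gamma0

/-!
# The degree bound (A2): `[E_N : ℚ(j)] ≤ ψ(N)`
-/

set_option autoImplicit false

noncomputable section

open UpperHalfPlane hiding I
open Complex HahnSeries ModularCurve ModularForm CongruenceSubgroup
open scoped Real MatrixGroups Topology Polynomial

namespace Fermat.Agent.Igusa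

local notation "𝕢" => Function.Periodic.qParam

open Fermat.Agent.S28aux Fermat.Agent.JLevelOne Fermat.Agent.IntStruct

theorem hasLExp_form_Gamma0 {N : ℕ} [NeZero N] {k : ℤ} (φ : ModularForm (Gamma0 N) k) :
    HasLExp φ (HahnSeries.ofPowerSeries ℤ ℂ (qExpansion 1 φ)) := by
  rw [HasLExp.ofPowerSeries_iff]
  intro τ
  exact ModularForm.hasSum_qExpansion φ one_pos
    (CongruenceSubgroup.one_mem_strictPeriods_Gamma0 N) τ

/-- `f` is the (rational) `q`-expansion of a modular form of weight `k` on `Γ₀(N)`. -/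
def RatForm (N : ℕ) (k : ℤ) (f : LaurentSeries ℚ) : Prop :=
  ∃ φ : ModularForm (Gamma0 N) k, HasLExp φ (coeffMap (algebraMap ℚ ℂ) f)

namespace RatForm

variable {N : ℕ} {k l : ℤ} {f g : LaurentSeries ℚ}

theorem cast (h : RatForm N k f) (e : k = l) : RatForm N l f := e ▸ h

theorem congr (h : RatForm N k f) (e : f = g) : RatForm N k g := e ▸ h

theorem mul (hf : RatForm N k f) (hg : RatForm N l g) : RatForm N (k + l) (f * g) := by
  obtain ⟨φ, hφ⟩ := hf
  obtain ⟨ψ, hψ⟩ := hg
  refine ⟨φ.mul ψ, ?_⟩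
  rw [map_mul]
  exact (hφ.mul hψ).congr fun τ => rfl

theorem add (hf : RatForm N k f) (hg : RatForm N k g) : RatForm N k (f + g) := by
  obtain ⟨φ, hφ⟩ := hf
  obtain ⟨ψ, hψ⟩ := hg
  refine ⟨φ + ψ, ?_⟩
  rw [map_add]
  exact (hφ.add hψ).congr fun τ => rfl

theorem zero : RatForm N k 0 := ⟨0, by rw [map_zero]; exact HasLExp.zero.congr fun τ => rfl⟩

theorem one : RatForm N 0 1 := ⟨1, by rw [map_one]; exact HasLExp.one.congr fun τ => rfl⟩

theorem smul (c : ℚ) (hf : RatForm N k f) : RatForm N k (HahnSeries.C c * f) := by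
  obtain ⟨φ, hφ⟩ := hf
  refine ⟨(c : ℂ) • φ, ?_⟩
  have h1 : coeffMap (algebraMap ℚ ℂ) (HahnSeries.C c) = HahnSeries.C (c : ℂ) := by
    rw [HahnSeries.C_apply, coeffMap_single]
    rfl
  rw [map_mul, h1]
  exact (hφ.smul (c : ℂ)).congr fun τ => by
    rw [_root_.smul_apply, smul_eq_mul]

theorem pow (hf : RatForm N k f) (n : ℕ) : RatForm N (n * k) (f ^ n) := by
  induction n with
  | zero => simpa using (one (N := N)).cast (by simp)
  | succ n ih =>
    rw [pow_succ]
    exact (ih.mul hf).cast (by push_cast; ring)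

theorem sum {ι : Type*} (s : Finset ι) {F : ι → LaurentSeries ℚ} (h : ∀ i ∈ s, RatForm N k (F i)) :
    RatForm N k (∑ i ∈ s, F i) := by
  classical
  induction s using Finset.induction_on with
  | empty => simpa using zero
  | insert a s ha ih =>
    rw [Finset.sum_insert ha]
    exact (h a (Finset.mem_insert_self _ _)).add
      (ih fun i hi => h i (Finset.mem_insert_of_mem hi))

theorem coeff_neg [NeZero N] (hf : RatForm N k f) {n : ℤ} (hn : n < 0) : f.coeff n = 0 := by
  obtain ⟨φ, hφ⟩ := hf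
  have h1 := hφ.unique (hasLExp_form_Gamma0 φ)
  have h2 : ((f.coeff n : ℚ) : ℂ) = 0 := by
    have h3 := congrArg (fun x : LaurentSeries ℂ => x.coeff n) h1
    simp only [coeffMap_coeff] at h3
    rw [ofPowerSeries_coeff_of_neg _ hn] at h3
    simpa using h3
  exact_mod_cast h2

/-- Sturm's bound for rational forms. -/
theorem eq_zero [NeZero N] (hf : RatForm N k f)
    (h : ∀ n : ℕ, n ≤ (k * (Gamma0 N).index).toNat / 12 → f.coeff n = 0) : f = 0 := by
  obtain ⟨φ, hφ⟩ := hf
  have h1 := hφ.unique (hasLExp_form_Gamma0 φ)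
  have h2 : φ = 0 := by
    apply ModularForm.sturm_bound_Gamma0 N φ
    intro n hn
    have h3 := congrArg (fun x : LaurentSeries ℂ => x.coeff (n : ℤ)) h1
    simp only [coeffMap_coeff] at h3
    rw [h n hn, map_zero, HahnSeries.ofPowerSeries_apply_coeff] at h3
    exact h3.symm
  rw [h2] at hφ
  have h4 : coeffMap (algebraMap ℚ ℂ) f = 0 := by
    apply HasLExp.eq_zero
    exact hφ.congr fun τ => rfl
  exact coeffMap_injective (algebraMap ℚ ℂ).injective (by rw [h4, map_zero])

theorem of_levelOne [NeZero N] {d : ℕ} [NeZero d] (hd : d ∣ N) (F : ModularForm 𝒮ℒ k)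
    (hF : HasLExp F (coeffMap (algebraMap ℚ ℂ) f)) : RatForm N k (qExpand ℚ d f) :=
  ⟨_, (hasLExp_degen N hd F hF).congr_right (coeffMap_qExpand _ _ _).symm⟩

end RatForm

theorem algebraMap_rat_apply (c : ℚ) :
    algebraMap ℚ (LaurentSeries ℚ) c = HahnSeries.C c :=
  RingHom.congr_fun (Subsingleton.elim (algebraMap ℚ (LaurentSeries ℚ)) HahnSeries.C) c

theorem ratForm_delta (N : ℕ) [NeZero N] {d : ℕ} [NeZero d] (hd : d ∣ N) :
    RatForm N 12 (qExpand ℚ d (deltaC ℚ)) := by
  refine RatForm.of_levelOne hd (CuspForm.toModularFormₗ CuspForm.discriminant) ?_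
  rw [coeffMap_deltaC]
  exact hasLExp_discriminant.congr fun τ => rfl

/-- the `q`-expansion of `E₄` -/
def e4C (R : Type*) [CommRing R] : LaurentSeries R :=
  HahnSeries.ofPowerSeries ℤ R (eisenstein4.map (Int.castRingHom R))

theorem coeffMap_e4C {R S : Type*} [CommRing R] [CommRing S] (f : R →+* S) :
    coeffMap f (e4C R) = e4C S := by
  rw [e4C, coeffMap_ofPowerSeries,
    ← RingHom.comp_apply (PowerSeries.map f) (PowerSeries.map (Int.castRingHom R)),
    ← PowerSeries.map_comp, RingHom.ext_int (f.comp (Int.castRingHom R)) (Int.castRingHom S)]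
  rfl

theorem jqModC_mul_delta (R : Type*) [CommRing R] : jqModC R * deltaC R = e4C R ^ 3 := by
  rw [jqModC_eq, mul_assoc, mul_comm (deltaInvC R), deltaC_mul_deltaInvC, mul_one]
  rfl

theorem ratForm_e4 (N : ℕ) [NeZero N] {d : ℕ} [NeZero d] (hd : d ∣ N) :
    RatForm N 4 (qExpand ℚ d (e4C ℚ)) := by
  refine RatForm.of_levelOne hd E₄ ?_
  rw [coeffMap_e4C]
  exact hasLExp_E4

theorem ratForm_jDelta (N : ℕ) [NeZero N] {d : ℕ} [NeZero d] (hd : d ∣ N) :
    RatForm N 12 (qExpand ℚ d (jqModC ℚ) * qExpand ℚ d (deltaC ℚ)) := by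
  rw [← map_mul, jqModC_mul_delta, map_pow]
  exact ((ratForm_e4 N hd).pow 3).cast (by norm_num)

/-- `x` is a ratio of modular forms on `Γ₀(N)` with rational `q`-expansions. -/
def IsRatio (N : ℕ) (x : LaurentSeries ℚ) : Prop :=
  ∃ (k : ℤ) (g : LaurentSeries ℚ), RatForm N k g ∧ g ≠ 0 ∧ RatForm N k (x * g)

namespace IsRatio

variable {N : ℕ} {x y : LaurentSeries ℚ}

theorem add (hx : IsRatio N x) (hy : IsRatio N y) : IsRatio N (x + y) := by
  obtain ⟨k, g, hg, hg0, hxg⟩ := hx
  obtain ⟨l, h, hh, hh0, hyh⟩ := hy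
  refine ⟨k + l, g * h, hg.mul hh, mul_ne_zero hg0 hh0, ?_⟩
  have := (hxg.mul hh).add (hg.mul hyh)
  exact this.congr (by ring)

theorem mul (hx : IsRatio N x) (hy : IsRatio N y) : IsRatio N (x * y) := by
  obtain ⟨k, g, hg, hg0, hxg⟩ := hx
  obtain ⟨l, h, hh, hh0, hyh⟩ := hy
  refine ⟨k + l, g * h, hg.mul hh, mul_ne_zero hg0 hh0, ?_⟩
  exact (hxg.mul hyh).congr (by ring)

theorem inv (hx : IsRatio N x) : IsRatio N x⁻¹ := by
  by_cases h0 : x = 0
  · subst h0
    exact ⟨0, 1, RatForm.one, one_ne_zero, by simpa using RatForm.zero⟩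
  · obtain ⟨k, g, hg, hg0, hxg⟩ := hx
    exact ⟨k, x * g, hxg, mul_ne_zero h0 hg0, hg.congr (by rw [inv_mul_cancel_left₀ h0])⟩

theorem algebraMap (c : ℚ) : IsRatio N (algebraMap ℚ (LaurentSeries ℚ) c) :=
  ⟨0, 1, RatForm.one, one_ne_zero,
    (RatForm.one.smul c).congr (by rw [algebraMap_rat_apply])⟩

theorem exists_common {ι : Type*} (s : Finset ι) (v : ι → LaurentSeries ℚ)
    (h : ∀ i ∈ s, IsRatio N (v i)) :
    ∃ (k : ℤ) (g : LaurentSeries ℚ), RatForm N k g ∧ g ≠ 0 ∧ ∀ i ∈ s, RatForm N k (v i * g) := by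
  classical
  induction s using Finset.induction_on with
  | empty => exact ⟨0, 1, RatForm.one, one_ne_zero, by simp⟩
  | insert a s ha ih =>
    obtain ⟨k, g, hg, hg0, hi⟩ := ih fun i hi => h i (Finset.mem_insert_of_mem hi)
    obtain ⟨l, h', hh, hh0, hyh⟩ := h a (Finset.mem_insert_self _ _)
    refine ⟨k + l, g * h', hg.mul hh, mul_ne_zero hg0 hh0, fun i his => ?_⟩
    rcases Finset.mem_insert.mp his with rfl | his
    · exact (hg.mul hyh).congr (by ring)
    · exact ((hi i his).mul hh).congr (by ring)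

theorem of_mem [NeZero N] (hx : x ∈ EField N) : IsRatio N x := by
  induction hx using IntermediateField.adjoin_induction with
  | mem x hx =>
    obtain ⟨d, hd0, hd, rfl | rfl⟩ := hx
    · exact ⟨12, _, ratForm_delta N hd, qExpand_ne_zero d (deltaC_ne_zero ℚ), ratForm_jDelta N hd⟩
    · refine ⟨12, _, ratForm_delta N (dvd_refl N), qExpand_ne_zero N (deltaC_ne_zero ℚ), ?_⟩
      refine (ratForm_delta N hd).congr ?_
      rw [mul_assoc, ← map_mul (qExpand ℚ N), mul_comm (deltaInvC ℚ), deltaC_mul_deltaInvC,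
        map_one, mul_one]
  | algebraMap c => exact IsRatio.algebraMap c
  | add x y hx hy ihx ihy => exact ihx.add ihy
  | inv x hx ihx => exact ihx.inv
  | mul x y hx hy ihx ihy => exact ihx.mul ihy

end IsRatio

/-- Linear algebra: too many rational forms are linearly dependent. -/
theorem exists_dependence {N : ℕ} [NeZero N] {k : ℤ} {ι : Type*} [Fintype ι]
    (w : ι → LaurentSeries ℚ) (hw : ∀ i, RatForm N k (w i))
    (hcard : (k * (Gamma0 N).index).toNat / 12 + 1 < Fintype.card ι) :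
    ∃ c : ι → ℚ, c ≠ 0 ∧ ∑ i, HahnSeries.C (c i) * w i = 0 := by
  set B := (k * (Gamma0 N).index).toNat / 12 with hB
  let L : (ι → ℚ) →ₗ[ℚ] (Fin (B + 1) → ℚ) :=
    { toFun := fun c b => ∑ i, c i * (w i).coeff ((b : ℕ) : ℤ)
      map_add' := fun c c' => by
        funext b
        simp [add_mul, Finset.sum_add_distrib]
      map_smul' := fun r c => by
        funext b
        simp [Finset.mul_sum, mul_assoc] }
  have hker : LinearMap.ker L ≠ ⊥ := LinearMap.ker_ne_bot_of_finrank_lt (by simpa using hcard)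
  obtain ⟨c, hc, hc0⟩ := (Submodule.ne_bot_iff _).mp hker
  refine ⟨c, hc0, ?_⟩
  have h1 : RatForm N k (∑ i, HahnSeries.C (c i) * w i) := RatForm.sum _ fun i _ => (hw i).smul (c i)
  apply h1.eq_zero
  intro n hn
  have h2 := congrFun (LinearMap.mem_ker.mp hc) ⟨n, by omega⟩
  have h3 : ∀ i, (HahnSeries.C (c i) * w i).coeff (n : ℤ) = c i * (w i).coeff (n : ℤ) := fun i => by
    rw [HahnSeries.C_mul_eq_smul, HahnSeries.coeff_smul, smul_eq_mul]
  simp only [HahnSeries.coeff_sum, h3]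
  exact h2

/-- **(A2)** The degree bound `[E_N : ℚ(j)] ≤ ψ(N)`. -/
theorem eFieldDep (N : ℕ) [NeZero N] : EFieldDep N (dedekindPsi N) := by
  have hn1 : 1 ≤ dedekindPsi N := by
    rw [← Fermat.Agent.P1Count.index_Gamma0 N]
    exact Nat.one_le_iff_ne_zero.mpr Subgroup.FiniteIndex.index_ne_zero
  have hidx := Fermat.Agent.P1Count.index_Gamma0 N
  generalize dedekindPsi N = n at hn1 hidx ⊢
  intro v hv
  obtain ⟨k, g, hg, hg0, hvg⟩ := IsRatio.exists_common (N := N) Finset.univ v
    fun i _ => IsRatio.of_mem (hv i)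
  set m : ℕ := (k * n).toNat with hm
  have hj : RatForm N 12 (jqModC ℚ * deltaC ℚ) := by
    have := ratForm_jDelta N (d := 1) (one_dvd N)
    rwa [qExpand_one_apply, qExpand_one_apply] at this
  have hD : RatForm N 12 (deltaC ℚ) := by
    have := ratForm_delta N (d := 1) (one_dvd N)
    rwa [qExpand_one_apply] at this
  have hw : ∀ x : Fin (n + 1) × Fin (m + 1), RatForm N (k + 12 * m)
      (v x.1 * g * (jqModC ℚ ^ (x.2 : ℕ) * deltaC ℚ ^ m)) := by
    rintro ⟨i, j⟩
    have hjm : (j : ℕ) ≤ m := Nat.lt_succ_iff.mp j.2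
    have h1 := (hvg i (Finset.mem_univ i)).mul ((hj.pow (j : ℕ)).mul (hD.pow (m - j)))
    refine (h1.cast ?_).congr ?_
    · push_cast [hjm]; ring
    · rw [mul_pow, mul_assoc (jqModC ℚ ^ (j : ℕ)), ← _root_.pow_add, Nat.add_sub_cancel' hjm]
  obtain ⟨c, hc0, hc⟩ := exists_dependence _ hw (by
    rw [hidx, Fintype.card_prod, Fintype.card_fin, Fintype.card_fin]
    have h1 : ((k + 12 * (m : ℤ)) * n).toNat ≤ m + 12 * (m * n) := by
      have h2 : (k * n) ≤ (m : ℤ) := by rw [hm]; exact Int.self_le_toNat _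
      rw [Int.toNat_le]
      push_cast
      linarith
    have h3 : (m + 12 * (m * n)) / 12 = m / 12 + m * n := by omega
    have h4 : ((k + 12 * (m : ℤ)) * n).toNat / 12 ≤ m / 12 + m * n := by
      rw [← h3]; exact Nat.div_le_div_right h1
    have h5 : (n + 1) * (m + 1) = m * n + m + n + 1 := by ring
    have h6 : m / 12 ≤ m := Nat.div_le_self _ _
    omega)
  refine ⟨fun i => ∑ j : Fin (m + 1), Polynomial.monomial (j : ℕ) (c (i, j)), ?_, ?_⟩
  · by_contra hall
    push Not at hall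
    apply hc0
    funext ⟨i, j⟩
    have h1 := congrArg (fun P : Polynomial ℚ => P.coeff (j : ℕ)) (hall i)
    simp only [Polynomial.finsetSum_coeff, Polynomial.coeff_monomial, Polynomial.coeff_zero] at h1
    rw [Finset.sum_eq_single j] at h1
    · simpa using h1
    · intro b _ hb
      rw [if_neg]
      intro h
      exact hb (Fin.ext h)
    · simp
  · have h1 : (∑ i, Polynomial.aeval (jqModC ℚ)
        (∑ j : Fin (m + 1), Polynomial.monomial (j : ℕ) (c (i, j))) * v i) * (g * deltaC ℚ ^ m) =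
        ∑ x : Fin (n + 1) × Fin (m + 1),
          HahnSeries.C (c x) * (v x.1 * g * (jqModC ℚ ^ (x.2 : ℕ) * deltaC ℚ ^ m)) := by
      rw [Fintype.sum_prod_type, Finset.sum_mul]
      refine Finset.sum_congr rfl fun i _ => ?_
      rw [map_sum, Finset.sum_mul, Finset.sum_mul]
      refine Finset.sum_congr rfl fun j _ => ?_
      rw [Polynomial.aeval_monomial, algebraMap_rat_apply]
      ring
    rw [hc] at h1
    exact (mul_eq_zero.mp h1).resolve_right
      (mul_ne_zero hg0 (pow_ne_zero _ (deltaC_ne_zero ℚ)))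

end Fermat.Agent.Igusa
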