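import Mathlib

/-!
# Computing the degree of a function field over `k(x)` by relations
-/

set_option autoImplicit false

open IntermediateField
open scoped Polynomial

namespace Fermat.Agent.Igusa

variable {k F : Type*} [Field k] [Field F] [Algebra k F]

/-- a polynomial relation over `k[x]` -/
def RelX (x : F) {n : ℕ} (v : Fin n → F) : Prop :=
  ∃ P : Fin n → k[X], (∃ i, P i ≠ 0) ∧ ∑ i, Polynomial.aeval x (P i) * v i = 0

/-- clearing denominators -/
theorem exists_common_denominator (x : F) {n : ℕ} (c : Fin n → F) (hc : ∀ i, c i ∈ k⟮x⟯) :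
    ∃ (Q : k[X]) (P : Fin n → k[X]), Polynomial.aeval x Q ≠ 0 ∧
      ∀ i, Polynomial.aeval x Q * c i = Polynomial.aeval x (P i) := by
  choose r s hrs using fun i => (mem_adjoin_simple_iff k (c i)).mp (hc i)
  classical
  let s' : Fin n → k[X] := fun i => if Polynomial.aeval x (s i) = 0 then 1 else s i
  let r' : Fin n → k[X] := fun i => if Polynomial.aeval x (s i) = 0 then 0 else r i
  have hs' : ∀ i, Polynomial.aeval x (s' i) ≠ 0 := by
    intro i
    by_cases h : Polynomial.aeval x (s i) = 0
    · simp [s', h]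
    · simp [s', h]
  have hc' : ∀ i, Polynomial.aeval x (s' i) * c i = Polynomial.aeval x (r' i) := by
    intro i
    by_cases h : Polynomial.aeval x (s i) = 0
    · simp [s', r', h, hrs i]
    · simp only [s', r', h, if_false]
      rw [hrs i]
      field_simp
  refine ⟨∏ i, s' i, fun i => (∏ j ∈ Finset.univ.erase i, s' j) * r' i, ?_, fun i => ?_⟩
  · rw [map_prod]
    exact Finset.prod_ne_zero_iff.mpr fun i _ => hs' i
  · rw [← Finset.mul_prod_erase Finset.univ s' (Finset.mem_univ i), map_mul, map_mul, ← hc' i]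
    ring

theorem relX_iff {x : F} (hx : Transcendental k x) {n : ℕ} (v : Fin n → F) :
    RelX (k := k) x v ↔ ¬ LinearIndependent k⟮x⟯ v := by
  rw [Fintype.linearIndependent_iff]
  push Not
  constructor
  · rintro ⟨P, ⟨i, hi⟩, h⟩
    refine ⟨fun i => ⟨Polynomial.aeval x (P i), ?_⟩, ?_, i, ?_⟩
    · exact (mem_adjoin_simple_iff k _).mpr ⟨P i, 1, by simp⟩
    · exact h
    · intro h0
      have h1 : Polynomial.aeval x (P i) = 0 := congrArg Subtype.val h0
      exact hi (transcendental_iff.mp hx _ h1)
  · rintro ⟨g, hg, i, hi⟩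
    obtain ⟨Q, P, hQ, hP⟩ := exists_common_denominator x (fun i => (g i : F)) fun i => (g i).2
    refine ⟨P, ⟨i, ?_⟩, ?_⟩
    · intro h0
      have h1 := hP i
      rw [h0, map_zero] at h1
      rcases mul_eq_zero.mp h1 with h2 | h2
      · exact hQ h2
      · exact hi (Subtype.ext h2)
    · have h2 : ∑ i, Polynomial.aeval x (P i) * v i = Polynomial.aeval x Q * ∑ i, g i • v i := by
        rw [Finset.mul_sum]
        refine Finset.sum_congr rfl fun i _ => ?_
        rw [← hP i]
        change _ = Polynomial.aeval x Q * ((g i : F) * v i)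
        ring
      rw [h2, hg, mul_zero]

/-- a relation between powers gives integrality -/
theorem isIntegral_of_relX {x : F} (hx : Transcendental k x) {n : ℕ} {s : F}
    (h : RelX (k := k) x (fun i : Fin n => s ^ (i : ℕ))) : IsIntegral k⟮x⟯ s := by
  obtain ⟨P, ⟨i, hi⟩, h⟩ := h
  rw [← isAlgebraic_iff_isIntegral]
  let K := k⟮x⟯
  let c : Fin n → K := fun i => ⟨Polynomial.aeval x (P i),
    (mem_adjoin_simple_iff k _).mpr ⟨P i, 1, by simp⟩⟩
  refine ⟨∑ i : Fin n, Polynomial.monomial (i : ℕ) (c i), ?_, ?_⟩
  · intro h0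
    have h1 := congrArg (fun Q : K[X] => Q.coeff (i : ℕ)) h0
    simp only [Polynomial.finsetSum_coeff, Polynomial.coeff_monomial, Polynomial.coeff_zero] at h1
    rw [Finset.sum_eq_single i] at h1
    · rw [if_pos rfl] at h1
      have h2 : Polynomial.aeval x (P i) = 0 := congrArg Subtype.val h1
      exact hi (transcendental_iff.mp hx _ h2)
    · intro b _ hb
      rw [if_neg]
      intro h
      exact hb (Fin.ext h)
    · simp
  · rw [map_sum]
    refine Eq.trans (Finset.sum_congr rfl fun i _ => ?_) h
    rw [Polynomial.aeval_monomial]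
    rfl

/-- The degree of `F` over `k(x)`. -/
theorem finrank_eq_of_rel {x : F} (hx : Transcendental k x) {n : ℕ} (S : Set F)
    (hS : IntermediateField.adjoin k S = ⊤)
    (hrel : ∀ v : Fin (n + 1) → F, (∀ i, v i ∈ Submonoid.closure S) → RelX (k := k) x v)
    (v : Fin n → F) (hv : ¬ RelX (k := k) x v) : Module.finrank k⟮x⟯ F = n := by
  classical
  have hint : ∀ s ∈ S, IsIntegral k⟮x⟯ s := fun s hs =>
    isIntegral_of_relX hx (hrel (fun i => s ^ (i : ℕ)) fun i =>
      pow_mem (Submonoid.subset_closure hs) _)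
  have htop : Algebra.adjoin k⟮x⟯ S = ⊤ := by
    rw [← IntermediateField.adjoin_toSubalgebra_of_isAlgebraic fun s hs => (hint s hs).isAlgebraic]
    have h1 : IntermediateField.adjoin k⟮x⟯ S = ⊤ := by
      rw [← IntermediateField.restrictScalars_eq_top_iff (K := k), eq_top_iff, ← hS,
        IntermediateField.adjoin_le_iff]
      intro s hs
      exact IntermediateField.subset_adjoin k⟮x⟯ S hs
    rw [h1, IntermediateField.top_toSubalgebra]
  have hspan : Submodule.span k⟮x⟯ (Submonoid.closure S : Set F) = ⊤ := by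
    rw [← Algebra.adjoin_eq_span, htop, Algebra.top_toSubmodule]
  obtain ⟨b, hbS, hbspan, hb⟩ := exists_linearIndependent k⟮x⟯ (Submonoid.closure S : Set F)
  have hbfin : b.Finite ∧ b.ncard ≤ n := by
    by_contra hcon
    have h1 : ∃ t : Finset F, (t : Set F) ⊆ b ∧ t.card = n + 1 := by
      by_cases hfin : b.Finite
      · have h2 : n + 1 ≤ hfin.toFinset.card := by
          rw [← Set.ncard_eq_toFinset_card b hfin]
          by_contra hlt
          exact hcon ⟨hfin, by omega⟩
        obtain ⟨t, ht, htc⟩ := Finset.exists_subset_card_eq h2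
        exact ⟨t, fun a ha => hfin.mem_toFinset.mp (ht ha), htc⟩
      · exact Set.Infinite.exists_subset_card_eq hfin (n + 1)
    obtain ⟨t, htb, htc⟩ := h1
    let e : Fin (n + 1) ≃ t := (Finset.equivFinOfCardEq htc).symm
    have h3 := hrel (fun i => (e i : F)) fun i => hbS (htb (e i).2)
    rw [relX_iff hx] at h3
    apply h3
    have h4 : LinearIndependent k⟮x⟯ (fun a : b => (a : F)) := hb
    exact h4.comp (fun i => (⟨e i, htb (e i).2⟩ : b)) fun i j hij => by
      have := congrArg (fun a : b => (a : F)) hij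
      exact e.injective (Subtype.ext this)
  have := hbfin.1.to_subtype
  have hbasis : Module.finrank k⟮x⟯ F = b.ncard := by
    have h1 : ⊤ ≤ Submodule.span k⟮x⟯ (Set.range (fun a : b => (a : F))) := by
      rw [Subtype.range_coe, hbspan, hspan]
    let B := Module.Basis.mk hb h1
    have := Fintype.ofFinite b
    rw [Module.finrank_eq_card_basis B, ← Nat.card_eq_fintype_card]
    rfl
  apply le_antisymm
  · rw [hbasis]; exact hbfin.2
  · rw [relX_iff hx, not_not] at hv
    have hfd : Module.Finite k⟮x⟯ F := by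
      have h1 : ⊤ ≤ Submodule.span k⟮x⟯ (Set.range (fun a : b => (a : F))) := by
        rw [Subtype.range_coe, hbspan, hspan]
      exact Module.Finite.of_basis (Module.Basis.mk hb h1)
    simpa using hv.fintype_card_le_finrank

end Fermat.Agent.Igusa
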