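import Mathlib
import Fermat.Agent.Igusa.DegBound
import Fermat.Agent.Igusa.FinRank

/-!
# Reduction and base change of linear relations between Laurent series
-/

set_option autoImplicit false

noncomputable section

open HahnSeries ModularCurve IntermediateField
open scoped Polynomial IntermediateField

namespace Fermat.Agent.Igusa

open Fermat.Agent.S28aux

/-- `k`-linear dependence of a family of Laurent series -/
def Dep (k : Type*) [Field k] {ι : Type*} [Fintype ι] (w : ι → LaurentSeries k) : Prop :=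
  ∃ c : ι → k, c ≠ 0 ∧ ∑ i, HahnSeries.C (c i) * w i = 0

theorem coeff_C_mul {R : Type*} [CommRing R] (c : R) (x : LaurentSeries R) (n : ℤ) :
    (HahnSeries.C c * x).coeff n = c * x.coeff n := by
  rw [HahnSeries.C_mul_eq_smul, HahnSeries.coeff_smul, smul_eq_mul]

theorem coeffMap_C {R S : Type*} [CommRing R] [CommRing S] (f : R →+* S) (c : R) :
    coeffMap f (HahnSeries.C c) = HahnSeries.C (f c) := by
  rw [HahnSeries.C_apply, coeffMap_single]; rfl

theorem exists_primitive {ι : Type*} [Fintype ι] (c : ι → ℚ) (hc : c ≠ 0) :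
    ∃ (b : ℚ) (c' : ι → ℤ), b ≠ 0 ∧ (∀ i, c i = b * c' i) ∧ Finset.univ.gcd c' = 1 := by
  classical
  obtain ⟨i0, hi0⟩ := Function.ne_iff.mp hc
  set D : ℕ := ∏ i, (c i).den with hD
  have hD0 : (D : ℚ) ≠ 0 := by
    rw [hD]
    push_cast
    exact Finset.prod_ne_zero_iff.mpr fun i _ => by exact_mod_cast (c i).den_nz
  have h1 : ∀ i, ∃ m : ℤ, (D : ℚ) * c i = m := by
    intro i
    refine ⟨(∏ j ∈ Finset.univ.erase i, ((c j).den : ℤ)) * (c i).num, ?_⟩
    rw [hD, ← Finset.mul_prod_erase Finset.univ _ (Finset.mem_univ i)]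
    push_cast
    have h2 : ((c i).den : ℚ) * c i = (c i).num := by
      rw [mul_comm]; exact_mod_cast Rat.mul_den_eq_num (c i)
    rw [← h2]
    ring
  choose m hm using h1
  obtain ⟨g, hg, hg1⟩ := Finset.extract_gcd m (s := Finset.univ) ⟨i0, Finset.mem_univ _⟩
  set G := Finset.univ.gcd m with hG
  have hG0 : (G : ℚ) ≠ 0 := by
    intro h0
    have h0' : G = 0 := by exact_mod_cast h0
    have h2 := Finset.gcd_eq_zero_iff.mp h0' i0 (Finset.mem_univ _)
    have h3 := hm i0
    rw [h2, Int.cast_zero] at h3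
    exact hi0 ((mul_eq_zero.mp h3).resolve_left hD0)
  refine ⟨G / D, g, div_ne_zero hG0 hD0, fun i => ?_, hg1⟩
  have h3 := hm i
  rw [hg i (Finset.mem_univ _)] at h3
  push_cast at h3
  field_simp
  linear_combination h3

/-- A `ℚ`-linear relation between integral Laurent series reduces to a relation over any field. -/
theorem Dep.reduce {ι : Type*} [Fintype ι] (w : ι → LaurentSeries ℤ)
    (h : Dep ℚ fun i => coeffMap (Int.castRingHom ℚ) (w i)) (k : Type*) [Field k] :
    Dep k fun i => coeffMap (Int.castRingHom k) (w i) := by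
  obtain ⟨c, hc, hsum⟩ := h
  obtain ⟨b, c', hb, hbc, hgcd⟩ := exists_primitive c hc
  have h1 : ∑ i, HahnSeries.C (c' i) * w i = 0 := by
    apply coeffMap_injective (f := Int.castRingHom ℚ) (RingHom.injective_int _)
    rw [map_zero, map_sum]
    have h2 : HahnSeries.C b * ∑ i, coeffMap (Int.castRingHom ℚ) (HahnSeries.C (c' i) * w i) = 0 := by
      rw [← hsum, Finset.mul_sum]
      refine Finset.sum_congr rfl fun i _ => ?_
      rw [map_mul, coeffMap_C, hbc i, map_mul, mul_assoc]
      rfl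
    refine (mul_eq_zero.mp h2).resolve_left fun h => hb ?_
    rw [← map_zero (HahnSeries.C (Γ := ℤ) (R := ℚ))] at h
    exact HahnSeries.C_injective h
  refine ⟨fun i => (c' i : k), ?_, ?_⟩
  · intro h0
    obtain ⟨p, hp⟩ := CharP.exists k
    have h2 : ∀ i, (p : ℤ) ∣ c' i := fun i =>
      (CharP.intCast_eq_zero_iff k p (c' i)).mp (congrFun h0 i)
    have h3 : (p : ℤ) ∣ 1 := by
      rw [← hgcd]
      exact Finset.dvd_gcd fun i _ => h2 i
    have h4 : p = 1 := by
      have := Int.natCast_dvd_natCast.mp (show (p : ℤ) ∣ ((1 : ℕ) : ℤ) by simpa using h3)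
      exact Nat.dvd_one.mp this
    rw [h4] at hp
    exact CharP.ringChar_ne_one (R := k) (ringChar.eq k 1)
  · have h2 := congrArg (coeffMap (Int.castRingHom k)) h1
    rw [map_zero, map_sum] at h2
    refine Eq.trans (Finset.sum_congr rfl fun i _ => ?_) h2
    rw [map_mul, coeffMap_C]
    rfl

/-- A relation over an extension field descends. -/
theorem Dep.descend {k₀ k : Type*} [Field k₀] [Field k] [Algebra k₀ k] {ι : Type*} [Fintype ι]
    (w : ι → LaurentSeries k₀) (h : Dep k fun i => coeffMap (algebraMap k₀ k) (w i)) : Dep k₀ w := by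
  obtain ⟨c, hc, hsum⟩ := h
  obtain ⟨i0, hi0⟩ := Function.ne_iff.mp hc
  have h1 : ∃ φ : Module.Dual k₀ k, φ (c i0) ≠ 0 := by
    by_contra hcon
    push Not at hcon
    exact hi0 ((Module.forall_dual_apply_eq_zero_iff k₀ (c i0)).mp hcon)
  obtain ⟨φ, hφ⟩ := h1
  refine ⟨fun i => φ (c i), fun h => hφ (congrFun h i0), ?_⟩
  ext n
  have h2 := congrArg (fun x : LaurentSeries k => φ (x.coeff n)) hsum
  simp only [HahnSeries.coeff_sum, coeff_C_mul, HahnSeries.coeff_zero, map_zero, map_sum,
    coeffMap_coeff] at h2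
  simp only [HahnSeries.coeff_sum, coeff_C_mul, HahnSeries.coeff_zero]
  refine Eq.trans (Finset.sum_congr rfl fun i _ => ?_) h2
  rw [mul_comm (c i), ← Algebra.smul_def, map_smul, smul_eq_mul, mul_comm]

/-- base change of relations -/
theorem Dep.map {k₀ k : Type*} [Field k₀] [Field k] [Algebra k₀ k] {ι : Type*} [Fintype ι]
    {w : ι → LaurentSeries k₀} (h : Dep k₀ w) : Dep k fun i => coeffMap (algebraMap k₀ k) (w i) := by
  obtain ⟨c, hc, hsum⟩ := h
  refine ⟨fun i => algebraMap k₀ k (c i), ?_, ?_⟩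
  · intro h0
    apply hc
    funext i
    exact (map_eq_zero (algebraMap k₀ k)).mp (congrFun h0 i)
  · have h2 := congrArg (coeffMap (algebraMap k₀ k)) hsum
    rw [map_zero, map_sum] at h2
    refine Eq.trans (Finset.sum_congr rfl fun i _ => ?_) h2
    rw [map_mul, coeffMap_C]

section RelX

variable {k : Type*} [Field k]

theorem algebraMap_laurent (c : k) : algebraMap k (LaurentSeries k) c = HahnSeries.C c := by
  rw [algebraMap_laurentSeries_eq_single, HahnSeries.C_apply]

theorem dep_of_relX {t : LaurentSeries k} {n : ℕ} {v : Fin n → LaurentSeries k}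
    (h : RelX (k := k) t v) : ∃ M : ℕ, Dep k fun x : Fin n × Fin M => t ^ (x.2 : ℕ) * v x.1 := by
  obtain ⟨P, ⟨i0, hi0⟩, hsum⟩ := h
  set M := (Finset.univ.sup fun i => (P i).natDegree) + 1 with hM
  have hdeg : ∀ i, (P i).natDegree < M := fun i =>
    Nat.lt_succ_of_le (Finset.le_sup (f := fun i => (P i).natDegree) (Finset.mem_univ i))
  refine ⟨M, fun x => (P x.1).coeff (x.2 : ℕ), ?_, ?_⟩
  · intro h0
    apply hi0
    ext m
    by_cases hm : m < M
    · simpa using congrFun h0 (i0, ⟨m, hm⟩)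
    · rw [Polynomial.coeff_eq_zero_of_natDegree_lt ((hdeg i0).trans_le (not_lt.mp hm)),
        Polynomial.coeff_zero]
  · rw [Fintype.sum_prod_type, ← hsum]
    refine Finset.sum_congr rfl fun i _ => ?_
    rw [Polynomial.aeval_eq_sum_range' (hdeg i), Finset.sum_mul, Finset.sum_range]
    refine Finset.sum_congr rfl fun j _ => ?_
    rw [Algebra.smul_def, algebraMap_laurent]
    ring

theorem relX_of_dep {t : LaurentSeries k} {n M : ℕ} {v : Fin n → LaurentSeries k}
    (h : Dep k fun x : Fin n × Fin M => t ^ (x.2 : ℕ) * v x.1) : RelX (k := k) t v := by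
  obtain ⟨c, hc, hsum⟩ := h
  obtain ⟨⟨i0, m0⟩, h0⟩ := Function.ne_iff.mp hc
  refine ⟨fun i => ∑ m : Fin M, Polynomial.monomial (m : ℕ) (c (i, m)), ⟨i0, ?_⟩, ?_⟩
  · intro hz
    have h1 := congrArg (fun P : k[X] => P.coeff (m0 : ℕ)) hz
    simp only [Polynomial.finsetSum_coeff, Polynomial.coeff_monomial, Polynomial.coeff_zero] at h1
    rw [Finset.sum_eq_single m0] at h1
    · rw [if_pos rfl] at h1
      exact h0 h1
    · intro b _ hb
      rw [if_neg]
      intro h
      exact hb (Fin.ext h)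
    · simp
  · rw [Fintype.sum_prod_type] at hsum
    refine Eq.trans (Finset.sum_congr rfl fun i _ => ?_) hsum
    rw [map_sum, Finset.sum_mul]
    refine Finset.sum_congr rfl fun j _ => ?_
    rw [Polynomial.aeval_monomial, algebraMap_laurent]
    ring

/-- integral relations reduce -/
theorem RelX.reduce {n : ℕ} {t : LaurentSeries ℤ} {v : Fin n → LaurentSeries ℤ} {M : ℕ}
    (h : Dep ℚ fun x : Fin n × Fin M => coeffMap (Int.castRingHom ℚ) (t ^ (x.2 : ℕ) * v x.1))
    (k : Type*) [Field k] : RelX (k := k) (coeffMap (Int.castRingHom k) t)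
      (fun i => coeffMap (Int.castRingHom k) (v i)) := by
  have h1 := Dep.reduce _ h k
  simp only [map_mul, map_pow] at h1
  exact relX_of_dep h1

theorem RelX.map {k₀ : Type*} [Field k₀] [Algebra k₀ k] {n : ℕ} {t : LaurentSeries k₀}
    {v : Fin n → LaurentSeries k₀} (h : RelX (k := k₀) t v) :
    RelX (k := k) (coeffMap (algebraMap k₀ k) t) (fun i => coeffMap (algebraMap k₀ k) (v i)) := by
  obtain ⟨M, h1⟩ := dep_of_relX h
  have h2 := h1.map (k := k)
  simp only [map_mul, map_pow] at h2
  exact relX_of_dep h2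

theorem RelX.descend {k₀ : Type*} [Field k₀] [Algebra k₀ k] {n : ℕ} {t : LaurentSeries k₀}
    {v : Fin n → LaurentSeries k₀} (h : RelX (k := k) (coeffMap (algebraMap k₀ k) t)
      (fun i => coeffMap (algebraMap k₀ k) (v i))) : RelX (k := k₀) t v := by
  obtain ⟨M, h1⟩ := dep_of_relX h
  have h3 : (fun x : Fin n × Fin M => coeffMap (algebraMap k₀ k) t ^ (x.2 : ℕ) *
      coeffMap (algebraMap k₀ k) (v x.1)) =
      fun x : Fin n × Fin M => coeffMap (algebraMap k₀ k) (t ^ (x.2 : ℕ) * v x.1) := by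
    funext x
    rw [map_mul, map_pow]
  rw [h3] at h1
  exact relX_of_dep h1.descend

end RelX

/-- **(D2)** any `ψ(N) + 1` integral Laurent series in `E_N` have dependent reductions. -/
theorem relX_of_mem_EField (N : ℕ) [NeZero N] (k : Type*) [Field k]
    (v : Fin (dedekindPsi N + 1) → LaurentSeries ℤ)
    (hv : ∀ i, coeffMap (Int.castRingHom ℚ) (v i) ∈ EField N) :
    RelX (k := k) (jqModC k) (fun i => coeffMap (Int.castRingHom k) (v i)) := by
  obtain ⟨P, ⟨i0, hi0⟩, hsum⟩ := eFieldDep N _ hv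
  generalize dedekindPsi N + 1 = n at v hv P i0 hi0 hsum ⊢
  set M := (Finset.univ.sup fun i => (P i).natDegree) + 1 with hM
  have hdeg : ∀ i, (P i).natDegree < M := fun i =>
    Nat.lt_succ_of_le (Finset.le_sup (f := fun i => (P i).natDegree) (Finset.mem_univ i))
  have h1 : Dep ℚ fun x : Fin n × Fin M =>
      coeffMap (Int.castRingHom ℚ) (jqModC ℤ ^ (x.2 : ℕ) * v x.1) := by
    refine ⟨fun x => (P x.1).coeff (x.2 : ℕ), ?_, ?_⟩
    · intro h0
      apply hi0
      ext m
      by_cases hm : m < M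
      · simpa using congrFun h0 (i0, ⟨m, hm⟩)
      · rw [Polynomial.coeff_eq_zero_of_natDegree_lt ((hdeg i0).trans_le (not_lt.mp hm)),
          Polynomial.coeff_zero]
    · rw [Fintype.sum_prod_type, ← hsum]
      refine Finset.sum_congr rfl fun i _ => ?_
      have h2 : Polynomial.aeval (jqModC ℚ) (P i) =
          ∑ j : Fin M, HahnSeries.C ((P i).coeff (j : ℕ)) * jqModC ℚ ^ (j : ℕ) := by
        rw [Polynomial.aeval_def, Polynomial.eval₂_eq_sum_range' _ (hdeg i), Finset.sum_range]
        refine Finset.sum_congr rfl fun j _ => ?_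
        rw [algebraMap_rat_apply]
      rw [h2, Finset.sum_mul]
      refine Finset.sum_congr rfl fun j _ => ?_
      dsimp only
      rw [map_mul, map_pow, coeffMap_jqModC]
      ring
  have h2 := RelX.reduce h1 k
  rwa [coeffMap_jqModC] at h2

end Fermat.Agent.Igusa
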