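import Mathlib
import Fermat.Agent.Igusa.Fricke
import Fermat.Agent.Igusa.Reduce
import Fermat.Agent.Igusa.PsiN
import Fermat.Agent.S28_Core

/-!
# Lower bound for `[E_N : k(j)]` in every characteristic prime to `N`
-/

set_option autoImplicit false

noncomputable section

open HahnSeries ModularCurve IntermediateField
open scoped Polynomial IntermediateField

namespace Fermat.Agent.Igusa

open Fermat.Agent.S28aux

variable {N : ℕ} [NeZero N]

/-- the transported generators `d^12 Δ(q^d)/Δ(q)` -/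
def YZ' (N : ℕ) : Set (LaurentSeries ℤ) :=
  {x | ∃ (d : ℕ) (_ : NeZero d), d ∣ N ∧
    x = HahnSeries.C ((d : ℤ) ^ 12) * (qExpand ℤ d (deltaC ℤ) * deltaInvC ℤ)}

/-- the Fricke involution with its analytic characterisation -/
def IsFricke (w : EField N ≃ₐ[ℚ] EField N) : Prop :=
  (∀ x, w (w x) = x) ∧ ∀ x : EField N, Rel N (coeffMap (algebraMap ℚ ℂ) (x : LaurentSeries ℚ))
      (coeffMap (algebraMap ℚ ℂ) (w x : LaurentSeries ℚ))

theorem IsFricke.jq {w : EField N ≃ₐ[ℚ] EField N} (hw : IsFricke w) :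
    ((w ⟨jqModC ℚ, jq_mem_EField N⟩ : EField N) : LaurentSeries ℚ) = qExpand ℚ N (jqModC ℚ) := by
  apply fricke_eq w hw.2
  have h2 := rel_jq (N := N) (d := 1) (d' := N) (one_mul N)
  rw [qExpand_one_apply] at h2
  rw [coeffMap_jqModC, coeffMap_qExpand, coeffMap_jqModC]
  exact h2

theorem exists_transport {w : EField N ≃ₐ[ℚ] EField N} (hw : IsFricke w) {x : LaurentSeries ℤ}
    (hx : x ∈ Submonoid.closure (YZ N)) :
    ∃ x' ∈ Submonoid.closure (YZ' N),
      ((w ⟨ιZ x, ιZ_closure_mem_EField hx⟩ : EField N) : LaurentSeries ℚ) = ιZ x' := by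
  have key : ∀ x ∈ Submonoid.closure (YZ N), ∀ h : ιZ x ∈ EField N,
      ∃ x' ∈ Submonoid.closure (YZ' N), ((w ⟨ιZ x, h⟩ : EField N) : LaurentSeries ℚ) = ιZ x' := by
    intro x hx
    induction hx using Submonoid.closure_induction with
    | mem x hx =>
      intro h
      obtain ⟨e, he0, heN, rfl⟩ := hx
      obtain ⟨d', hd'⟩ := heN
      have : NeZero e := ⟨he0⟩
      have : NeZero d' := ⟨fun h => NeZero.ne N (by rw [hd', h, mul_zero])⟩
      refine ⟨_, Submonoid.subset_closure ⟨d', inferInstance, ⟨e, by rw [hd', mul_comm]⟩, rfl⟩, ?_⟩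
      have h1 : ιZ (yE ℤ e N) = qExpand ℚ e (deltaC ℚ) * qExpand ℚ N (deltaInvC ℚ) := by
        rw [coeffMap_yE, yE, qx_eq, qx_eq]
      have h2 : (⟨ιZ (yE ℤ e N), h⟩ : EField N) = ⟨_, h1 ▸ h⟩ := Subtype.ext h1
      rw [h2, fricke_delta w hw.2 e d' hd'.symm, map_mul, map_mul, coeffMap_C, coeffMap_qExpand,
        coeffMap_deltaC, coeffMap_deltaInvC]
      simp
    | one =>
      intro h
      refine ⟨1, one_mem _, ?_⟩
      have h2 : (⟨ιZ 1, h⟩ : EField N) = 1 := Subtype.ext (map_one ιZ)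
      rw [h2, map_one, map_one]
      rfl
    | mul x y hx hy ihx ihy =>
      intro h
      obtain ⟨x', hx', h1⟩ := ihx (ιZ_closure_mem_EField hx)
      obtain ⟨y', hy', h2⟩ := ihy (ιZ_closure_mem_EField hy)
      refine ⟨x' * y', mul_mem hx' hy', ?_⟩
      have h3 : (⟨ιZ (x * y), h⟩ : EField N) =
        ⟨ιZ x, ιZ_closure_mem_EField hx⟩ * ⟨ιZ y, ιZ_closure_mem_EField hy⟩ :=
        Subtype.ext (map_mul ιZ x y)
      rw [h3, map_mul, map_mul, ← h1, ← h2]
      rfl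
  exact key x hx _

theorem aeval_coe_EField (x : EField N) (P : ℚ[X]) :
    ((Polynomial.aeval x P : EField N) : LaurentSeries ℚ) =
      Polynomial.aeval (x : LaurentSeries ℚ) P := coe_aeval' (EField N) x P

/-- transport of a polynomial combination -/
theorem fricke_sum {w : EField N ≃ₐ[ℚ] EField N} (hw : IsFricke w) {n : ℕ} (P : Fin n → ℚ[X])
    (x y : Fin n → EField N) (hxy : ∀ i, w (x i) = y i) :
    w (∑ i, Polynomial.aeval (⟨qExpand ℚ N (jqModC ℚ), qExpand_jq_mem_EField N N dvd_rfl⟩ : EField N)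
      (P i) * x i) =
    ∑ i, Polynomial.aeval (⟨jqModC ℚ, jq_mem_EField N⟩ : EField N) (P i) * y i := by
  rw [map_sum]
  refine Finset.sum_congr rfl fun i _ => ?_
  rw [map_mul, hxy]
  congr 1
  have h1 : w ⟨qExpand ℚ N (jqModC ℚ), qExpand_jq_mem_EField N N dvd_rfl⟩ =
      ⟨jqModC ℚ, jq_mem_EField N⟩ := by
    rw [← hw.1 ⟨jqModC ℚ, jq_mem_EField N⟩]
    congr 1
    exact Subtype.ext hw.jq.symm
  rw [← h1]
  exact (Polynomial.aeval_algHom_apply (w : EField N →ₐ[ℚ] EField N) _ (P i)).symm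

theorem psiN_eq_dedekindPsi (N : ℕ) [NeZero N] : psiN N = dedekindPsi N :=
  (dedekindPsi_eq N (NeZero.ne N)).symm

/-- `w` preserves the Gauss valuation ring. -/
theorem fricke_mem_OO {ℓ : ℕ} [Fact ℓ.Prime] (hℓN : ¬ ℓ ∣ N) {w : EField N ≃ₐ[ℚ] EField N}
    (hw : IsFricke w) (y : LaurentSeries ℚ) (hy : y ∈ EField N) (hyO : y ∈ OO ℓ) :
    ((w ⟨y, hy⟩ : EField N) : LaurentSeries ℚ) ∈ OO ℓ := by
  have hA1 : ∀ p, p.Prime → p ∣ N → ∀ [NeZero p], ModUnitPoly p := by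
    intro p hp _ _
    have := Fact.mk hp
    exact modUnitPoly p
  have hA2 : EFieldDep N (psiN N) := by rw [psiN_eq_dedekindPsi]; exact eFieldDep N
  have h1 := isIntegral_w w hw.1 hw.jq y hy (integral_AN hℓN hA1 hA2 w hw.1 hw.jq y hy hyO)
  apply mem_OO_of_isIntegral (EField_le_FracL (w ⟨y, hy⟩).2)
  obtain ⟨P, hP, hP0⟩ := h1
  let ι : A1 ℓ →+* OO ℓ := Subring.inclusion inf_le_left
  refine ⟨P.map ι, hP.map _, ?_⟩
  rw [Polynomial.eval₂_map]
  exact hP0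

theorem ιZ_aeval_sum {n : ℕ} (P : Fin n → ℤ[X]) (t : LaurentSeries ℤ) (v : Fin n → LaurentSeries ℤ) :
    ιZ (∑ i, Polynomial.aeval t (P i) * v i) =
      ∑ i, Polynomial.aeval (ιZ t) ((P i).map (Int.castRingHom ℚ)) * ιZ (v i) := by
  rw [map_sum]
  refine Finset.sum_congr rfl fun i _ => ?_
  rw [map_mul, aeval_ιZ]

/-- **(D1)**, characteristic `ℓ`. -/
theorem lower_charP (ℓ : ℕ) [Fact ℓ.Prime] (hℓN : ¬ ℓ ∣ N) :
    ∃ ω : Fin (dedekindPsi N) → LaurentSeries ℤ, (∀ i, ω i ∈ Submonoid.closure (YZ' N)) ∧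
      ¬ RelX (k := ZMod ℓ) (jqModC (ZMod ℓ)) (fun i => redZ (ZMod ℓ) (ω i)) := by
  obtain ⟨w, hww, hwr⟩ := exists_fricke N
  have hw : IsFricke w := ⟨hww, hwr⟩
  let κ := AlgebraicClosure (ZMod ℓ)
  have : CharP κ ℓ := charP_of_injective_algebraMap (algebraMap (ZMod ℓ) κ).injective ℓ
  have hNκ : (N : κ) ≠ 0 := by rw [Ne, CharP.cast_eq_zero_iff κ ℓ]; exact hℓN
  have hA1 : ∀ p, p.Prime → p ∣ N → ∀ [NeZero p], ModUnitPoly p := by
    intro p hp _ _
    have := Fact.mk hp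
    exact modUnitPoly p
  have hres := residual_basis (k := κ) (NeZero.ne N) hNκ hA1
  rw [← dedekindPsi_eq N (NeZero.ne N)] at hres
  obtain ⟨ω, hω, hli⟩ := hres
  choose ω' hω' hωω' using fun i => exists_transport hw (hω i)
  refine ⟨ω', hω', ?_⟩
  rintro ⟨Pb, ⟨i0, hi0⟩, hsum⟩
  -- lift the relation
  have hlift : ∀ i, ∃ Q : ℤ[X], Q.map (Int.castRingHom (ZMod ℓ)) = Pb i := fun i =>
    Polynomial.map_surjective _ (ZMod.ringHom_surjective _) (Pb i)
  choose Q hQ using hlift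
  set y : LaurentSeries ℤ := ∑ i, Polynomial.aeval (jqModC ℤ) (Q i) * ω' i with hy
  have hy0 : redZ (ZMod ℓ) y = 0 := by
    rw [hy, map_sum, ← hsum]
    refine Finset.sum_congr rfl fun i _ => ?_
    rw [map_mul, redZ_aeval, hQ i]
    congr 3
    exact coeffMap_jqModC _
  obtain ⟨z, hz⟩ := (redZ_eq_zero_iff ℓ (k := ZMod ℓ) y).mp hy0
  -- transport
  have hωE : ∀ i, ιZ (ω i) ∈ EField N := fun i => ιZ_closure_mem_EField (hω i)
  have hω'E : ∀ i, ιZ (ω' i) ∈ EField N := fun i => by rw [← hωω' i]; exact (w _).2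
  have hwx : ∀ i, w ⟨ιZ (ω i), hωE i⟩ = ⟨ιZ (ω' i), hω'E i⟩ := fun i => Subtype.ext (hωω' i)
  have htr := fricke_sum hw (fun i => (Q i).map (Int.castRingHom ℚ))
    (fun i => ⟨ιZ (ω i), hωE i⟩) (fun i => ⟨ιZ (ω' i), hω'E i⟩) hwx
  set X : EField N := ∑ i, Polynomial.aeval
    (⟨qExpand ℚ N (jqModC ℚ), qExpand_jq_mem_EField N N dvd_rfl⟩ : EField N)
      ((Q i).map (Int.castRingHom ℚ)) * ⟨ιZ (ω i), hωE i⟩ with hX
  set Y : EField N := ∑ i, Polynomial.aeval (⟨jqModC ℚ, jq_mem_EField N⟩ : EField N)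
      ((Q i).map (Int.castRingHom ℚ)) * ⟨ιZ (ω' i), hω'E i⟩ with hY
  set x : LaurentSeries ℤ := ∑ i, Polynomial.aeval (qExpand ℤ N (jqModC ℤ)) (Q i) * ω i with hx
  have hXx : (X : LaurentSeries ℚ) = ιZ x := by
    rw [hX, hx, ιZ_aeval_sum]
    push_cast
    refine Finset.sum_congr rfl fun i _ => ?_
    rw [aeval_coe_EField]
    have : ιZ (qExpand ℤ N (jqModC ℤ)) = qExpand ℚ N (jqModC ℚ) := by
      rw [coeffMap_qExpand, coeffMap_jqModC]
    rw [this]
  have hYy : (Y : LaurentSeries ℚ) = ιZ y := by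
    rw [hY, hy, ιZ_aeval_sum]
    push_cast
    refine Finset.sum_congr rfl fun i _ => ?_
    rw [aeval_coe_EField]
    have : ιZ (jqModC ℤ) = jqModC ℚ := coeffMap_jqModC _
    rw [this]
  have hl := natCast_ne_zero (ℓ := ℓ)
  have hzE : ιZ z ∈ EField N := by
    have h1 : ιZ z = (ℓ : LaurentSeries ℚ)⁻¹ * (Y : LaurentSeries ℚ) := by
      rw [hYy, hz, map_mul, map_natCast, ← mul_assoc, inv_mul_cancel₀ hl, one_mul]
    rw [h1]
    exact mul_mem (inv_mem (_root_.natCast_mem _ _)) Y.2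
  have h2 := fricke_mem_OO hℓN hw (ιZ z) hzE (ιZ_mem_OO ℓ z)
  have h3 : X = (ℓ : EField N) * w ⟨ιZ z, hzE⟩ := by
    have h4 : Y = (ℓ : EField N) * ⟨ιZ z, hzE⟩ := by
      apply Subtype.ext
      rw [hYy, hz, map_mul, map_natCast]
      push_cast
      rfl
    have h5 : w Y = X := by rw [← htr, hw.1]
    rw [← h5, h4, map_mul, map_natCast]
  have h4 : redZ (ZMod ℓ) x = 0 := by
    have h5 := rho_ιZ (ℓ := ℓ) (ZMod ℓ) x
    rw [← h5]
    rw [rho_eq_zero_iff]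
    refine ⟨⟨_, h2⟩, ?_⟩
    apply Subtype.ext
    have h6 := congrArg (fun u : EField N => (u : LaurentSeries ℚ)) h3
    refine hXx.symm.trans (h6.trans ?_)
    push_cast
    rfl
  -- contradiction with the linear independence of the reductions over `κ(j(q^N))`
  have h5 : redZ κ x = 0 := by
    have : redZ κ x = coeffMap (algebraMap (ZMod ℓ) κ) (redZ (ZMod ℓ) x) := by
      ext n
      simp
    rw [this, h4, map_zero]
  have h6 : ¬ RelX (k := κ) (JN κ N) (fun i => redZ κ (ω i)) := by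
    rw [relX_iff (transcendental_of_order (order_JN_neg (NeZero.ne N))), not_not]
    exact hli
  apply h6
  refine ⟨fun i => (Q i).map (Int.castRingHom κ), ⟨i0, ?_⟩, ?_⟩
  · intro h7
    apply hi0
    rw [← hQ i0]
    have h8 : ((Q i0).map (Int.castRingHom (ZMod ℓ))).map (algebraMap (ZMod ℓ) κ) = 0 := by
      rw [Polynomial.map_map, ← h7]
      congr 1
    exact (Polynomial.map_eq_zero_iff (algebraMap (ZMod ℓ) κ).injective).mp h8
  · rw [← h5, hx, map_sum]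
    refine Finset.sum_congr rfl fun i _ => ?_
    rw [map_mul, redZ_aeval, coeffMap_qExpand, coeffMap_jqModC, JN, qx_eq]

/-- transport of a `ℚ`-linear relation -/
theorem fricke_dep {w : EField N ≃ₐ[ℚ] EField N} {ι : Type*} [Fintype ι] (x y : ι → EField N)
    (hxy : ∀ i, w (x i) = y i) (h : Dep ℚ fun i => (y i : LaurentSeries ℚ)) :
    Dep ℚ fun i => (x i : LaurentSeries ℚ) := by
  obtain ⟨c, hc, hsum⟩ := h
  refine ⟨c, hc, ?_⟩
  have h1 : ∀ z : ι → EField N, ((∑ i, algebraMap ℚ (EField N) (c i) * z i : EField N) :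
      LaurentSeries ℚ) = ∑ i, HahnSeries.C (c i) * (z i : LaurentSeries ℚ) := by
    intro z
    have h0 : ∀ r : ℚ, ((algebraMap ℚ (EField N) r : EField N) : LaurentSeries ℚ) =
        HahnSeries.C r := fun r =>
      RingHom.congr_fun (Subsingleton.elim (((EField N).val : EField N →+* LaurentSeries ℚ).comp
        (algebraMap ℚ (EField N))) HahnSeries.C) r
    rw [AddSubmonoidClass.coe_finsetSum]
    refine Finset.sum_congr rfl fun i _ => ?_
    rw [← h0]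
    rfl
  have h2 : ∑ i, algebraMap ℚ (EField N) (c i) * y i = 0 := by
    apply Subtype.ext
    rw [h1]
    exact hsum
  have h3 : ∑ i, algebraMap ℚ (EField N) (c i) * x i = 0 := by
    apply w.injective
    rw [map_zero, ← h2, map_sum]
    refine Finset.sum_congr rfl fun i _ => ?_
    rw [map_mul, hxy, AlgEquiv.commutes]
  rw [← h1, h3]
  rfl

/-- **(D1)**, characteristic `0`. -/
theorem lower_char0 (N : ℕ) [NeZero N] :
    ∃ ω : Fin (dedekindPsi N) → LaurentSeries ℤ, (∀ i, ω i ∈ Submonoid.closure (YZ' N)) ∧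
      ∀ M : ℕ, ¬ Dep ℚ (fun x : Fin (dedekindPsi N) × Fin M =>
        jqModC ℚ ^ (x.2 : ℕ) * ιZ (ω x.1)) := by
  obtain ⟨w, hww, hwr⟩ := exists_fricke N
  have hw : IsFricke w := ⟨hww, hwr⟩
  let κ := AlgebraicClosure ℚ
  have hNκ : (N : κ) ≠ 0 := by exact_mod_cast NeZero.ne N
  have hA1 : ∀ p, p.Prime → p ∣ N → ∀ [NeZero p], ModUnitPoly p := by
    intro p hp _ _
    have := Fact.mk hp
    exact modUnitPoly p
  have hres := residual_basis (k := κ) (NeZero.ne N) hNκ hA1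
  rw [← dedekindPsi_eq N (NeZero.ne N)] at hres
  obtain ⟨ω, hω, hli⟩ := hres
  choose ω' hω' hωω' using fun i => exists_transport hw (hω i)
  refine ⟨ω', hω', ?_⟩
  intro M hdep
  have hωE : ∀ i, ιZ (ω i) ∈ EField N := fun i => ιZ_closure_mem_EField (hω i)
  have hω'E : ∀ i, ιZ (ω' i) ∈ EField N := fun i => by rw [← hωω' i]; exact (w _).2
  have hwx : ∀ i, w ⟨ιZ (ω i), hωE i⟩ = ⟨ιZ (ω' i), hω'E i⟩ := fun i => Subtype.ext (hωω' i)
  have hwJ : w ⟨qExpand ℚ N (jqModC ℚ), qExpand_jq_mem_EField N N dvd_rfl⟩ =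
      ⟨jqModC ℚ, jq_mem_EField N⟩ := by
    have h0 := hw.1 ⟨jqModC ℚ, jq_mem_EField N⟩
    have h1 : w ⟨jqModC ℚ, jq_mem_EField N⟩ =
      ⟨qExpand ℚ N (jqModC ℚ), qExpand_jq_mem_EField N N dvd_rfl⟩ := Subtype.ext hw.jq
    rw [← h1]; exact h0
  let X : Fin (dedekindPsi N) × Fin M → EField N := fun x =>
    ⟨qExpand ℚ N (jqModC ℚ), qExpand_jq_mem_EField N N dvd_rfl⟩ ^ (x.2 : ℕ) *
      ⟨ιZ (ω x.1), hωE x.1⟩
  let Y : Fin (dedekindPsi N) × Fin M → EField N := fun x =>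
    ⟨jqModC ℚ, jq_mem_EField N⟩ ^ (x.2 : ℕ) * ⟨ιZ (ω' x.1), hω'E x.1⟩
  have hXY : ∀ x, w (X x) = Y x := fun x => by
    simp only [X, Y]
    rw [map_mul, map_pow, hwJ, hwx]
  have hX : (fun x => (X x : LaurentSeries ℚ)) =
      fun x => (qExpand ℚ N (jqModC ℚ)) ^ (x.2 : ℕ) * ιZ (ω x.1) := by
    funext x
    rfl
  have hY : (fun x => (Y x : LaurentSeries ℚ)) =
      fun x => jqModC ℚ ^ (x.2 : ℕ) * ιZ (ω' x.1) := by
    funext x
    rfl
  have h1 := fricke_dep X Y hXY (by rw [hY]; exact hdep)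
  rw [hX] at h1
  have h2 := Dep.map (k := κ) h1
  have h6 : ¬ RelX (k := κ) (JN κ N) (fun i => redZ κ (ω i)) := by
    rw [relX_iff (transcendental_of_order (order_JN_neg (NeZero.ne N))), not_not]
    exact hli
  apply h6
  apply relX_of_dep (M := M)
  have h3 : (fun x : Fin (dedekindPsi N) × Fin M => coeffMap (algebraMap ℚ κ)
      ((qExpand ℚ N (jqModC ℚ)) ^ (x.2 : ℕ) * ιZ (ω x.1))) =
      fun x => JN κ N ^ (x.2 : ℕ) * redZ κ (ω x.1) := by
    funext x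
    rw [map_mul, map_pow, coeffMap_qExpand, coeffMap_jqModC, JN, qx_eq]
    congr 1
  rw [h3] at h2
  exact h2

end Fermat.Agent.Igusa
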