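import Mathlib
import Fermat.Agent.Igusa.DegBound
import Fermat.Agent.JLevelOne.Deriv

/-!
# The derivation `θ = q d/dq` on Laurent series, and `(θ j)^6 = Δ j^4 (j - 1728)^3`
-/

set_option autoImplicit false

noncomputable section

open UpperHalfPlane hiding I
open Complex HahnSeries ModularCurve ModularForm CongruenceSubgroup Derivative
open scoped Real MatrixGroups Topology Polynomial

namespace Fermat.Agent.Igusa

local notation "𝕢" => Function.Periodic.qParam

open Fermat.Agent.S28aux Fermat.Agent.JLevelOne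

section Alg

variable {R : Type*} [CommRing R]

/-- `θ f = q df/dq`. -/
def theta (f : LaurentSeries R) : LaurentSeries R where
  coeff n := (n : R) * f.coeff n
  isPWO_support' := f.isPWO_support.mono fun n hn h => hn (by simp only [h, mul_zero])

@[simp] theorem theta_coeff (f : LaurentSeries R) (n : ℤ) : (theta f).coeff n = n * f.coeff n := rfl

theorem support_theta_subset (f : LaurentSeries R) : (theta f).support ⊆ f.support :=
  fun n hn h => hn (by rw [theta_coeff, h, mul_zero])

theorem theta_add (f g : LaurentSeries R) : theta (f + g) = theta f + theta g := by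
  ext n; simp [mul_add]

theorem theta_zero : theta (0 : LaurentSeries R) = 0 := by ext n; simp

theorem theta_neg (f : LaurentSeries R) : theta (-f) = -theta f := by
  ext n; simp

theorem theta_sub (f g : LaurentSeries R) : theta (f - g) = theta f - theta g := by
  ext n; simp [mul_sub]

theorem theta_mul (f g : LaurentSeries R) : theta (f * g) = theta f * g + f * theta g := by
  ext n
  rw [theta_coeff, HahnSeries.coeff_add, HahnSeries.coeff_mul,
    HahnSeries.coeff_mul_left' f.isPWO_support (support_theta_subset f),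
    HahnSeries.coeff_mul_right' g.isPWO_support (support_theta_subset g),
    ← Finset.sum_add_distrib, Finset.mul_sum]
  refine Finset.sum_congr rfl fun x hx => ?_
  rw [Finset.mem_antidiagonal] at hx
  rw [theta_coeff, theta_coeff, ← hx.2.2]
  push_cast
  ring

theorem theta_single (k : ℤ) (c : R) : theta (HahnSeries.single k c) = HahnSeries.single k (k * c) := by
  ext n
  rw [theta_coeff]
  by_cases h : n = k
  · subst h; simp
  · rw [HahnSeries.coeff_single_of_ne h, HahnSeries.coeff_single_of_ne h, mul_zero]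

theorem theta_C (c : R) : theta (HahnSeries.C c) = 0 := by
  rw [HahnSeries.C_apply, theta_single]; simp

theorem theta_one : theta (1 : LaurentSeries R) = 0 := by
  rw [← map_one (HahnSeries.C (Γ := ℤ) (R := R)), theta_C]

/-- `θ` as an additive map -/
def thetaHom : LaurentSeries R →+ LaurentSeries R where
  toFun := theta
  map_zero' := theta_zero
  map_add' := theta_add

theorem theta_sum {ι : Type*} (s : Finset ι) (f : ι → LaurentSeries R) :
    theta (∑ i ∈ s, f i) = ∑ i ∈ s, theta (f i) :=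
  map_sum (thetaHom (R := R)) f s

theorem theta_pow (f : LaurentSeries R) (n : ℕ) : theta (f ^ n) = n * f ^ (n - 1) * theta f := by
  induction n with
  | zero => rw [pow_zero, theta_one]; simp
  | succ n ih =>
    rw [pow_succ, theta_mul, ih, Nat.add_sub_cancel]
    rcases n with _ | n
    · simp
    · rw [Nat.add_sub_cancel, pow_succ]
      push_cast
      ring

theorem coeffMap_theta {S : Type*} [CommRing S] (φ : R →+* S) (f : LaurentSeries R) :
    coeffMap φ (theta f) = theta (coeffMap φ f) := by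
  ext n; simp

theorem natCast_mul_coeff (d : ℕ) (x : LaurentSeries R) (n : ℤ) :
    ((d : LaurentSeries R) * x).coeff n = d * x.coeff n := by
  rw [← map_natCast (HahnSeries.C (Γ := ℤ) (R := R)), HahnSeries.C_mul_eq_smul,
    HahnSeries.coeff_smul, smul_eq_mul]

theorem theta_qExpand (d : ℕ) [NeZero d] (f : LaurentSeries R) :
    theta (qExpand R d f) = (d : LaurentSeries R) * qExpand R d (theta f) := by
  ext n
  rw [theta_coeff, natCast_mul_coeff]
  by_cases h : (d : ℤ) ∣ n
  · obtain ⟨c, rfl⟩ := h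
    rw [qExpand_coeff_mul, qExpand_coeff_mul, theta_coeff]
    push_cast
    ring
  · rw [qExpand_coeff_of_not_dvd d _ h, qExpand_coeff_of_not_dvd d _ h, mul_zero, mul_zero]

end Alg

/-- Termwise differentiation. -/
theorem HasLExp.D {F : ℍ → ℂ} {f : LaurentSeries ℂ} (hF : HasLExp F f) : HasLExp (D F) (theta f) := by
  intro τ
  have hy : 0 < τ.im := τ.im_pos
  let τ₁ : ℍ := ⟨(τ.im / 2 : ℝ) * Complex.I, by simpa using hy⟩
  let τ₂ : ℍ := ⟨(2 * τ.im : ℝ) * Complex.I, by simpa using hy⟩
  have hnorm : ∀ w : ℂ, ‖𝕢 1 w‖ = Real.exp (-2 * π * w.im) := by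
    intro w
    rw [Function.Periodic.norm_qParam]
    simp
  set r₁ : ℝ := ‖𝕢 1 (τ₁ : ℂ)‖ with hr₁
  set r₂ : ℝ := ‖𝕢 1 (τ₂ : ℂ)‖ with hr₂
  have h1 : Summable fun n : ℤ => ‖f.coeff n‖ * r₁ ^ n := by
    have := (hF τ₁).summable.norm
    refine this.congr fun n => ?_
    rw [norm_mul, norm_zpow]
  have h2 : Summable fun n : ℤ => ‖f.coeff n‖ * r₂ ^ n := by
    have := (hF τ₂).summable.norm
    refine this.congr fun n => ?_
    rw [norm_mul, norm_zpow]
  have hr₁0 : 0 < r₁ := by rw [hr₁, hnorm]; exact Real.exp_pos _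
  have hr₂0 : 0 < r₂ := by rw [hr₂, hnorm]; exact Real.exp_pos _
  set U : Set ℂ := {w | τ.im / 2 < w.im ∧ w.im < 2 * τ.im} with hU
  have hUo : IsOpen U := by
    rw [hU]
    exact (isOpen_lt continuous_const Complex.continuous_im).inter
      (isOpen_lt Complex.continuous_im continuous_const)
  have hτU : (τ : ℂ) ∈ U := by
    constructor
    · change τ.im / 2 < τ.im; linarith
    · change τ.im < 2 * τ.im; linarith
  set G : ℤ → ℂ → ℂ := fun n w => f.coeff n * 𝕢 1 w ^ n with hG
  have hq : ∀ w : ℂ, 𝕢 1 w ≠ 0 := fun w => Function.Periodic.qParam_ne_zero _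
  have hderiv : ∀ (n : ℤ) (w : ℂ),
      HasDerivAt (G n) (f.coeff n * (n * 𝕢 1 w ^ (n - 1) * (2 * π * Complex.I * 𝕢 1 w))) w := by
    intro n w
    have h3 := (hasDerivAt_zpow n (𝕢 1 w) (Or.inl (hq w))).comp w (hasDerivAt_qParam_one w)
    exact h3.const_mul _
  have hdiff : ∀ n : ℤ, DifferentiableOn ℂ (G n) U := fun n w _ =>
    (hderiv n w).differentiableAt.differentiableWithinAt
  have hle : ∀ (n : ℤ) (w : ℂ), w ∈ U → ‖G n w‖ ≤ ‖f.coeff n‖ * r₁ ^ n + ‖f.coeff n‖ * r₂ ^ n := by
    intro n w hw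
    rw [hG]
    simp only [norm_mul, norm_zpow]
    rw [← mul_add]
    apply mul_le_mul_of_nonneg_left _ (norm_nonneg _)
    have hwle : ‖𝕢 1 w‖ ≤ r₁ := by
      rw [hr₁, hnorm, hnorm]
      apply Real.exp_le_exp.mpr
      have h3 : (τ₁ : ℂ).im = τ.im / 2 := by
        change (((τ.im / 2 : ℝ) : ℂ) * Complex.I).im = _
        simp
      rw [h3]
      nlinarith [Real.pi_pos, hw.1]
    have hwge : r₂ ≤ ‖𝕢 1 w‖ := by
      rw [hr₂, hnorm, hnorm]
      apply Real.exp_le_exp.mpr
      have h3 : (τ₂ : ℂ).im = 2 * τ.im := by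
        change (((2 * τ.im : ℝ) : ℂ) * Complex.I).im = _
        simp
      rw [h3]
      nlinarith [Real.pi_pos, hw.2]
    rcases le_or_gt 0 n with hn | hn
    · have h4 : ‖𝕢 1 w‖ ^ n ≤ r₁ ^ n := zpow_le_zpow_left₀ hn (norm_nonneg _) hwle
      have h5 : 0 ≤ r₂ ^ n := (zpow_pos hr₂0 n).le
      linarith
    · have h4 : ‖𝕢 1 w‖ ^ n ≤ r₂ ^ n := by
        obtain ⟨m, rfl⟩ : ∃ m : ℕ, n = -(m : ℤ) := ⟨n.natAbs, by omega⟩
        rw [zpow_neg, zpow_neg, zpow_natCast, zpow_natCast]
        exact inv_anti₀ (pow_pos hr₂0 m) (pow_le_pow_left₀ hr₂0.le hwge m)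
      have h5 : 0 ≤ r₁ ^ n := (zpow_pos hr₁0 n).le
      linarith
  have key := Complex.hasSum_deriv_of_summable_norm (h1.add h2) hdiff hUo hle hτU
  have hsum : ∀ w ∈ U, (F ∘ ofComplex) w = ∑' n : ℤ, G n w := by
    intro w hw
    have hw0 : 0 < w.im := by
      have := hw.1
      linarith
    rw [Function.comp_apply, ofComplex_apply_of_im_pos hw0]
    exact ((hF ⟨w, hw0⟩).tsum_eq).symm
  have hd : deriv (F ∘ ofComplex) (τ : ℂ) = deriv (fun w : ℂ => ∑' n : ℤ, G n w) (τ : ℂ) := by
    apply Filter.EventuallyEq.deriv_eq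
    filter_upwards [hUo.mem_nhds hτU] with w hw
    exact hsum w hw
  rw [← hd] at key
  have key2 := key.mul_left ((2 * π * Complex.I : ℂ)⁻¹)
  have hD : Derivative.normalizedDerivOfComplex F τ =
      (2 * π * Complex.I : ℂ)⁻¹ * deriv (F ∘ ofComplex) (τ : ℂ) := rfl
  have hfun : (fun n : ℤ => (2 * π * Complex.I : ℂ)⁻¹ * deriv (G n) (τ : ℂ)) =
      fun n : ℤ => (theta f).coeff n * 𝕢 1 (τ : ℂ) ^ n := by
    funext n
    rw [(hderiv n (τ : ℂ)).deriv, theta_coeff]
    have h6 := Complex.two_pi_I_ne_zero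
    rw [zpow_sub_one₀ (hq _)]
    have h7 := hq (τ : ℂ)
    field_simp
  rw [hD, ← hfun]
  exact key2

/-- `(D j)^6 = Δ j^4 (j - 1728)^3`. -/
theorem D_jFun_pow_six (τ : ℍ) :
    (D jFun τ) ^ 6 = discriminant τ * jFun τ ^ 4 * (jFun τ - 1728) ^ 3 := by
  have h0 := discriminant_ne_zero τ
  rw [D_jFun, jFun_sub_1728, jFun]
  field_simp

theorem theta_jq_pow_six_complex : theta (jqModC ℂ) ^ 6 =
    deltaC ℂ * jqModC ℂ ^ 4 * (jqModC ℂ - HahnSeries.C 1728) ^ 3 := by
  have h1 := (hasLExp_jFun.D).pow 6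
  have h2 := (hasLExp_discriminant.mul (hasLExp_jFun.pow 4)).mul
    ((hasLExp_jFun.sub (HasLExp.const 1728)).pow 3)
  exact h1.unique (h2.congr fun τ => (D_jFun_pow_six τ).symm)

/-- **(A5)** `(θ j)^6 = Δ j^4 (j - 1728)^3` over any ring. -/
theorem theta_jq_pow_six (R : Type*) [CommRing R] : theta (jqModC R) ^ 6 =
    deltaC R * jqModC R ^ 4 * (jqModC R - 1728) ^ 3 := by
  have h1 : theta (jqModC ℤ) ^ 6 = deltaC ℤ * jqModC ℤ ^ 4 * (jqModC ℤ - 1728) ^ 3 := by
    apply coeffMap_injective (f := Int.castRingHom ℂ) (RingHom.injective_int _)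
    rw [map_pow, coeffMap_theta, coeffMap_jqModC, map_mul, map_mul, map_pow, map_pow, map_sub,
      coeffMap_deltaC, coeffMap_jqModC, theta_jq_pow_six_complex, map_ofNat, map_ofNat]
  have h2 := congrArg (coeffMap (Int.castRingHom R)) h1
  rw [map_pow, coeffMap_theta, coeffMap_jqModC, map_mul, map_mul, map_pow, map_pow, map_sub,
      coeffMap_deltaC, coeffMap_jqModC, map_ofNat] at h2
  exact h2

theorem theta_jq_ne_zero (R : Type*) [CommRing R] [Nontrivial R] : theta (jqModC R) ≠ 0 := by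
  intro h
  have := congrArg (fun x : LaurentSeries R => x.coeff (-1)) h
  simp only [theta_coeff, coeff_jqModC_neg_one, HahnSeries.coeff_zero] at this
  simp at this

end Fermat.Agent.Igusa
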