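import Mathlib
import Fermat.Agent.Igusa.Theta
import Fermat.Agent.S28_Residual

/-!
# Separability of `k((q))` over `k(j)` and stability of subfields under `θ / θ j`
-/

set_option autoImplicit false

noncomputable section

open HahnSeries ModularCurve IntermediateField
open scoped Polynomial IntermediateField

namespace Fermat.Agent.Igusa

open Fermat.Agent.S28aux

variable {k : Type*} [Field k]

theorem theta_algebraMap (c : k) : theta (algebraMap k (LaurentSeries k) c) = 0 := by
  rw [algebraMap_laurentSeries_eq_single, theta_single]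
  simp

theorem theta_eval (P : (LaurentSeries k)[X]) (x : LaurentSeries k) :
    theta (P.eval x) = (∑ i ∈ Finset.range (P.natDegree + 1), theta (P.coeff i) * x ^ i) +
      (Polynomial.derivative P).eval x * theta x := by
  rw [Polynomial.eval_eq_sum_range, theta_sum, Polynomial.derivative_eval,
    Polynomial.sum_over_range _ (by simp), Finset.sum_mul, ← Finset.sum_add_distrib]
  refine Finset.sum_congr rfl fun i _ => ?_
  rw [theta_mul, theta_pow]
  ring

theorem theta_aeval (P : k[X]) (x : LaurentSeries k) :
    theta (Polynomial.aeval x P) = Polynomial.aeval x (Polynomial.derivative P) * theta x := by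
  rw [Polynomial.aeval_def, ← Polynomial.eval_map, theta_eval, Polynomial.aeval_def,
    ← Polynomial.eval_map, Polynomial.derivative_map]
  rw [Finset.sum_eq_zero, zero_add]
  intro i _
  rw [Polynomial.coeff_map, theta_algebraMap, zero_mul]

theorem theta_div (a b : LaurentSeries k) (hb : b ≠ 0) :
    theta (a / b) = (theta a * b - a * theta b) / b ^ 2 := by
  have h1 : theta (a / b * b) = theta a := by rw [div_mul_cancel₀ _ hb]
  rw [theta_mul] at h1
  field_simp
  field_simp at h1
  linear_combination h1

/-- The field `k(t)` is stable under `θ/θt`. -/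
theorem theta_div_mem_adjoin {t : LaurentSeries k} (ht : theta t ≠ 0) {x : LaurentSeries k}
    (hx : x ∈ k⟮t⟯) : theta x / theta t ∈ k⟮t⟯ := by
  rw [mem_adjoin_simple_iff] at hx
  obtain ⟨r, s, rfl⟩ := hx
  by_cases hs : Polynomial.aeval t s = 0
  · rw [hs, div_zero, theta_zero, zero_div]; exact zero_mem _
  · rw [theta_div _ _ hs, theta_aeval, theta_aeval, mem_adjoin_simple_iff]
    refine ⟨Polynomial.derivative r * s - r * Polynomial.derivative s, s ^ 2, ?_⟩
    simp only [map_sub, map_mul, map_pow]
    field_simp

theorem exists_pth_root (p : ℕ) [Fact p.Prime] [CharP k p] [PerfectRing k p] {g : k[X]}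
    (hg : Polynomial.derivative g = 0) : ∃ h : k[X], h ^ p = g := by
  refine ⟨(Polynomial.contract p g).map (frobeniusEquiv k p).symm.toRingHom, ?_⟩
  have h1 := Polynomial.expand_contract p hg (Fact.out : p.Prime).ne_zero
  have h2 := Polynomial.map_frobenius_expand (R := k) p
    ((Polynomial.contract p g).map (frobeniusEquiv k p).symm.toRingHom)
  rw [← h2, Polynomial.map_expand, Polynomial.map_map]
  have h3 : (frobenius k p).comp (frobeniusEquiv k p).symm.toRingHom = RingHom.id k := by
    ext x
    exact (frobeniusEquiv k p).apply_symm_apply x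
  rw [h3, Polynomial.map_id, h1]

/-- An element of `k(t)` killed by `θ` is a `p`-th power. -/
theorem exists_pth_root_of_theta (p : ℕ) [Fact p.Prime] [CharP k p] [PerfectRing k p]
    {t : LaurentSeries k} (ht : theta t ≠ 0) (htr : Transcendental k t) {x : LaurentSeries k}
    (hx : x ∈ k⟮t⟯) (h0 : theta x = 0) : ∃ y ∈ k⟮t⟯, y ^ p = x := by
  have hp0 : (p : LaurentSeries k) = 0 := by
    rw [← map_natCast (algebraMap k (LaurentSeries k)), CharP.cast_eq_zero, map_zero]
  rw [mem_adjoin_simple_iff] at hx
  obtain ⟨r, s, rfl⟩ := hx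
  by_cases hs : Polynomial.aeval t s = 0
  · exact ⟨0, zero_mem _, by rw [hs, div_zero, zero_pow (Fact.out : p.Prime).ne_zero]⟩
  set x := Polynomial.aeval t r / Polynomial.aeval t s with hx
  have h1 : Polynomial.aeval t (r * s ^ (p - 1)) = x * Polynomial.aeval t s ^ p := by
    rw [map_mul, map_pow, hx]
    have h2 : Polynomial.aeval t s ^ p = Polynomial.aeval t s * Polynomial.aeval t s ^ (p - 1) := by
      rw [← pow_succ', Nat.sub_add_cancel (Fact.out : p.Prime).one_le]
    rw [h2]
    field_simp
  have h3 : theta (Polynomial.aeval t (r * s ^ (p - 1))) = 0 := by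
    rw [h1, theta_mul, h0, theta_pow, hp0]
    ring
  rw [theta_aeval] at h3
  have h4 := (mul_eq_zero.mp h3).resolve_right ht
  obtain ⟨h, hh⟩ := exists_pth_root p (transcendental_iff.mp htr _ h4)
  refine ⟨Polynomial.aeval t h / Polynomial.aeval t s, ?_, ?_⟩
  · rw [mem_adjoin_simple_iff]; exact ⟨h, s, rfl⟩
  · rw [div_pow, ← map_pow, hh, h1]
    field_simp

/-- `k((q))` is separable over `k(t)` if `θ t ≠ 0` and `k` is perfect of characteristic `p`. -/
theorem separable_minpoly_aux (p : ℕ) [Fact p.Prime] [CharP k p] [PerfectRing k p]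
    {t : LaurentSeries k} (ht : theta t ≠ 0) (htr : Transcendental k t)
    (K : IntermediateField k (LaurentSeries k)) (hK : K = k⟮t⟯) {y : LaurentSeries k}
    (hy : IsIntegral K y) : (minpoly K y).Separable := by
  have hirr := minpoly.irreducible hy
  rw [Polynomial.separable_iff_derivative_ne_zero hirr]
  intro hder
  have hmem' : ∀ c ∈ K, theta c / theta t ∈ K := by
    rw [hK]
    exact fun c hc => theta_div_mem_adjoin ht hc
  have hmem : ∀ c : K, theta (c : LaurentSeries k) / theta t ∈ K := fun c => hmem' _ c.2
  set P := minpoly K y with hP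
  have hmonic : P.Monic := minpoly.monic hy
  have : CharP K p := charP_of_injective_algebraMap (algebraMap k K).injective p
  -- apply `θ` to the relation
  have h1 : ∑ i ∈ Finset.range (P.natDegree + 1),
      theta (P.coeff i : LaurentSeries k) * y ^ i = 0 := by
    have h2 := theta_eval (P.map (algebraMap K (LaurentSeries k))) y
    rw [Polynomial.eval_map, ← Polynomial.aeval_def, hP, minpoly.aeval, ← hP, theta_zero,
      Polynomial.derivative_map, hder, Polynomial.map_zero, Polynomial.eval_zero, zero_mul,
      add_zero, Polynomial.natDegree_map] at h2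
    rw [h2]
    refine Finset.sum_congr rfl fun i _ => ?_
    rw [Polynomial.coeff_map]
    rfl
  set Q : K[X] := ∑ i ∈ Finset.range (P.natDegree + 1), Polynomial.monomial i
    (⟨theta (P.coeff i : LaurentSeries k) / theta t, hmem _⟩ : K) with hQ
  have hQc : ∀ i, i < P.natDegree + 1 → ((Q.coeff i : K) : LaurentSeries k) =
      theta (P.coeff i : LaurentSeries k) / theta t := by
    intro i hi
    rw [hQ, Polynomial.finsetSum_coeff, Finset.sum_eq_single i]
    · rw [Polynomial.coeff_monomial, if_pos rfl]
    · intro j _ hji
      rw [Polynomial.coeff_monomial, if_neg hji]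
    · intro hn
      exact absurd (Finset.mem_range.mpr hi) hn
  have hQ0 : Polynomial.aeval y Q = 0 := by
    rw [hQ, map_sum]
    have h2 : ∀ i ∈ Finset.range (P.natDegree + 1),
        Polynomial.aeval y (Polynomial.monomial i
          (⟨theta (P.coeff i : LaurentSeries k) / theta t, hmem _⟩ : K)) =
        (theta (P.coeff i : LaurentSeries k) * y ^ i) * (theta t)⁻¹ := by
      intro i _
      rw [Polynomial.aeval_monomial]
      change theta (P.coeff i : LaurentSeries k) / theta t * y ^ i = _
      rw [div_eq_mul_inv]
      ring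
    rw [Finset.sum_congr rfl h2, ← Finset.sum_mul, h1, zero_mul]
  have hQdeg : Q = 0 := by
    by_contra hne
    have h2 := minpoly.degree_le_of_ne_zero K y hne hQ0
    rw [← hP] at h2
    have h3 : Q.degree < P.degree := by
      rw [Polynomial.degree_eq_natDegree hmonic.ne_zero, Polynomial.degree_lt_iff_coeff_zero]
      intro m hm
      rcases eq_or_lt_of_le hm with rfl | hm
      · apply Subtype.ext
        rw [hQc _ (Nat.lt_succ_self _), hmonic.coeff_natDegree]
        have : theta ((1 : K) : LaurentSeries k) = 0 := theta_one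
        rw [this, zero_div]
        rfl
      · rw [hQ, Polynomial.finsetSum_coeff]
        apply Finset.sum_eq_zero
        intro j hj
        rw [Finset.mem_range] at hj
        rw [Polynomial.coeff_monomial, if_neg (by omega)]
    exact absurd h2 (not_le.mpr h3)
  have hroot : ∀ i, ∃ b : K, b ^ p = P.coeff i := by
    intro i
    by_cases hi : i < P.natDegree + 1
    · have h2 := hQc i hi
      rw [hQdeg, Polynomial.coeff_zero] at h2
      have h3 : theta (P.coeff i : LaurentSeries k) = 0 := by
        have h4 : (0 : LaurentSeries k) = theta (P.coeff i : LaurentSeries k) / theta t := h2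
        rcases div_eq_zero_iff.mp h4.symm with h | h
        · exact h
        · exact absurd h ht
      obtain ⟨b, hb, hbp⟩ := exists_pth_root_of_theta p ht htr (hK ▸ (P.coeff i).2 :
        (P.coeff i : LaurentSeries k) ∈ k⟮t⟯) h3
      exact ⟨⟨b, hK ▸ hb⟩, Subtype.ext hbp⟩
    · refine ⟨0, ?_⟩
      rw [zero_pow (Fact.out : p.Prime).ne_zero, Polynomial.coeff_eq_zero_of_natDegree_lt (by omega)]
  choose b hb using hroot
  -- `P` is a `p`-th power
  set R : K[X] := ∑ i ∈ Finset.range (P.natDegree + 1), Polynomial.monomial i (b (i * p)) with hR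
  have hRP : R ^ p = P := by
    rw [← Polynomial.map_frobenius_expand (R := K) p, Polynomial.map_expand]
    rw [← Polynomial.expand_contract p hder (Fact.out : p.Prime).ne_zero]
    congr 1
    ext i
    rw [Polynomial.coeff_map, Polynomial.coeff_contract (Fact.out : p.Prime).ne_zero]
    by_cases hi : i < P.natDegree + 1
    · have h2 : R.coeff i = b (i * p) := by
        rw [hR, Polynomial.finsetSum_coeff, Finset.sum_eq_single i]
        · rw [Polynomial.coeff_monomial, if_pos rfl]
        · intro j _ hji
          rw [Polynomial.coeff_monomial, if_neg hji]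
        · intro hn
          exact absurd (Finset.mem_range.mpr hi) hn
      rw [h2, frobenius_def, hb]
    · have h2 : R.coeff i = 0 := by
        rw [hR, Polynomial.finsetSum_coeff]
        apply Finset.sum_eq_zero
        intro j hj
        rw [Finset.mem_range] at hj
        rw [Polynomial.coeff_monomial, if_neg (by omega)]
      rw [h2, map_zero, Polynomial.coeff_eq_zero_of_natDegree_lt]
      have := (Fact.out : p.Prime).one_le
      nlinarith
  rw [← hRP] at hirr
  exact not_irreducible_pow (Fact.out : p.Prime).ne_one hirr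

theorem separable_minpoly_of_charP (p : ℕ) [Fact p.Prime] [CharP k p] [PerfectRing k p]
    {t : LaurentSeries k} (ht : theta t ≠ 0) (htr : Transcendental k t) {y : LaurentSeries k}
    (hy : IsIntegral k⟮t⟯ y) : (minpoly k⟮t⟯ y).Separable :=
  separable_minpoly_aux p ht htr _ rfl hy

theorem separable_minpoly [PerfectField k] {t : LaurentSeries k} (ht : theta t ≠ 0)
    (htr : Transcendental k t) {y : LaurentSeries k} (hy : IsIntegral k⟮t⟯ y) :
    (minpoly k⟮t⟯ y).Separable := by
  obtain ⟨p, hp⟩ := ExpChar.exists k
  rcases hp with _ | ⟨hprime⟩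
  · have : CharZero k⟮t⟯ := charZero_of_injective_algebraMap (algebraMap k k⟮t⟯).injective
    exact (minpoly.irreducible hy).separable
  · have := Fact.mk hprime
    exact separable_minpoly_of_charP p ht htr hy

/-- A subfield `F ∋ t` of `k((q))` is stable under `θ/θt` on elements algebraic over `k(t)`. -/
theorem theta_div_mem [PerfectField k] {t : LaurentSeries k} (ht : theta t ≠ 0)
    (htr : Transcendental k t) (F : IntermediateField k (LaurentSeries k)) (htF : t ∈ F)
    {y : LaurentSeries k} (hyF : y ∈ F) (hy : IsIntegral k⟮t⟯ y) : theta y / theta t ∈ F := by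
  have hsep := separable_minpoly ht htr hy
  set P := minpoly k⟮t⟯ y with hP
  have hKF : k⟮t⟯ ≤ F := by rwa [adjoin_simple_le_iff]
  have hd : Polynomial.aeval y (Polynomial.derivative P) ≠ 0 :=
    hsep.aeval_derivative_ne_zero (by rw [hP]; exact minpoly.aeval _ _)
  have h2 := theta_eval (P.map (algebraMap k⟮t⟯ (LaurentSeries k))) y
  rw [Polynomial.eval_map, ← Polynomial.aeval_def, hP, minpoly.aeval, ← hP, theta_zero,
      Polynomial.derivative_map, Polynomial.eval_map, ← Polynomial.aeval_def] at h2
  have h3 : theta y / theta t = -(∑ i ∈ Finset.range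
      ((P.map (algebraMap k⟮t⟯ (LaurentSeries k))).natDegree + 1),
      theta ((P.map (algebraMap k⟮t⟯ (LaurentSeries k))).coeff i) / theta t * y ^ i) /
      Polynomial.aeval y (Polynomial.derivative P) := by
    have h4 : ∑ i ∈ Finset.range ((P.map (algebraMap k⟮t⟯ (LaurentSeries k))).natDegree + 1),
      theta ((P.map (algebraMap k⟮t⟯ (LaurentSeries k))).coeff i) / theta t * y ^ i =
      (∑ i ∈ Finset.range ((P.map (algebraMap k⟮t⟯ (LaurentSeries k))).natDegree + 1),
      theta ((P.map (algebraMap k⟮t⟯ (LaurentSeries k))).coeff i) * y ^ i) / theta t := by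
      rw [Finset.sum_div]
      refine Finset.sum_congr rfl fun i _ => ?_
      ring
    rw [h4]
    field_simp
    linear_combination -h2
  rw [h3]
  refine F.div_mem (F.neg_mem (F.sum_mem fun i _ => F.mul_mem ?_ (F.pow_mem hyF i))) ?_
  · apply hKF
    rw [Polynomial.coeff_map]
    exact theta_div_mem_adjoin ht (P.coeff i).2
  · rw [Polynomial.aeval_def, Polynomial.eval₂_eq_sum_range]
    exact F.sum_mem fun i _ => F.mul_mem
      (hKF ((Polynomial.derivative P).coeff i).2) (F.pow_mem hyF i)

end Fermat.Agent.Igusa
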