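import Mathlib
import Fermat.Agent.Igusa.Lower
import Fermat.Agent.Igusa.Separable

/-!
# The degree theorem `[k(X₀(N)) : k(j)] = ψ(N)` for every field `k` with `N ≠ 0` in `k`
-/

set_option autoImplicit false

noncomputable section

open HahnSeries ModularCurve IntermediateField
open scoped Polynomial IntermediateField

namespace Fermat.Agent.Igusa

open Fermat.Agent.S28aux

variable {k : Type*} [Field k]

theorem coeffMap_redZ {k₀ : Type*} [Field k₀] [Algebra k₀ k] (x : LaurentSeries ℤ) :
    coeffMap (algebraMap k₀ k) (redZ k₀ x) = redZ k x := by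
  ext n
  simp

theorem transcendental_jq (k : Type*) [Field k] : Transcendental k (jqModC k) :=
  transcendental_of_order (by rw [order_jqModC]; norm_num)

/-- **(D1)** for every field. -/
theorem lower (N : ℕ) [NeZero N] (k : Type*) [Field k] (hN : (N : k) ≠ 0) :
    ∃ ω : Fin (dedekindPsi N) → LaurentSeries ℤ, (∀ i, ω i ∈ Submonoid.closure (YZ' N)) ∧
      ¬ RelX (k := k) (jqModC k) (fun i => redZ k (ω i)) := by
  obtain ⟨ℓ, hℓ⟩ := CharP.exists k
  rcases CharP.char_is_prime_or_zero k ℓ with hp | rfl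
  · have := Fact.mk hp
    have hℓN : ¬ ℓ ∣ N := by
      rw [← CharP.cast_eq_zero_iff k ℓ]; exact hN
    obtain ⟨ω, h1, h2⟩ := lower_charP (N := N) ℓ hℓN
    refine ⟨ω, h1, fun h3 => h2 ?_⟩
    let _ : Algebra (ZMod ℓ) k := ZMod.algebra k ℓ
    apply RelX.descend (k := k)
    rw [coeffMap_jqModC]
    simp only [coeffMap_redZ]
    exact h3
  · have : CharZero k := CharP.charP_to_charZero k
    obtain ⟨ω, h1, h2⟩ := lower_char0 N
    refine ⟨ω, h1, fun h3 => ?_⟩
    obtain ⟨M, h4⟩ := dep_of_relX h3
    apply h2 M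
    apply Dep.descend (k := k)
    have h5 : (fun x : Fin (dedekindPsi N) × Fin M => coeffMap (algebraMap ℚ k)
        (jqModC ℚ ^ (x.2 : ℕ) * ιZ (ω x.1))) =
        fun x => jqModC k ^ (x.2 : ℕ) * redZ k (ω x.1) := by
      funext x
      rw [map_mul, map_pow, coeffMap_jqModC]
      congr 1
      ext n
      simp
    rw [h5]
    exact h4

/-- the coefficient map sends function fields into each other. -/
theorem coeffMap_mem_full {k₀ : Type*} [Field k₀] (f : k₀ →+* k) (N : ℕ) {x : LaurentSeries k₀}
    (hx : x ∈ modularFunctionFieldFullC k₀ N) : coeffMap f x ∈ modularFunctionFieldFullC k N := by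
  rw [modularFunctionFieldFullC] at hx
  induction hx using IntermediateField.adjoin_induction with
  | mem x hx =>
    obtain ⟨d, hd0, hd, rfl⟩ := hx
    rw [coeffMap_qExpand, coeffMap_jqModC]
    exact jqModCd_mem_full k N hd
  | algebraMap c =>
    rw [algebraMap_laurent, coeffMap_C, ← algebraMap_laurent]
    exact IntermediateField.algebraMap_mem _ _
  | add x y hx hy ihx ihy => rw [map_add]; exact add_mem ihx ihy
  | inv x hx ihx => rw [map_inv₀]; exact inv_mem ihx
  | mul x y hx hy ihx ihy => rw [map_mul]; exact mul_mem ihx ihy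

/-- `j(q^d)` is integral over `k(j)`. -/
theorem isIntegral_jqd (N : ℕ) [NeZero N] (d : ℕ) [NeZero d] (hd : d ∣ N) :
    IsIntegral k⟮jqModC k⟯ (qExpand k d (jqModC k)) := by
  have h1 := relX_of_mem_EField N k (fun i => qExpand ℤ d (jqModC ℤ) ^ (i : ℕ)) (by
    intro i
    rw [map_pow, coeffMap_qExpand, coeffMap_jqModC]
    exact pow_mem (qExpand_jq_mem_EField N d hd) _)
  simp only [map_pow, coeffMap_qExpand, coeffMap_jqModC] at h1
  exact isIntegral_of_relX (transcendental_jq k) h1

theorem jqd_sub_C_ne_zero (d : ℕ) [NeZero d] (c : k) :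
    qExpand k d (jqModC k) - HahnSeries.C c ≠ 0 := by
  intro h
  have h1 : (qExpand k d (jqModC k)).order = -(d : ℤ) := by
    rw [order_qExpand, order_jqModC]; ring
  have h2 : qExpand k d (jqModC k) = HahnSeries.C c := sub_eq_zero.mp h
  rw [h2, HahnSeries.order_C] at h1
  have : (d : ℤ) ≠ 0 := by exact_mod_cast NeZero.ne d
  omega

/-- `Δ(q^d)/Δ(q)` lies in the function field of `X₀(N)`, `k` perfect. -/
theorem deltaRatio_mem_perfect [PerfectField k] (N : ℕ) [NeZero N] (d : ℕ) [NeZero d] (hd : d ∣ N)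
    (hdk : (d : k) ≠ 0) :
    qExpand k d (deltaC k) * deltaInvC k ∈ modularFunctionFieldFullC k N := by
  have hθ := theta_jq_ne_zero k
  have hx := theta_div_mem hθ (transcendental_jq k) (modularFunctionFieldFullC k N)
    (jqModC_mem_full k N) (jqModCd_mem_full k N hd) (isIntegral_jqd N d hd)
  set F := modularFunctionFieldFullC k N with hF
  set jd := qExpand k d (jqModC k) with hjd
  set j := jqModC k with hj
  have hjF : j ∈ F := jqModC_mem_full k N
  have hjdF : jd ∈ F := jqModCd_mem_full k N hd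
  have h1728 : ∀ x : LaurentSeries k, x - 1728 = x - HahnSeries.C 1728 := fun x => by
    rw [map_ofNat]
  have hcF : (1728 : LaurentSeries k) ∈ F := by
    have := _root_.natCast_mem F 1728
    exact_mod_cast this
  -- sixth powers
  have h6 : (theta jd / theta j) ^ 6 = (d : LaurentSeries k) ^ 6 *
      (qExpand k d (deltaC k) * jd ^ 4 * (jd - 1728) ^ 3) / (deltaC k * j ^ 4 * (j - 1728) ^ 3) := by
    rw [div_pow, hj, theta_jq_pow_six, hjd, theta_qExpand, mul_pow, ← map_pow, theta_jq_pow_six,
      map_mul, map_mul, map_pow, map_pow, map_sub, map_ofNat]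
  have hj0 : j ≠ 0 := jqModC_ne_zero_of_nontrivial k
  have hjd0 : jd ≠ 0 := qExpand_ne_zero d hj0
  have hj1 : j - 1728 ≠ 0 := by
    rw [h1728]
    have := jqd_sub_C_ne_zero (k := k) 1 1728
    rwa [qExpand_one_apply] at this
  have hjd1 : jd - 1728 ≠ 0 := by
    rw [h1728]
    exact jqd_sub_C_ne_zero d 1728
  have hd0 : (d : LaurentSeries k) ≠ 0 := by
    rw [← map_natCast (algebraMap k (LaurentSeries k))]
    exact (map_ne_zero _).mpr hdk
  have hΔ := deltaC_ne_zero k
  have h7 : qExpand k d (deltaC k) * deltaInvC k =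
      (theta jd / theta j) ^ 6 * (j ^ 4 * (j - 1728) ^ 3) /
        ((d : LaurentSeries k) ^ 6 * (jd ^ 4 * (jd - 1728) ^ 3)) := by
    rw [h6, deltaInvC_eq]
    field_simp
  rw [h7]
  refine F.div_mem (F.mul_mem (F.pow_mem hx 6) (F.mul_mem (F.pow_mem hjF 4)
    (F.pow_mem (F.sub_mem hjF hcF) 3))) (F.mul_mem (F.pow_mem (_root_.natCast_mem F d) 6)
    (F.mul_mem (F.pow_mem hjdF 4) (F.pow_mem (F.sub_mem hjdF hcF) 3)))

/-- `Δ(q^d)/Δ(q)` lies in the function field of `X₀(N)`, any `k`. -/
theorem deltaRatio_mem (k : Type*) [Field k] (N : ℕ) [NeZero N] (d : ℕ) [NeZero d] (hd : d ∣ N)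
    (hdk : (d : k) ≠ 0) :
    qExpand k d (deltaC k) * deltaInvC k ∈ modularFunctionFieldFullC k N := by
  obtain ⟨ℓ, hℓ⟩ := CharP.exists k
  rcases CharP.char_is_prime_or_zero k ℓ with hp | rfl
  · have := Fact.mk hp
    have hdk' : (d : ZMod ℓ) ≠ 0 := by
      intro h
      apply hdk
      have := congrArg (ZMod.castHom (dvd_refl ℓ) k) h
      simpa using this
    have h1 := coeffMap_mem_full (ZMod.castHom (dvd_refl ℓ) k) N
      (deltaRatio_mem_perfect (k := ZMod ℓ) N d hd hdk')
    rwa [map_mul, coeffMap_qExpand, coeffMap_deltaC, coeffMap_deltaInvC] at h1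
  · have : CharZero k := CharP.charP_to_charZero k
    exact deltaRatio_mem_perfect N d hd hdk

theorem natCast_ne_zero_of_dvd {N d : ℕ} (hd : d ∣ N) (hN : (N : k) ≠ 0) : (d : k) ≠ 0 := by
  obtain ⟨e, rfl⟩ := hd
  intro h
  apply hN
  rw [Nat.cast_mul, h, zero_mul]

theorem redZ_closure_mem (N : ℕ) [NeZero N] (hN : (N : k) ≠ 0) {x : LaurentSeries ℤ}
    (hx : x ∈ Submonoid.closure (YZ' N)) : redZ k x ∈ modularFunctionFieldFullC k N := by
  induction hx using Submonoid.closure_induction with
  | mem x hx =>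
    obtain ⟨d, hd0, hd, rfl⟩ := hx
    rw [map_mul, map_mul, coeffMap_C, coeffMap_qExpand, coeffMap_deltaC, coeffMap_deltaInvC]
    refine mul_mem ?_ (deltaRatio_mem k N d hd (natCast_ne_zero_of_dvd hd hN))
    rw [← algebraMap_laurent]
    exact IntermediateField.algebraMap_mem _ _
  | one => rw [map_one]; exact one_mem _
  | mul x y hx hy ihx ihy => rw [map_mul]; exact mul_mem ihx ihy

/-- the generators `j(q^d)` inside the function field -/
def genSet (k : Type*) [Field k] (N : ℕ) : Set (modularFunctionFieldFullC k N) :=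
  {y | (y : LaurentSeries k) ∈ divisorExpansionsC k N}

theorem adjoin_genSet (N : ℕ) : IntermediateField.adjoin k (genSet k N) = ⊤ := by
  apply IntermediateField.lift_injective (modularFunctionFieldFullC k N)
  rw [IntermediateField.lift_adjoin, IntermediateField.lift_top]
  have h1 : ((↑) : modularFunctionFieldFullC k N → LaurentSeries k) '' (genSet k N) =
      divisorExpansionsC k N := by
    ext x
    constructor
    · rintro ⟨y, hy, rfl⟩
      exact hy
    · intro hx
      exact ⟨⟨x, IntermediateField.subset_adjoin k _ hx⟩, hx, rfl⟩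
  exact congrArg (IntermediateField.adjoin k) h1

theorem coe_aeval_intermediate (F : IntermediateField k (LaurentSeries k)) (x : F) (P : k[X]) :
    ((Polynomial.aeval x P : F) : LaurentSeries k) = Polynomial.aeval (x : LaurentSeries k) P :=
  (Polynomial.aeval_algHom_apply F.val x P).symm

theorem relX_coe (F : IntermediateField k (LaurentSeries k)) (x : F) {n : ℕ} (v : Fin n → F) :
    RelX (k := k) x v ↔ RelX (k := k) (x : LaurentSeries k) (fun i => (v i : LaurentSeries k)) := by
  have h1 : ∀ P : Fin n → k[X], ((∑ i, Polynomial.aeval x (P i) * v i : F) : LaurentSeries k) =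
      ∑ i, Polynomial.aeval (x : LaurentSeries k) (P i) * (v i : LaurentSeries k) := by
    intro P
    rw [AddSubmonoidClass.coe_finsetSum]
    refine Finset.sum_congr rfl fun i _ => ?_
    rw [← coe_aeval_intermediate]
    rfl
  constructor
  · rintro ⟨P, hP, h⟩
    refine ⟨P, hP, ?_⟩
    rw [← h1, h]
    rfl
  · rintro ⟨P, hP, h⟩
    refine ⟨P, hP, ?_⟩
    apply Subtype.ext
    rw [h1, h]
    rfl

theorem transcendental_coe (F : IntermediateField k (LaurentSeries k)) (x : F)
    (hx : Transcendental k (x : LaurentSeries k)) : Transcendental k x := by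
  rw [transcendental_iff] at hx ⊢
  intro P hP
  apply hx P
  rw [← coe_aeval_intermediate, hP]
  rfl

/-- monomials in the generators come from integral Laurent series in `E_N` -/
theorem exists_lift_closure (N : ℕ) [NeZero N] {y : modularFunctionFieldFullC k N}
    (hy : y ∈ Submonoid.closure (genSet k N)) :
    ∃ v : LaurentSeries ℤ, ιZ v ∈ EField N ∧ redZ k v = (y : LaurentSeries k) := by
  induction hy using Submonoid.closure_induction with
  | mem y hy =>
    obtain ⟨d, hd0, hd, h⟩ := hy
    refine ⟨qExpand ℤ d (jqModC ℤ), ?_, ?_⟩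
    · rw [coeffMap_qExpand, coeffMap_jqModC]
      exact qExpand_jq_mem_EField N d hd
    · rw [coeffMap_qExpand, coeffMap_jqModC, h]
  | one => exact ⟨1, by rw [map_one]; exact one_mem _, by rw [map_one]; rfl⟩
  | mul x y hx hy ihx ihy =>
    obtain ⟨v, hv, hv'⟩ := ihx
    obtain ⟨u, hu, hu'⟩ := ihy
    exact ⟨v * u, by rw [map_mul]; exact mul_mem hv hu, by rw [map_mul, hv', hu']; rfl⟩

/-- **The degree theorem (H3)**: `[k(X₀(N)) : k(j)] = ψ(N)` for every field `k` in which `N ≠ 0`. -/
theorem finrank_full (k : Type*) [Field k] (N : ℕ) [NeZero N] (hN : (N : k) ≠ 0) :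
    Module.finrank k⟮(⟨jqModC k, jqModC_mem_full k N⟩ : modularFunctionFieldFullC k N)⟯
      (modularFunctionFieldFullC k N) = dedekindPsi N := by
  obtain ⟨ω, hω, hrel⟩ := lower N k hN
  have hx : Transcendental k (⟨jqModC k, jqModC_mem_full k N⟩ : modularFunctionFieldFullC k N) :=
    transcendental_coe _ _ (transcendental_jq k)
  refine finrank_eq_of_rel hx (genSet k N) (adjoin_genSet N) ?_
    (fun i => ⟨redZ k (ω i), redZ_closure_mem N hN (hω i)⟩) ?_
  · intro v hv
    choose u hu huv using fun i => exists_lift_closure N (hv i)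
    rw [relX_coe]
    have h1 := relX_of_mem_EField N k u hu
    have h2 : (fun i => redZ k (u i)) = fun i => (v i : LaurentSeries k) := funext huv
    rw [h2] at h1
    exact h1
  · rw [relX_coe]
    exact hrel

end Fermat.Agent.Igusa
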