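import Mathlib
import Fermat.Agent.S18.Main
import Fermat.Agent.Deuring.Degree

set_option autoImplicit false

noncomputable section

/-! Base change of the degree theorem along an extension of the constant field. -/

open Module Polynomial HahnSeries ModularCurve
open scoped IntermediateField

namespace Fermat.Agent.Igusa

section Abstract

variable {k₀ k L₀ L : Type*} [Field k₀] [Field k] [Field L₀] [Field L]
variable [Algebra k₀ L₀] [Algebra k L] (f : k₀ →+* k) (σ : L₀ →+* L)

theorem map_adjoin_simple (hσ : ∀ a, σ (algebraMap k₀ L₀ a) = algebraMap k L (f a)) (y₀ : L₀)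
    {c : L₀} (hc : c ∈ k₀⟮y₀⟯) : σ c ∈ k⟮σ y₀⟯ := by
  induction hc using IntermediateField.adjoin_induction with
  | mem x hx =>
    rw [Set.mem_singleton_iff] at hx
    rw [hx]
    exact IntermediateField.mem_adjoin_simple_self k _
  | algebraMap a =>
    rw [hσ]
    exact IntermediateField.algebraMap_mem _ _
  | add x y _ _ hx hy => rw [map_add]; exact add_mem hx hy
  | mul x y _ _ hx hy => rw [map_mul]; exact mul_mem hx hy
  | inv x _ hx => rw [map_inv₀]; exact inv_mem hx

theorem linearIndependent_baseChange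
    (hdisj : ∀ (ι : Type) [Fintype ι] (e : ι → L₀), LinearIndependent k₀ e →
      LinearIndependent k (fun i => σ (e i)))
    {y₀ : L₀} (hy : Transcendental k₀ y₀) {n : ℕ} (e : Fin n → L₀)
    (he : LinearIndependent k₀⟮y₀⟯ e) : LinearIndependent k⟮σ y₀⟯ (fun i => σ (e i)) := by
  rw [Deuring.linearIndependent_adjoin_iff] at he ⊢
  intro p hp i
  -- a common bound for the degrees
  obtain ⟨M, hM⟩ : ∃ M : ℕ, ∀ i, (p i).natDegree < M :=
    ⟨(Finset.univ.sup fun i => (p i).natDegree) + 1, fun i =>
      Nat.lt_succ_of_le (Finset.le_sup (f := fun i => (p i).natDegree) (Finset.mem_univ i))⟩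
  have h1 : LinearIndependent k₀ (fun ia : Fin n × Fin M => y₀ ^ (ia.2 : ℕ) * e ia.1) := by
    rw [Fintype.linearIndependent_iff]
    intro g hg ⟨i, a⟩
    have h2 := he (fun i => ∑ a : Fin M, Polynomial.monomial (a : ℕ) (g (i, a))) (by
      rw [← hg, Fintype.sum_prod_type]
      apply Finset.sum_congr rfl
      intro i _
      rw [map_sum, Finset.sum_mul]
      apply Finset.sum_congr rfl
      intro a _
      rw [Polynomial.aeval_monomial, Algebra.smul_def, mul_assoc]) i
    have h3 : (∑ a : Fin M, Polynomial.monomial (a : ℕ) (g (i, a))) = 0 := by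
      by_contra h4
      exact hy ⟨_, h4, h2⟩
    have h4 := congrArg (fun q => Polynomial.coeff q (a : ℕ)) h3
    simp only [Polynomial.finsetSum_coeff, Polynomial.coeff_monomial, Polynomial.coeff_zero] at h4
    rw [Finset.sum_eq_single a (fun b _ hb => if_neg (fun h => hb (Fin.ext h)))
      (fun h => absurd (Finset.mem_univ a) h), if_pos rfl] at h4
    exact h4
  have h2 := hdisj _ _ h1
  rw [Fintype.linearIndependent_iff] at h2
  have h3 := h2 (fun ia => (p ia.1).coeff (ia.2 : ℕ)) (by
    rw [← hp, Fintype.sum_prod_type]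
    apply Finset.sum_congr rfl
    intro i _
    rw [Polynomial.aeval_eq_sum_range' (hM i), Finset.sum_mul, ← Fin.sum_univ_eq_sum_range
      (fun a => (p i).coeff a • σ y₀ ^ a * σ (e i)) M]
    apply Finset.sum_congr rfl
    intro a _
    rw [map_mul, map_pow, smul_mul_assoc])
  have h4 : p i = 0 := by
    ext a
    rw [Polynomial.coeff_zero]
    by_cases ha : a < M
    · exact h3 (i, ⟨a, ha⟩)
    · exact Polynomial.coeff_eq_zero_of_natDegree_lt (lt_of_lt_of_le (hM i) (not_lt.mp ha))
  rw [h4, map_zero]

/-- Base change of a function field: the degree over `k(y)` is preserved. -/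
theorem finrank_baseChange (hσ : ∀ a, σ (algebraMap k₀ L₀ a) = algebraMap k L (f a))
    (hdisj : ∀ (ι : Type) [Fintype ι] (e : ι → L₀), LinearIndependent k₀ e →
      LinearIndependent k (fun i => σ (e i)))
    {y₀ : L₀} (hy : Transcendental k₀ y₀) [FiniteDimensional k₀⟮y₀⟯ L₀]
    (hgen : IntermediateField.adjoin k (Set.range σ) = ⊤) :
    finrank k⟮σ y₀⟯ L = finrank k₀⟮y₀⟯ L₀ := by
  let b := Module.finBasis k₀⟮y₀⟯ L₀
  have hli := linearIndependent_baseChange σ hdisj hy b b.linearIndependent
  set W : Submodule k⟮σ y₀⟯ L := Submodule.span k⟮σ y₀⟯ (Set.range fun i => σ (b i)) with hW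
  have hmem : ∀ x : L₀, σ x ∈ W := by
    intro x
    rw [← b.sum_repr x, map_sum]
    refine Submodule.sum_mem _ fun i _ => ?_
    rw [IntermediateField.smul_def, smul_eq_mul, map_mul]
    have h1 : σ (b.repr x i : L₀) ∈ k⟮σ y₀⟯ := map_adjoin_simple f σ hσ y₀ (b.repr x i).2
    exact W.smul_mem (⟨_, h1⟩ : k⟮σ y₀⟯) (Submodule.subset_span ⟨i, rfl⟩)
  have hmul : ∀ x ∈ W, ∀ z ∈ W, x * z ∈ W := by
    intro x hx z hz
    induction hx using Submodule.span_induction with
    | mem x hx =>
      obtain ⟨i, rfl⟩ := hx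
      induction hz using Submodule.span_induction with
      | mem z hz =>
        obtain ⟨j, rfl⟩ := hz
        change σ (b i) * σ (b j) ∈ W
        rw [← map_mul]
        exact hmem _
      | zero => rw [mul_zero]; exact W.zero_mem
      | add z w _ _ hz hw => rw [mul_add]; exact W.add_mem hz hw
      | smul c z _ hz => rw [mul_smul_comm]; exact W.smul_mem c hz
    | zero => rw [zero_mul]; exact W.zero_mem
    | add x w _ _ hx hw => rw [add_mul]; exact W.add_mem hx hw
    | smul c x _ hx => rw [smul_mul_assoc]; exact W.smul_mem c hx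
  have h1W : (1 : L) ∈ W := by
    have := hmem 1
    rwa [map_one] at this
  let S : Subalgebra k⟮σ y₀⟯ L :=
    { W with
      mul_mem' := fun {x z} hx hz => hmul x hx z hz
      one_mem' := h1W
      algebraMap_mem' := fun c => by
        rw [Algebra.algebraMap_eq_smul_one]
        exact W.smul_mem c h1W }
  have hSW : ∀ x, x ∈ S ↔ x ∈ W := fun x => Iff.rfl
  have hfinW : FiniteDimensional k⟮σ y₀⟯ W := by
    rw [hW]
    exact FiniteDimensional.span_of_finite _ (Set.finite_range _)
  have hfinS : FiniteDimensional k⟮σ y₀⟯ S := hfinW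
  have hinv : ∀ x ∈ S, x⁻¹ ∈ S := by
    intro x hx
    have h1 : IsAlgebraic k⟮σ y₀⟯ ((⟨x, hx⟩ : S) : L) := by
      have h2 : IsIntegral k⟮σ y₀⟯ (⟨x, hx⟩ : S) := Algebra.IsIntegral.isIntegral _
      exact (h2.map S.val).isAlgebraic
    exact S.inv_mem_of_algebraic (x := ⟨x, hx⟩) h1
  have htop : ∀ x : L, x ∈ S := by
    intro x
    have hx : x ∈ IntermediateField.adjoin k (Set.range σ) := by
      rw [hgen]
      exact IntermediateField.mem_top
    induction hx using IntermediateField.adjoin_induction with
    | mem x hx =>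
      obtain ⟨z, rfl⟩ := hx
      exact hmem z
    | algebraMap a => exact S.algebraMap_mem (algebraMap k k⟮σ y₀⟯ a)
    | add x y _ _ hx hy => exact add_mem hx hy
    | mul x y _ _ hx hy => exact mul_mem hx hy
    | inv x _ hx => exact hinv x hx
  have hspan : ⊤ ≤ Submodule.span k⟮σ y₀⟯ (Set.range fun i => σ (b i)) := by
    intro x _
    exact htop x
  rw [Module.finrank_eq_card_basis (Basis.mk hli hspan), Fintype.card_fin]

end Abstract

section Laurent

variable {k₀ k : Type*} [Field k₀] [Field k]

theorem coeff_algebraMap_mul' {K : Type*} [Field K] (c : K) (y : LaurentSeries K) (n : ℤ) :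
    (algebraMap K (LaurentSeries K) c * y).coeff n = c * y.coeff n :=
  GaussVal.coeff_algebraMap_mul c y n

/-- `k` and `k₀((q))` are linearly disjoint over `k₀` inside `k((q))`. -/
theorem linearIndependent_coeffMap [Algebra k₀ k] {ι : Type*} [Fintype ι]
    (e : ι → LaurentSeries k₀)
    (he : ∀ g : ι → k₀, ∑ i, algebraMap k₀ (LaurentSeries k₀) (g i) * e i = 0 → ∀ i, g i = 0)
    (g : ι → k)
    (hg : ∑ i, algebraMap k (LaurentSeries k) (g i) * coeffMap (algebraMap k₀ k) (e i) = 0)
    (i : ι) : g i = 0 := by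
  rw [← Module.forall_dual_apply_eq_zero_iff k₀]
  intro φ
  refine he (fun i => φ (g i)) ?_ i
  ext n
  have h1 := congrArg (fun z : LaurentSeries k => φ (z.coeff n)) hg
  simp only [HahnSeries.coeff_sum, HahnSeries.coeff_zero, map_zero, map_sum,
    coeff_algebraMap_mul', coeffMap_coeff] at h1 ⊢
  rw [← h1]
  apply Finset.sum_congr rfl
  intro i _
  rw [mul_comm (g i), ← Algebra.smul_def, map_smul, smul_eq_mul, mul_comm]

variable (k₀ k) in
/-- the base change homomorphism on modular function fields -/
theorem coeffMap_mem_full_bc [Algebra k₀ k] (N : ℕ) {x : LaurentSeries k₀}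
    (hx : x ∈ modularFunctionFieldFullC k₀ N) :
    coeffMap (algebraMap k₀ k) x ∈ modularFunctionFieldFullC k N := by
  rw [modularFunctionFieldFullC] at hx
  induction hx using IntermediateField.adjoin_induction with
  | mem x hx =>
    obtain ⟨d, hne, hd, rfl⟩ := hx
    rw [coeffMap_qExpand, coeffMap_jqModC]
    exact jqModCd_mem_full k N hd
  | algebraMap a =>
    rw [algebraMap_laurentSeries_eq_single, coeffMap_single]
    rw [← algebraMap_laurentSeries_eq_single]
    exact IntermediateField.algebraMap_mem _ _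
  | add x y _ _ hx hy => rw [map_add]; exact add_mem hx hy
  | mul x y _ _ hx hy => rw [map_mul]; exact mul_mem hx hy
  | inv x _ hx => rw [map_inv₀]; exact inv_mem hx

/-- the base change homomorphism on modular function fields -/
def bcHom (k₀ k : Type*) [Field k₀] [Field k] [Algebra k₀ k] (N : ℕ) :
    modularFunctionFieldFullC k₀ N →+* modularFunctionFieldFullC k N where
  toFun x := ⟨coeffMap (algebraMap k₀ k) x, coeffMap_mem_full_bc k₀ k N x.2⟩
  map_one' := Subtype.ext (map_one _)
  map_mul' _ _ := Subtype.ext (map_mul _ _ _)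
  map_zero' := Subtype.ext (map_zero _)
  map_add' _ _ := Subtype.ext (map_add _ _ _)

@[simp]
theorem coe_bcHom [Algebra k₀ k] (N : ℕ) (x : modularFunctionFieldFullC k₀ N) :
    (bcHom k₀ k N x : LaurentSeries k) = coeffMap (algebraMap k₀ k) x := rfl

theorem adjoin_range_bcHom [Algebra k₀ k] (N : ℕ) :
    IntermediateField.adjoin k (Set.range (bcHom k₀ k N)) = ⊤ := by
  rw [eq_top_iff]
  intro x _
  have h1 : modularFunctionFieldFullC k N ≤
      (IntermediateField.adjoin k (Set.range (bcHom k₀ k N))).map
        (modularFunctionFieldFullC k N).val := by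
    conv_lhs => rw [modularFunctionFieldFullC]
    rw [IntermediateField.adjoin_le_iff]
    rintro z ⟨d, hne, hd, rfl⟩
    refine ⟨bcHom k₀ k N ⟨_, jqModCd_mem_full k₀ N hd⟩,
      IntermediateField.subset_adjoin _ _ ⟨_, rfl⟩, ?_⟩
    change coeffMap (algebraMap k₀ k) (qExpand k₀ d (jqModC k₀)) = _
    rw [coeffMap_qExpand, coeffMap_jqModC]
  obtain ⟨z, hz, hzx⟩ := h1 x.2
  have : z = x := Subtype.ext hzx
  rw [← this]
  exact hz

open S18aux in
/-- **Base change of the degree theorem**. -/
theorem degThm_baseChange (k₀ k : Type*) [Field k₀] [Field k] [Algebra k₀ k] {N : ℕ}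
    (hN : N ≠ 0) (h : DegThm k₀ N) : DegThm k N := by
  have hpos := dedekindPsi_pos hN
  rw [DegThm] at h
  have hfin : FiniteDimensional
      k₀⟮(⟨jqModC k₀, jqModC_mem_full k₀ N⟩ : modularFunctionFieldFullC k₀ N)⟯
      (modularFunctionFieldFullC k₀ N) :=
    FiniteDimensional.of_finrank_pos (by rw [h]; exact hpos)
  have hy : Transcendental k₀
      (⟨jqModC k₀, jqModC_mem_full k₀ N⟩ : modularFunctionFieldFullC k₀ N) :=
    GaussVal.transcendental_jEl k₀ _ N rfl
  have h1 := finrank_baseChange (algebraMap k₀ k) (bcHom k₀ k N) (fun a => by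
      apply Subtype.ext
      change coeffMap (algebraMap k₀ k) (algebraMap k₀ (LaurentSeries k₀) a) =
        algebraMap k (LaurentSeries k) (algebraMap k₀ k a)
      rw [algebraMap_laurentSeries_eq_single, coeffMap_single,
        ← algebraMap_laurentSeries_eq_single]) (fun ι _ e he => by
      rw [Fintype.linearIndependent_iff] at he ⊢
      intro g hg i
      refine linearIndependent_coeffMap (k₀ := k₀) (k := k)
        (fun i => (e i : LaurentSeries k₀)) ?_ g ?_ i
      · intro g hg i
        refine he g ?_ i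
        apply Subtype.ext
        refine Eq.trans ?_ hg
        push_cast
        apply Finset.sum_congr rfl
        intro i _
        rw [Algebra.smul_def]
      · have h2 := congrArg (Subtype.val) hg
        push_cast at h2
        rw [← h2]
        apply Finset.sum_congr rfl
        intro i _
        rw [Algebra.smul_def]
        rfl) hy (adjoin_range_bcHom N)
  have h2 : bcHom k₀ k N ⟨jqModC k₀, jqModC_mem_full k₀ N⟩ =
      ⟨jqModC k, jqModC_mem_full k N⟩ := by
    apply Subtype.ext
    rw [coe_bcHom, coeffMap_jqModC]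
  rw [h2] at h1
  exact h1.trans h

end Laurent

end Fermat.Agent.Igusa
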